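import Mathlib
import Fermat.Prelude.Def_AlgebraicCurve_BaseChangeGalois
import Fermat.Agent.Lib.ConstExt.Div
import Fermat.Agent.Lib.RR.Basic
import Fermat.Agent.S17.Pts.Eval
import Fermat.Agent.S18.KeySetup

set_option autoImplicit false

/-!
# S27, seat E (lifting of torsion), sub-architect helper38: DEFINITIONS for generic points

Abstract setting `BCSetup K F Ω FΩ`: `K ⊂ Ω` algebraically closed fields (ANY characteristic),
`F / K` and `FΩ / Ω` function fields (`IsRRField`), `φ : F → FΩ` a constant field extension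
(`ConstExt.IsConstExt`), and the action of `Aut(Ω/K)` on `FΩ` (trivial on `φ F`).

This is the abstract form of `laurentBaseChange` + `arithmeticGalois` + `descTheta` of the package
`Lib/Div` (S17); the leaves of seat E are ports of `Lib/Div` to this setting, in any
characteristic.  Dictionary:

  `ℚ` ↦ `K`,  `laurentBaseChange Ω F₀` ↦ `FΩ`,  `descTheta` ↦ `B.φ`,  `arithmeticGalois F₀ σ` ↦
  `B.act σ`,  `xOf Ω x₀` ↦ `B.φ x`,  `closField S` ↦ `closFieldK K S`,  `galOver S` ↦ `galOverK K S`,
  `DescPlaces.ext` ↦ `B.ext`,  `descBc` ↦ `B.bc`.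

This file contains definitions only.  DO NOT EDIT (ask helper38).
-/

noncomputable section

namespace Fermat.Agent.S27

open AlgebraicCurve Fermat.Agent.RR

universe uK uF uΩ uFΩ

/-- a constant field extension of function fields with its Galois action. -/
structure BCSetup (K : Type uK) (F : Type uF) (Ω : Type uΩ) (FΩ : Type uFΩ)
    [Field K] [Field F] [Field Ω] [Field FΩ] [Algebra K F] [Algebra K Ω] [Algebra Ω FΩ] where
  /-- the embedding of the small function field -/
  φ : F →+* FΩ
  isConstExt : Fermat.Agent.ConstExt.IsConstExt (K := K) (C := Ω) φ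
  hF : IsRRField K F
  hΩ : IsRRField Ω FΩ
  /-- the action of `Aut(Ω/K)` on the coefficients -/
  act : (Ω ≃ₐ[K] Ω) →* SemilinearAut Ω FΩ
  baseAut_act : ∀ (σ : Ω ≃ₐ[K] Ω) (a : Ω), SemilinearAut.baseAut (act σ) a = σ a
  act_φ : ∀ (σ : Ω ≃ₐ[K] Ω) (f : F), act σ • φ f = φ f

section Basic

variable {K : Type uK} {F : Type uF} {Ω : Type uΩ} {FΩ : Type uFΩ}
  [Field K] [Field F] [Field Ω] [Field FΩ] [Algebra K F] [Algebra K Ω] [Algebra Ω FΩ]

namespace BCSetup

variable (B : BCSetup K F Ω FΩ)

/-- all places of `F / K` have residue field `K`. -/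
theorem resConst (B : BCSetup K F Ω FΩ) : Fermat.Agent.ConstExt.ResConst K F :=
  fun P _ hf => Fermat.Agent.RR.exists_const_sub B.hF P hf

/-- the extension of a place of `F` to `FΩ`. -/
def ext (v : Place K F) : Place Ω FΩ :=
  Fermat.Agent.ConstExt.extPlace B.isConstExt B.resConst v

/-- base change of divisors. -/
def bcDiv : Divisor K F →+ Divisor Ω FΩ :=
  Fermat.Agent.ConstExt.extDiv B.isConstExt B.resConst

/-- base change of divisor classes of degree zero. -/
def bc : Pic0 K F →+ Pic0 Ω FΩ :=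
  Fermat.Agent.ConstExt.bc B.isConstExt B.resConst

end BCSetup

/-- the place `P` is a zero of `u - c`. -/
def Over (u : FΩ) (P : Place Ω FΩ) (c : Ω) : Prop :=
  0 < P.ord (u - algebraMap Ω FΩ c)

/-- the effective divisor `P_0 + ... + P_{n-1}`. -/
def sumPl {n : ℕ} (P : Fin n → Place Ω FΩ) : Divisor Ω FΩ :=
  ∑ i, Finsupp.single (P i) (1 : ℤ)

/-- the places `P i` lie over algebraically independent (over `K`) values of `x`. -/
def IsGenTuple (B : BCSetup K F Ω FΩ) (x : F) {n : ℕ} (P : Fin n → Place Ω FΩ) : Prop :=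
  ∃ c : Fin n → Ω, AlgebraicIndependent K c ∧ ∀ i, Over (B.φ x) (P i) (c i)

/-- the place `w` of `FΩ` is generic over `K`: it is trivial on `φ F`. -/
def IsGenPl (B : BCSetup K F Ω FΩ) (w : Place Ω FΩ) : Prop :=
  ∀ f : F, w.ord (B.φ f) = 0

theorem degree_sub_single_pcls {K F : Type*} [Field K] [Field F] [Algebra K F] (h : IsRRField K F)
    (P₀ : Place K F) (D : Divisor K F) :
    Divisor.degree (D - Finsupp.single P₀ (Divisor.degree D)) = 0 := by
  rw [map_sub, Divisor.degree_single, h.deg_one]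
  simp

/-- the class of `D - deg(D) P₀`. -/
def pcls {K F : Type*} [Field K] [Field F] [Algebra K F] (h : IsRRField K F)
    (P₀ : Place K F) (D : Divisor K F) : Pic0 K F :=
  Pic0.mk ⟨D - Finsupp.single P₀ (Divisor.degree D), degree_sub_single_pcls h P₀ D⟩

variable (K) in
/-- the algebraic closure in `Ω` of `K(S)`. -/
def closFieldK (S : Set Ω) : IntermediateField K Ω :=
  (algebraicClosure ↥(IntermediateField.adjoin K S) Ω).restrictScalars K

theorem mem_closFieldK {S : Set Ω} {a : Ω} :
    a ∈ closFieldK K S ↔ IsAlgebraic ↥(IntermediateField.adjoin K S) a := by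
  unfold closFieldK
  rw [IntermediateField.mem_restrictScalars, mem_algebraicClosure_iff]

variable (K) in
/-- `Aut(Ω / closFieldK K S)` inside `Aut(Ω/K)`. -/
def galOverK (S : Set Ω) : Subgroup (Ω ≃ₐ[K] Ω) where
  carrier := {σ | ∀ a ∈ closFieldK K S, σ a = a}
  one_mem' := fun _ _ => rfl
  mul_mem' := fun {σ τ} hσ hτ a ha => by
    show σ (τ a) = a
    rw [hτ a ha, hσ a ha]
  inv_mem' := fun {σ} hσ a ha => by
    show σ.symm a = a
    rw [AlgEquiv.symm_apply_eq, hσ a ha]

theorem mem_galOverK {S : Set Ω} {σ : Ω ≃ₐ[K] Ω} :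
    σ ∈ galOverK K S ↔ ∀ a ∈ closFieldK K S, σ a = a := Iff.rfl

/-- the orbit of `x` under a subgroup of `Aut(Ω/K)` acting through `B.act`. -/
def orbitOfK (B : BCSetup K F Ω FΩ) {X : Type*} [SMul (SemilinearAut Ω FΩ) X]
    (H : Subgroup (Ω ≃ₐ[K] Ω)) (x : X) : Set X :=
  {y | ∃ σ ∈ H, B.act σ • x = y}

end Basic

end Fermat.Agent.S27
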