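import Mathlib
import Fermat.Agent.S27.Lift.Defs
import Fermat.Agent.F3.I2.Descent.AutC

set_option autoImplicit false

/-!
# S27, seat E, leaf FIELDK (helper74; sub-architect helper38): pure field theory

Ports of `Fermat/Agent/Lib/Div/FieldExt.lean` to an algebraically closed base field `K` of ANY
characteristic: `closFieldK K S` (the algebraic closure in `Ω` of `K(S)`) and
`galOverK K S = Aut(Ω / closFieldK K S)`.

* `closFieldK_isAlgClosed`, `subset_closFieldK`, `closFieldK_mono`, `galOverK_anti`;
* `mem_closFieldK_iff_adjoin`, `closFieldK_eq_matroid_closure`, `algebraMap_mem_closFieldK`,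
  `mem_closFieldK_of_isAlgebraic`;
* `exists_algEquiv_translate` : for `z` transcendental over `L` and `a : L` some `σ ∈ Aut(Ω/L)` has
  `σ z = z + a`;
* `exists_galOverK_translate` : translations by `a ∈ K` of an element outside `closFieldK K S`;
* `mem_closFieldK_of_finite_orbit`;
* `algebraicIndependent_of_mem_closFieldK`, `not_mem_closFieldK_of_algebraicIndependent`;
* `exists_aut_of_transcendenceBasis` : two finite transcendence bases of `Ω / K` are conjugate
  under `Aut(Ω/K)`.
-/

noncomputable section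

namespace Fermat.Agent.S27

open MvPolynomial

universe uK uΩ

section General

/-- transfer of algebraicity along a ring homomorphism of base fields which is compatible with
the structure maps. -/
theorem isAlgebraic_of_ringHom_compK {Ω : Type*} [Field Ω] {A B : Type*} [Field A] [Field B]
    [Algebra A Ω] [Algebra B Ω] (f : A →+* B) (hf : (algebraMap B Ω).comp f = algebraMap A Ω)
    {a : Ω} (ha : IsAlgebraic A a) : IsAlgebraic B a := by
  obtain ⟨p, hp0, hpa⟩ := ha
  refine ⟨p.map f, (Polynomial.map_ne_zero_iff f.injective).mpr hp0, ?_⟩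
  rw [Polynomial.aeval_def, Polynomial.eval₂_map, hf, ← Polynomial.aeval_def]
  exact hpa

/-- **Translations.**  For `z` transcendental over `L` (in an algebraically closed `Ω`) and `a : L`
some automorphism of `Ω` over `L` maps `z` to `z + a`. -/
theorem exists_algEquiv_translate {L : Type*} {Ω : Type*} [Field L] [Field Ω] [Algebra L Ω]
    [IsAlgClosed Ω] {z : Ω} (hz : Transcendental L z) (a : L) :
    ∃ σ : Ω ≃ₐ[L] Ω, σ z = z + algebraMap L Ω a := by
  classical
  have hs : AlgebraicIndepOn L id ({z} : Set Ω) := by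
    have : Subsingleton (({z} : Set Ω)) := by
      refine ⟨fun a b => Subtype.ext ?_⟩
      rw [Set.mem_singleton_iff.mp a.2, Set.mem_singleton_iff.mp b.2]
    exact (algebraicIndependent_singleton_iff (⟨z, rfl⟩ : ({z} : Set Ω))).mpr hz
  obtain ⟨B, hzB, hB⟩ := exists_isTranscendenceBasis_superset hs
  have hzB' : z ∈ B := hzB rfl
  let c : B → L := fun b => if (b : Ω) = z then a else 0
  let e : Algebra.adjoin L (Set.range ((↑) : B → Ω)) ≃ₐ[L]
      Algebra.adjoin L (Set.range ((↑) : B → Ω)) :=
    hB.1.aevalEquiv.symm.trans ((Fermat.Agent.F3I2.autCShift c).trans hB.1.aevalEquiv)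
  have := IsAlgClosed.isAlgClosure_of_transcendence_basis _ hB
  have hfix : ∀ x : L, IsAlgClosure.equivOfEquiv Ω Ω e.toRingEquiv (algebraMap L Ω x) =
      algebraMap L Ω x := by
    intro x
    have h1 : algebraMap L Ω x = algebraMap (Algebra.adjoin L (Set.range ((↑) : B → Ω))) Ω
        (algebraMap L _ x) := rfl
    rw [h1, IsAlgClosure.equivOfEquiv_algebraMap]
    congr 1
    exact e.commutes x
  refine ⟨AlgEquiv.ofRingEquiv (f := IsAlgClosure.equivOfEquiv Ω Ω e.toRingEquiv) hfix, ?_⟩
  let i : B := ⟨z, hzB'⟩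
  let zB : Algebra.adjoin L (Set.range ((↑) : B → Ω)) :=
    ⟨z, Algebra.subset_adjoin ⟨i, rfl⟩⟩
  have h1 : z = algebraMap (Algebra.adjoin L (Set.range ((↑) : B → Ω))) Ω zB := rfl
  have h2 : hB.1.aevalEquiv (X i) = zB := by
    apply Subtype.ext
    have h5 := hB.1.algebraMap_aevalEquiv (X i)
    rw [aeval_X] at h5
    exact h5
  have h3 : hB.1.aevalEquiv.symm zB = X i := by
    rw [← h2, AlgEquiv.symm_apply_apply]
  have h4 : e zB = hB.1.aevalEquiv (X i + C a) := by
    show hB.1.aevalEquiv ((Fermat.Agent.F3I2.autCShift c) (hB.1.aevalEquiv.symm zB)) = _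
    rw [h3, Fermat.Agent.F3I2.autCShift_X]
    simp [c, i]
  show IsAlgClosure.equivOfEquiv Ω Ω e.toRingEquiv z = z + algebraMap L Ω a
  conv_lhs => rw [h1]
  rw [IsAlgClosure.equivOfEquiv_algebraMap]
  show algebraMap (Algebra.adjoin L (Set.range ((↑) : B → Ω))) Ω (e zB) = z + algebraMap L Ω a
  rw [h4, hB.1.algebraMap_aevalEquiv]
  simp only [map_add, aeval_X, aeval_C, i]

/-- **Conjugacy of transcendence bases.**  Two transcendence bases of an algebraically closed
field `Ω` over `K` indexed by the same type are conjugate under `Aut(Ω/K)`. -/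
theorem exists_aut_of_transcendenceBasis' {K : Type*} {Ω : Type*} [Field K] [Field Ω]
    [Algebra K Ω] [IsAlgClosed Ω] {ι : Type*} (c d : ι → Ω) (hc : IsTranscendenceBasis K c)
    (hd : IsTranscendenceBasis K d) : ∃ σ : Ω ≃ₐ[K] Ω, ∀ i, σ (d i) = c i := by
  classical
  let E : Algebra.adjoin K (Set.range d) ≃ₐ[K] Algebra.adjoin K (Set.range c) :=
    hd.1.aevalEquiv.symm.trans hc.1.aevalEquiv
  have i1 := IsAlgClosed.isAlgClosure_of_transcendence_basis _ hc
  have i2 := IsAlgClosed.isAlgClosure_of_transcendence_basis _ hd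
  have hfix : ∀ x : K, IsAlgClosure.equivOfEquiv Ω Ω E.toRingEquiv (algebraMap K Ω x) =
      algebraMap K Ω x := by
    intro x
    have h1 : algebraMap K Ω x = algebraMap (Algebra.adjoin K (Set.range d)) Ω
        (algebraMap K _ x) := rfl
    rw [h1, IsAlgClosure.equivOfEquiv_algebraMap]
    have h2 : E.toRingEquiv (algebraMap K _ x) = algebraMap K _ x := E.commutes x
    rw [h2]
    rfl
  refine ⟨AlgEquiv.ofRingEquiv (f := IsAlgClosure.equivOfEquiv Ω Ω E.toRingEquiv) hfix,
    fun i => ?_⟩
  let dB : Algebra.adjoin K (Set.range d) := ⟨d i, Algebra.subset_adjoin ⟨i, rfl⟩⟩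
  let cB : Algebra.adjoin K (Set.range c) := ⟨c i, Algebra.subset_adjoin ⟨i, rfl⟩⟩
  have h1 : d i = algebraMap (Algebra.adjoin K (Set.range d)) Ω dB := rfl
  have h2 : hd.1.aevalEquiv (X i) = dB := by
    apply Subtype.ext
    have h5 := hd.1.algebraMap_aevalEquiv (X i)
    rw [aeval_X] at h5
    exact h5
  have h2' : hc.1.aevalEquiv (X i) = cB := by
    apply Subtype.ext
    have h5 := hc.1.algebraMap_aevalEquiv (X i)
    rw [aeval_X] at h5
    exact h5
  have h3 : hd.1.aevalEquiv.symm dB = X i := by
    rw [← h2, AlgEquiv.symm_apply_apply]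
  have h4 : E dB = cB := by
    show hc.1.aevalEquiv (hd.1.aevalEquiv.symm dB) = _
    rw [h3, h2']
  show IsAlgClosure.equivOfEquiv Ω Ω E.toRingEquiv (d i) = c i
  conv_lhs => rw [h1]
  rw [IsAlgClosure.equivOfEquiv_algebraMap]
  show algebraMap (Algebra.adjoin K (Set.range c)) Ω (E dB) = c i
  rw [h4]
  rfl

end General

variable {K : Type uK} {Ω : Type uΩ} [Field K] [Field Ω] [Algebra K Ω]

/-- **(A2)** `closFieldK K S` is algebraically closed. -/
theorem closFieldK_isAlgClosed [IsAlgClosed Ω] (S : Set Ω) : IsAlgClosed ↥(closFieldK K S) := by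
  have h : IsAlgClosed ↥(algebraicClosure ↥(IntermediateField.adjoin K S) Ω) :=
    IsAlgClosure.isAlgClosed ↥(IntermediateField.adjoin K S)
  exact h

theorem subset_closFieldK (S : Set Ω) : S ⊆ closFieldK K S := by
  intro a ha
  rw [SetLike.mem_coe, mem_closFieldK]
  exact isAlgebraic_algebraMap
    (⟨a, IntermediateField.subset_adjoin K S ha⟩ : ↥(IntermediateField.adjoin K S))

theorem closFieldK_mono {S T : Set Ω} (h : S ⊆ T) : closFieldK K S ≤ closFieldK K T := by
  intro a ha
  rw [mem_closFieldK] at ha ⊢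
  exact isAlgebraic_of_ringHom_compK
    (IntermediateField.inclusion (IntermediateField.adjoin.mono K S T h)).toRingHom rfl ha

/-- the elements of `K` lie in every `closFieldK K S`. -/
theorem algebraMap_mem_closFieldK (S : Set Ω) (a : K) : algebraMap K Ω a ∈ closFieldK K S :=
  (closFieldK K S).algebraMap_mem a

/-- elements algebraic over `K` lie in every `closFieldK K S`. -/
theorem mem_closFieldK_of_isAlgebraic {a : Ω} (ha : IsAlgebraic K a) (S : Set Ω) :
    a ∈ closFieldK K S := by
  rw [mem_closFieldK]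
  exact isAlgebraic_of_ringHom_compK (algebraMap K ↥(IntermediateField.adjoin K S)) rfl ha

/-- `Aut(Ω / closFieldK K T) ≤ Aut(Ω / closFieldK K S)` for `S ⊆ T`. -/
theorem galOverK_anti {S T : Set Ω} (h : S ⊆ T) : galOverK K T ≤ galOverK K S := by
  intro σ hσ
  rw [mem_galOverK] at hσ ⊢
  intro a ha
  exact hσ a (closFieldK_mono h ha)

/-- membership in `closFieldK K S` is algebraicity over the subalgebra generated by `S`. -/
theorem mem_closFieldK_iff_adjoin {S : Set Ω} {a : Ω} :
    a ∈ closFieldK K S ↔ IsAlgebraic ↥(Algebra.adjoin K S) a := by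
  rw [mem_closFieldK, ← IntermediateField.isAlgebraic_adjoin_iff]

theorem closFieldK_eq_matroid_closure (S : Set Ω) :
    (closFieldK K S : Set Ω) = (AlgebraicIndependent.matroid K Ω).closure S := by
  rw [AlgebraicIndependent.matroid_closure_eq]
  ext a
  rw [SetLike.mem_coe, mem_closFieldK_iff_adjoin, SetLike.mem_coe,
    Subalgebra.mem_algebraicClosure]

/-- **(A3)** counting: `g` algebraically independent elements that are algebraic over the field
generated by a set `S` of at most `g` elements: then `S` has exactly `g` elements and is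
algebraically independent. -/
theorem algebraicIndependent_of_mem_closFieldK {g : ℕ} (c : Fin g → Ω)
    (hc : AlgebraicIndependent K c) (S : Finset Ω) (hS : S.card ≤ g)
    (hcS : ∀ i, c i ∈ closFieldK K (S : Set Ω)) :
    S.card = g ∧ AlgebraicIndependent K (fun a : (S : Set Ω) => (a : Ω)) := by
  classical
  set M := AlgebraicIndependent.matroid K Ω with hM
  have hsub : Set.range c ⊆ M.closure (S : Set Ω) := by
    rintro _ ⟨i, rfl⟩
    rw [hM, ← closFieldK_eq_matroid_closure]
    exact hcS i
  have hind : M.Indep (Set.range c) :=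
    AlgebraicIndependent.matroid_indep_iff.mpr hc.to_subtype_range
  have hcard : (Set.range c).encard = g := by
    rw [← Set.image_univ, hc.injective.encard_image, Set.encard_univ]
    simp
  have h1 : (g : ℕ∞) ≤ M.eRk (S : Set Ω) := by
    rw [← hcard, ← M.eRk_closure_eq]
    exact hind.encard_le_eRk_of_subset hsub
  have h2 : M.eRk (S : Set Ω) ≤ (S.card : ℕ∞) := by
    have := M.eRk_le_encard (S : Set Ω)
    rwa [Set.encard_coe_eq_coe_finsetCard] at this
  have h3 : (g : ℕ∞) ≤ (S.card : ℕ∞) := h1.trans h2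
  have h4 : g ≤ S.card := by exact_mod_cast h3
  have h5 : S.card = g := le_antisymm hS h4
  refine ⟨h5, ?_⟩
  have h6 : M.eRk (S : Set Ω) = (S : Set Ω).encard := by
    rw [Set.encard_coe_eq_coe_finsetCard]
    apply le_antisymm h2
    rw [h5]
    exact h1
  have h7 : M.Indep (S : Set Ω) :=
    (Matroid.indep_iff_eRk_eq_encard_of_finite S.finite_toSet).mpr h6
  exact AlgebraicIndependent.matroid_indep_iff.mp h7

/-- **(A4)** an element outside `closFieldK K S` is translated by the automorphisms over it. -/
theorem exists_galOverK_translate [IsAlgClosed Ω] (S : Set Ω) {c : Ω}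
    (hc : c ∉ closFieldK K S) (a : K) :
    ∃ σ ∈ galOverK K S, σ c = c + algebraMap K Ω a := by
  have hK : IsAlgClosed ↥(closFieldK K S) := closFieldK_isAlgClosed S
  have hct : Transcendental ↥(closFieldK K S) c := by
    intro halg
    obtain ⟨y, hy⟩ := Fermat.Agent.F3I2.autC_mem_range_of_isAlgebraic halg
    exact hc (hy ▸ y.2)
  obtain ⟨σ, hσ⟩ := exists_algEquiv_translate hct (algebraMap K ↥(closFieldK K S) a)
  refine ⟨σ.restrictScalars K, ?_, ?_⟩
  · rw [mem_galOverK]
    intro x hx
    exact σ.commutes ⟨x, hx⟩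
  · exact hσ

/-- **(A5)** an element with finite orbit under `Aut(Ω / closFieldK K S)` lies in
`closFieldK K S`. -/
theorem mem_closFieldK_of_finite_orbit [IsAlgClosed K] [IsAlgClosed Ω] (S : Set Ω) (c : Ω)
    (h : {y : Ω | ∃ σ ∈ galOverK K S, σ c = y}.Finite) : c ∈ closFieldK K S := by
  by_contra hc
  have hinj : Function.Injective (fun a : K => c + algebraMap K Ω a) := by
    intro a b hab
    exact (algebraMap K Ω).injective (add_left_cancel hab)
  have hsub : Set.range (fun a : K => c + algebraMap K Ω a) ⊆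
      {y : Ω | ∃ σ ∈ galOverK K S, σ c = y} := by
    rintro _ ⟨a, rfl⟩
    exact exists_galOverK_translate S hc a
  exact (Set.infinite_range_of_injective hinj) (h.subset hsub)

/-- **(A7)** in an algebraically independent family no member is algebraic over the others. -/
theorem not_mem_closFieldK_of_algebraicIndependent {g : ℕ} (c : Fin g → Ω)
    (hc : AlgebraicIndependent K c) (i : Fin g) :
    c i ∉ closFieldK K (c '' {j | j ≠ i}) := by
  rw [mem_closFieldK_iff_adjoin]
  have hi : i ∉ {j : Fin g | j ≠ i} := by simp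
  exact hc.transcendental_adjoin hi

/-- **Conjugacy of finite transcendence bases** of `Ω / K`. -/
theorem exists_aut_of_transcendenceBasis [IsAlgClosed Ω] {g : ℕ} (c d : Fin g → Ω)
    (hc : IsTranscendenceBasis K c) (hd : IsTranscendenceBasis K d) :
    ∃ σ : Ω ≃ₐ[K] Ω, ∀ i, σ (d i) = c i :=
  exists_aut_of_transcendenceBasis' c d hc hd

end Fermat.Agent.S27
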