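import Fermat.Agent.S27.Lift.Defs

set_option autoImplicit false

/-!
# S27, seat E (lifting of torsion), sub-architect helper38: the LEAVES on generic points

Exact statements (as `Prop`s) of the leaves of seat E that live over one abstract constant field
extension `B : BCSetup K F Ω FΩ`.  All are ports of `Fermat/Agent/Lib/Div/*.lean` (S17, where
`K = ℚ̄`, `FΩ = laurentBaseChange Ω F₀`) and have to be proved in ANY characteristic, under
`[IsAlgClosed K] [IsAlgClosed Ω]`.

This file contains definitions only.  DO NOT EDIT (ask helper38).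
-/

noncomputable section

namespace Fermat.Agent.S27

open AlgebraicCurve Fermat.Agent.RR

universe uK uF uΩ uFΩ

variable {K : Type uK} {F : Type uF} {Ω : Type uΩ} {FΩ : Type uFΩ}
  [Field K] [Field F] [Field Ω] [Field FΩ] [Algebra K F] [Algebra K Ω] [Algebra Ω FΩ]

/-- **(FIB)** the fibres of `x` are finite, of bounded cardinality. -/
def FibreBound (B : BCSetup K F Ω FΩ) (x : F) : Prop :=
  ∃ N : ℕ, ∀ c : Ω, {P : Place Ω FΩ | Over (B.φ x) P c}.Finite ∧
    {P : Place Ω FΩ | Over (B.φ x) P c}.ncard ≤ N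

/-- **(NS)** a generic effective divisor of degree `n ≤ g` has `ℓ = 1` (port of
`Div.ell_sumPl_eq_one`). -/
def NonSpecial (B : BCSetup K F Ω FΩ) (x : F) : Prop :=
  ∀ (n : ℕ), n ≤ genusFF Ω FΩ → ∀ P : Fin n → Place Ω FΩ, IsGenTuple B x P →
    ell (sumPl P) = 1

/-- **(TR)** transfer of genericity (port of `Div.isGenTuple_of_transfer`): if every finite
`S ⊂ Ω` such that the class of `E` has finite orbit under `galOverK K S` also has the property that
the class of the generic divisor `sumPl P` has finite orbit, then `E` is a generic divisor. -/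
def Transfer (B : BCSetup K F Ω FΩ) (x : F) : Prop :=
  ∀ (P₀ : Place Ω FΩ), (∀ σ : Ω ≃ₐ[K] Ω, B.act σ • P₀ = P₀) →
  ∀ (g : ℕ) (P : Fin g → Place Ω FΩ), IsGenTuple B x P → ell (sumPl P) = 1 →
  ∀ (E : Divisor Ω FΩ), 0 ≤ E → Divisor.degree E = (g : ℤ) →
    (∀ S : Finset Ω, (orbitOfK B (galOverK K (S : Set Ω)) (pcls B.hΩ P₀ E)).Finite →
      (orbitOfK B (galOverK K (S : Set Ω)) (pcls B.hΩ P₀ (sumPl P))).Finite) →
    ∃ Q : Fin g → Place Ω FΩ, E = sumPl Q ∧ IsGenTuple B x Q

/-- **(CONJ)** generic tuples of maximal length are conjugate under `Aut(Ω/K)` (port of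
`Div.exists_conj`; here `Ω` has transcendence degree `g` over `K`). -/
def Conj (B : BCSetup K F Ω FΩ) (x : F) : Prop :=
  ∀ (g : ℕ) (t : Fin g → Ω), IsTranscendenceBasis K t →
  ∀ (P Q : Fin g → Place Ω FΩ), IsGenTuple B x P → IsGenTuple B x Q →
    ∃ σ : Ω ≃ₐ[K] Ω, ∀ i, B.act σ • Q i = P i

/-- **(E1)** a place of `FΩ` over a value of `x` that is transcendental over `K` is determined by
its value map on `φ F` (port of `Div.eq_of_genEval_eq` + `Div.conj_isGen_of_over`). -/
def ValuesDetermine (B : BCSetup K F Ω FΩ) (x : F) : Prop :=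
  ∀ (P Q : Place Ω FΩ) (c d : Ω), Transcendental K c → Transcendental K d →
    Over (B.φ x) P c → Over (B.φ x) Q d →
    (∀ f : F, Fermat.Agent.S17.Pts.ev P (B.φ f) = Fermat.Agent.S17.Pts.ev Q (B.φ f)) → P = Q

/-- **(E0)** a place of `FΩ` over a value of `x` that is transcendental over `K` is generic. -/
def GenericOfOver (B : BCSetup K F Ω FΩ) (x : F) : Prop :=
  ∀ (P : Place Ω FΩ) (c : Ω), Transcendental K c → Over (B.φ x) P c → IsGenPl B P

/-- **(BCINJ)** the base change of divisor classes is injective. -/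
def BcInjective (B : BCSetup K F Ω FΩ) : Prop :=
  Function.Injective B.bc

/-- **(FIX)** a function of `FΩ` with finite orbit under `Aut(Ω/K)` comes from `F`. -/
def FixedField (B : BCSetup K F Ω FΩ) : Prop :=
  ∀ u : FΩ, {v : FΩ | ∃ σ : Ω ≃ₐ[K] Ω, B.act σ • u = v}.Finite → u ∈ Set.range B.φ

end Fermat.Agent.S27
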