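import Mathlib
import Fermat.Agent.S27.Lift.GenProps
import Fermat.Agent.S27.Lift.FieldK

set_option autoImplicit false
set_option linter.style.haveILetI false
set_option linter.unusedSectionVars false

/-!
# S27, seat E (lifting of torsion), leaf BASIC (helper27): fibres and equivariance

Port of `Fermat/Agent/Lib/Div/Fibre.lean` (+ `DescPlaces.smul_ext`, `smul_bc_fixed`, `smul_cls`,
`smul_sumPl` of `Lib/Div`) to an abstract constant field extension `B : BCSetup K F Ω FΩ`, in any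
characteristic.

* generic (no `B`): `Over.congAt`, `not_pole_of_over`, `over_unique`, `ev_of_over`,
  `ord_sub_const_of_pole'`, `bs_ev_smul`, `smul_sumPl`, `degree_sumPl`, `smul_pcls_of_fixed`;
* `BCSetup.φ_ne_const`, `BCSetup.exists_pole`, `BCSetup.finite_over`, `BCSetup.exists_over`,
  `BCSetup.pole_or_over`;
* equivariance: `BCSetup.over_smul`, `BCSetup.ord_smul_φ`, `BCSetup.pole_smul`, `BCSetup.ev_smul`,
  `BCSetup.act_ext`, `BCSetup.act_bcDiv`, `BCSetup.act_bc`, `BCSetup.smul_pcls`,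
  `BCSetup.isGenTuple_smul`;
* orbits: `BCSetup.finite_orbit_of_over`, `BCSetup.finite_orbit_of_pole`,
  `BCSetup.finite_orbit_divisor`, `BCSetup.finite_orbit_of_mem_support`,
  `BCSetup.mem_closFieldK_of_finite_orbit_place`;
* `fibreBound : Transcendental K x → FibreBound B x`.
-/

noncomputable section

namespace Fermat.Agent.S27

open AlgebraicCurve Fermat.Agent.RR

universe uK uF uΩ uFΩ

variable {K : Type uK} {F : Type uF} {Ω : Type uΩ} {FΩ : Type uFΩ}
  [Field K] [Field F] [Field Ω] [Field FΩ] [Algebra K F] [Algebra K Ω] [Algebra Ω FΩ]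

/-! ### generic lemmas on `Over` -/

/-- `Over` as a congruence. -/
theorem Over.congAt {u : FΩ} {P : Place Ω FΩ} {c : Ω} (h : Over u P c) :
    Fermat.Agent.S17.Pts.CongAt P u c :=
  Or.inr h

theorem not_pole_of_over {u : FΩ} {P : Place Ω FΩ} {c : Ω} (h : Over u P c) : 0 ≤ P.ord u :=
  h.congAt.ord_nonneg

theorem over_unique {u : FΩ} {P : Place Ω FΩ} {c c' : Ω} (h : Over u P c) (h' : Over u P c') :
    c = c' :=
  h.congAt.unique h'.congAt

theorem ev_of_over {u : FΩ} {P : Place Ω FΩ} {c : Ω} (h : Over u P c) :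
    Fermat.Agent.S17.Pts.ev P u = c :=
  Fermat.Agent.S17.Pts.ev_eq_of_congAt h.congAt

/-- a function with a pole is not a constant. -/
theorem ne_const_of_pole {P : Place Ω FΩ} {f : FΩ} (hP : P.ord f < 0) (c : Ω) :
    f - algebraMap Ω FΩ c ≠ 0 := by
  intro h
  rw [sub_eq_zero.mp h, Fermat.Agent.S24Res.ord_algebraMap] at hP
  exact lt_irrefl _ hP

/-- a pole of `f` is a pole of `f - c`. -/
theorem ord_sub_const_neg {P : Place Ω FΩ} {f : FΩ} (hP : P.ord f < 0) (c : Ω) :
    P.ord (f - algebraMap Ω FΩ c) < 0 := by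
  by_contra h
  have h1 : f - algebraMap Ω FΩ c ∈ P.toValuationSubring :=
    Fermat.Agent.S24Res.mem_of_ord_nonneg P (not_lt.mp h)
  have h2 := add_mem h1 (P.algebraMap_mem' c)
  rw [sub_add_cancel] at h2
  have := Fermat.Agent.S24Res.ord_nonneg_of_mem P h2
  omega

/-- a pole of `f - c` is a pole of `f`. -/
theorem ord_neg_of_ord_sub_const_neg {P : Place Ω FΩ} {f : FΩ} {c : Ω}
    (hP : P.ord (f - algebraMap Ω FΩ c) < 0) : P.ord f < 0 := by
  have h := ord_sub_const_neg hP (-c)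
  rwa [map_neg, sub_neg_eq_add, sub_add_cancel] at h

/-- at a pole of `f`, `ord (f - c) ≥ ord f`. -/
theorem ord_le_ord_sub_const {P : Place Ω FΩ} {f : FΩ} (hP : P.ord f < 0) (c : Ω) :
    P.ord f ≤ P.ord (f - algebraMap Ω FΩ c) := by
  rcases eq_or_ne c 0 with rfl | hc
  · rw [map_zero, sub_zero]
  have hf : f ≠ 0 := by
    rintro rfl
    rw [P.ord_zero] at hP
    exact lt_irrefl _ hP
  have hc' : -algebraMap Ω FΩ c ≠ 0 := by
    rw [neg_ne_zero]
    exact (map_ne_zero _).mpr hc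
  have hfc : f + -algebraMap Ω FΩ c ≠ 0 := by
    rw [← sub_eq_add_neg]
    exact ne_const_of_pole hP c
  have h := Fermat.Agent.S24Res.ord_add_ge P hf hc' hfc
  rw [← sub_eq_add_neg, ← map_neg, Fermat.Agent.S24Res.ord_algebraMap, min_eq_left hP.le] at h
  exact h

/-- at a pole of `f`, `ord (f - c) = ord f`. -/
theorem ord_sub_const_of_pole' {P : Place Ω FΩ} {f : FΩ} (hP : P.ord f < 0) (c : Ω) :
    P.ord (f - algebraMap Ω FΩ c) = P.ord f := by
  refine le_antisymm ?_ (ord_le_ord_sub_const hP c)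
  have h := ord_le_ord_sub_const (ord_sub_const_neg hP c) (-c)
  rwa [map_neg, sub_neg_eq_add, sub_add_cancel] at h

/-! ### generic equivariance -/

theorem bs_congAt_smul (g : SemilinearAut Ω FΩ) {P : Place Ω FΩ} {f : FΩ} {c : Ω}
    (h : Fermat.Agent.S17.Pts.CongAt P f c) :
    Fermat.Agent.S17.Pts.CongAt (g • P) (g • f) (SemilinearAut.baseAut g c) := by
  rcases h with h | h
  · left
    rw [h, SemilinearAut.smul_algebraMap]
  · right
    have h1 : g • f - algebraMap Ω FΩ (SemilinearAut.baseAut g c)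
        = g • (f - algebraMap Ω FΩ c) := by
      rw [smul_sub, SemilinearAut.smul_algebraMap]
    rw [h1, SemilinearAut.ord_smul]
    exact h

/-- **Equivariance of the value map** (all `f`, poles included). -/
theorem bs_ev_smul (h : IsRRField Ω FΩ) (g : SemilinearAut Ω FΩ) (P : Place Ω FΩ) (f : FΩ) :
    Fermat.Agent.S17.Pts.ev (g • P) (g • f) =
      SemilinearAut.baseAut g (Fermat.Agent.S17.Pts.ev P f) := by
  by_cases hf : 0 ≤ P.ord f
  · exact Fermat.Agent.S17.Pts.ev_eq_of_congAt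
      (bs_congAt_smul g (Fermat.Agent.S17.Pts.congAt_ev h P hf))
  · have hf' : P.ord f < 0 := not_le.mp hf
    have hg : (g • P).ord (g • f) < 0 := by rwa [SemilinearAut.ord_smul]
    rw [Fermat.Agent.S17.Pts.ev_of_ord_neg hg, Fermat.Agent.S17.Pts.ev_of_ord_neg hf', map_zero]

theorem smul_sumPl (g : SemilinearAut Ω FΩ) {n : ℕ} (Q : Fin n → Place Ω FΩ) :
    g • sumPl Q = sumPl fun i => g • Q i := by
  unfold sumPl
  rw [Finset.smul_sum]
  refine Finset.sum_congr rfl fun i _ => ?_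
  rw [SemilinearAut.smul_single]

theorem degree_sumPl (hΩ : IsRRField Ω FΩ) {n : ℕ} (Q : Fin n → Place Ω FΩ) :
    Divisor.degree (sumPl Q) = (n : ℤ) := by
  unfold sumPl
  rw [map_sum]
  simp [Divisor.degree_single, hΩ.deg_one]

theorem sumPl_nonneg {n : ℕ} (Q : Fin n → Place Ω FΩ) : 0 ≤ sumPl Q := by
  unfold sumPl
  refine Finset.sum_nonneg fun i _ => ?_
  intro v
  classical
  rw [Finsupp.single_apply]
  split_ifs <;> simp

/-- the class of a translated divisor, for an automorphism fixing the base point. -/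
theorem smul_pcls_of_fixed (hΩ : IsRRField Ω FΩ) (P₀ : Place Ω FΩ) (g : SemilinearAut Ω FΩ)
    (hg : g • P₀ = P₀) (D : Divisor Ω FΩ) :
    g • pcls hΩ P₀ D = pcls hΩ P₀ (g • D) := by
  unfold pcls
  rw [SemilinearAut.pic0_smul_mk]
  congr 1
  apply Subtype.ext
  rw [SemilinearAut.coe_degZeroSMulHom]
  show g • (D - Finsupp.single P₀ (Divisor.degree D)) =
    g • D - Finsupp.single P₀ (Divisor.degree (g • D))
  rw [SemilinearAut.degree_smul, smul_sub, SemilinearAut.smul_single, hg]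

/-- a function factoring through a map to a finite type has finite range. -/
theorem bs_finite_range_of_factors {α β γ : Type*} [Finite γ] (o : α → β) (r : α → γ)
    (hr : ∀ a b, r a = r b → o a = o b) : (Set.range o).Finite := by
  classical
  have hfin : (Set.range fun x : Set.range r => o x.2.choose).Finite := Set.finite_range _
  refine hfin.subset ?_
  rintro _ ⟨a, rfl⟩
  refine ⟨⟨r a, a, rfl⟩, ?_⟩
  exact hr _ _ (Exists.choose_spec (⟨a, rfl⟩ : ∃ b, r b = r a))

namespace BCSetup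

variable (B : BCSetup K F Ω FΩ)

/-! ### the coordinate function is not constant -/

theorem φ_injective : Function.Injective B.φ := B.φ.injective

/-- a function of `F` which becomes a constant of `Ω` in `FΩ` is a constant of `K`. -/
theorem mem_range_of_φ_eq_const {x : F} {c : Ω} (h : B.φ x = algebraMap Ω FΩ c) :
    x ∈ Set.range (algebraMap K F) := by
  have h1 : Fermat.Agent.ConstExt.Phi K Ω B.φ
      (Fermat.Agent.ConstExt.E (1 : Ω) x - Fermat.Agent.ConstExt.E c (1 : F)) = 0 := by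
    rw [map_sub, Fermat.Agent.ConstExt.Phi_E B.isConstExt, Fermat.Agent.ConstExt.Phi_E B.isConstExt,
      map_one, map_one, one_mul, mul_one, h, sub_self]
  have h2 := Fermat.Agent.ConstExt.Phi_injective B.isConstExt
    (h1.trans (map_zero (Fermat.Agent.ConstExt.Phi K Ω B.φ)).symm)
  have h3 : ∀ j, ((Fermat.Agent.ConstExt.bas K Ω).repr (1 : Ω) j) • x =
      ((Fermat.Agent.ConstExt.bas K Ω).repr c j) • (1 : F) := by
    intro j
    have := DFunLike.congr_fun h2 j
    rw [Finsupp.sub_apply, Fermat.Agent.ConstExt.E_apply, Fermat.Agent.ConstExt.E_apply,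
      Finsupp.zero_apply, sub_eq_zero] at this
    exact this
  have h4 : (Fermat.Agent.ConstExt.bas K Ω).repr (1 : Ω) ≠ 0 := by
    intro h0
    exact one_ne_zero ((Fermat.Agent.ConstExt.bas K Ω).repr.map_eq_zero_iff.mp h0)
  obtain ⟨j, hj⟩ := Finsupp.ne_iff.mp h4
  rw [Finsupp.zero_apply] at hj
  refine ⟨((Fermat.Agent.ConstExt.bas K Ω).repr (1 : Ω) j)⁻¹ *
    (Fermat.Agent.ConstExt.bas K Ω).repr c j, ?_⟩
  have h5 := h3 j
  rw [Algebra.smul_def, Algebra.smul_def, mul_one] at h5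
  rw [map_mul, ← h5, ← mul_assoc, ← map_mul, inv_mul_cancel₀ hj, map_one, one_mul]

theorem φ_ne_const {x : F} (hx : Transcendental K x) (c : Ω) : B.φ x ≠ algebraMap Ω FΩ c := by
  intro h
  obtain ⟨a, ha⟩ := B.mem_range_of_φ_eq_const h
  exact hx (ha ▸ isAlgebraic_algebraMap a)

theorem φ_sub_const_ne_zero {x : F} (hx : Transcendental K x) (c : Ω) :
    B.φ x - algebraMap Ω FΩ c ≠ 0 :=
  sub_ne_zero.mpr (B.φ_ne_const hx c)

/-- a transcendental function has a pole. -/
theorem exists_pole {x : F} (hx : Transcendental K x) : ∃ P : Place Ω FΩ, P.ord (B.φ x) < 0 := by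
  by_contra hcon
  have hmem : B.φ x ∈ riemannRochSpace (0 : Divisor Ω FΩ) := by
    rw [mem_riemannRochSpace_iff]
    intro v
    right
    rw [Finsupp.zero_apply, neg_zero]
    by_contra h
    exact hcon ⟨v, not_le.mp h⟩
  obtain ⟨c, hc⟩ := (mem_riemannRochSpace_zero_iff B.hΩ _).mp hmem
  exact B.φ_ne_const hx c hc.symm

/-! ### fibres -/

/-- **(B1)** the fibres are finite. -/
theorem finite_over (B : BCSetup K F Ω FΩ) (u : FΩ) (c : Ω) :
    {P : Place Ω FΩ | Over u P c}.Finite :=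
  Fermat.Agent.RR.finite_zeros B.hΩ (u - algebraMap Ω FΩ c)

/-- **(B3)** a function has finitely many poles. -/
theorem finite_pole (B : BCSetup K F Ω FΩ) (u : FΩ) : {P : Place Ω FΩ | P.ord u < 0}.Finite :=
  Fermat.Agent.RR.finite_poles B.hΩ u

/-- **(B2)** the fibres are nonempty. -/
theorem exists_over {x : F} (hx : Transcendental K x) (c : Ω) :
    ∃ P : Place Ω FΩ, Over (B.φ x) P c := by
  obtain ⟨P₀, hP₀⟩ := B.exists_pole hx
  set f := B.φ x - algebraMap Ω FΩ c with hf
  have hneg : P₀.ord f < 0 := ord_sub_const_neg hP₀ c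
  by_contra hcon
  have hle : ∀ v : Place Ω FΩ, v.ord f ≤ 0 := fun v => by
    by_contra h
    exact hcon ⟨v, not_le.mp h⟩
  have hdeg := degree_divOf B.hΩ f
  rw [degree_eq_sum B.hΩ] at hdeg
  have hmem : P₀ ∈ (divOf B.hΩ f).support := by
    rw [Finsupp.mem_support_iff, divOf_apply]
    exact ne_of_lt hneg
  have hlt : ∑ v ∈ (divOf B.hΩ f).support, (divOf B.hΩ f) v < 0 := by
    refine Finset.sum_neg' (fun v _ => ?_) ⟨P₀, hmem, ?_⟩
    · rw [divOf_apply]; exact hle v
    · rw [divOf_apply]; exact hneg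
  rw [hdeg] at hlt
  exact lt_irrefl _ hlt

/-- **(B5)** every place is a pole of `x` or lies over a value. -/
theorem pole_or_over {x : F} (hx : Transcendental K x) (P : Place Ω FΩ) :
    P.ord (B.φ x) < 0 ∨ ∃ c : Ω, Over (B.φ x) P c := by
  by_cases hP : P.ord (B.φ x) < 0
  · exact Or.inl hP
  · right
    obtain ⟨c, hc⟩ := exists_const_sub B.hΩ P (not_lt.mp hP)
    rcases hc with hc | hc
    · exact absurd hc (B.φ_ne_const hx c)
    · exact ⟨c, hc⟩

/-! ### equivariance -/

/-- **(B4)** equivariance of the fibres. -/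
theorem over_smul (x : F) (σ : Ω ≃ₐ[K] Ω) {P : Place Ω FΩ} {c : Ω}
    (h : Over (B.φ x) P c) : Over (B.φ x) (B.act σ • P) (σ c) := by
  unfold Over at h ⊢
  have h1 : B.φ x - algebraMap Ω FΩ (σ c) = B.act σ • (B.φ x - algebraMap Ω FΩ c) := by
    rw [smul_sub, B.act_φ, SemilinearAut.smul_algebraMap, B.baseAut_act]
  rw [h1, SemilinearAut.ord_smul]
  exact h

theorem over_smul_iff (x : F) (σ : Ω ≃ₐ[K] Ω) {P : Place Ω FΩ} {c : Ω} :
    Over (B.φ x) (B.act σ • P) (σ c) ↔ Over (B.φ x) P c := by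
  refine ⟨fun h => ?_, B.over_smul x σ⟩
  have h2 := B.over_smul x σ⁻¹ h
  rw [map_inv, inv_smul_smul] at h2
  have h3 : σ⁻¹ (σ c) = c := σ.symm_apply_apply c
  rwa [h3] at h2

/-- the order of a function of `F` at a translated place. -/
theorem ord_smul_φ (σ : Ω ≃ₐ[K] Ω) (P : Place Ω FΩ) (f : F) :
    (B.act σ • P).ord (B.φ f) = P.ord (B.φ f) := by
  have := SemilinearAut.ord_smul (B.act σ) P (B.φ f)
  rwa [B.act_φ] at this

theorem pole_smul (x : F) (σ : Ω ≃ₐ[K] Ω) {P : Place Ω FΩ} (h : P.ord (B.φ x) < 0) :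
    (B.act σ • P).ord (B.φ x) < 0 := by
  rw [B.ord_smul_φ]
  exact h

/-- **equivariance of the value map** on the functions of `F`. -/
theorem ev_smul (σ : Ω ≃ₐ[K] Ω) (P : Place Ω FΩ) (f : F) :
    Fermat.Agent.S17.Pts.ev (B.act σ • P) (B.φ f) = σ (Fermat.Agent.S17.Pts.ev P (B.φ f)) := by
  have h := bs_ev_smul B.hΩ (B.act σ) P (B.φ f)
  rwa [B.act_φ, B.baseAut_act] at h

/-- the translate of a generic place is generic. -/
theorem isGenPl_smul (σ : Ω ≃ₐ[K] Ω) {w : Place Ω FΩ} (hw : IsGenPl B w) :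
    IsGenPl B (B.act σ • w) := fun f => by
  rw [B.ord_smul_φ]
  exact hw f

/-- extension places are fixed by `Aut(Ω/K)`. -/
theorem act_ext (σ : Ω ≃ₐ[K] Ω) (v : Place K F) : B.act σ • B.ext v = B.ext v := by
  refine Fermat.Agent.ConstExt.eq_extPlace_of_ord B.isConstExt B.resConst v _ fun f => ?_
  rw [B.ord_smul_φ]
  exact Fermat.Agent.ConstExt.ord_extPlace B.isConstExt B.resConst v f

theorem bcDiv_single (v : Place K F) (n : ℤ) :
    B.bcDiv (Finsupp.single v n) = Finsupp.single (B.ext v) n :=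
  Fermat.Agent.ConstExt.extDiv_single B.isConstExt B.resConst v n

/-- base-changed divisors are fixed by `Aut(Ω/K)`. -/
theorem act_bcDiv (σ : Ω ≃ₐ[K] Ω) (D : Divisor K F) : B.act σ • B.bcDiv D = B.bcDiv D := by
  induction D using Finsupp.induction with
  | zero => simp
  | single_add v n D _ _ ih =>
      rw [map_add, smul_add, ih, B.bcDiv_single, SemilinearAut.smul_single, B.act_ext]

theorem bc_mk (D : Divisor.degZero (K := K) (F := F)) :
    B.bc (Pic0.mk D) =
      Pic0.mk (Fermat.Agent.ConstExt.extDivZero B.isConstExt B.resConst D) := rfl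

/-- base-changed classes are fixed by `Aut(Ω/K)`. -/
theorem act_bc (σ : Ω ≃ₐ[K] Ω) (y : Pic0 K F) : B.act σ • B.bc y = B.bc y := by
  obtain ⟨D, rfl⟩ := Pic0.mk_surjective y
  rw [B.bc_mk, SemilinearAut.pic0_smul_mk]
  congr 1
  apply Subtype.ext
  rw [SemilinearAut.coe_degZeroSMulHom]
  exact B.act_bcDiv σ _

/-- the class of a Galois-translated divisor. -/
theorem smul_pcls (P₀ : Place Ω FΩ) (σ : Ω ≃ₐ[K] Ω) (hσ : B.act σ • P₀ = P₀)
    (D : Divisor Ω FΩ) :
    B.act σ • pcls B.hΩ P₀ D = pcls B.hΩ P₀ (B.act σ • D) :=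
  smul_pcls_of_fixed B.hΩ P₀ (B.act σ) hσ D

/-- the translate of a generic tuple is a generic tuple. -/
theorem isGenTuple_smul (x : F) (σ : Ω ≃ₐ[K] Ω) {n : ℕ} {P : Fin n → Place Ω FΩ}
    (hP : IsGenTuple B x P) : IsGenTuple B x fun i => B.act σ • P i := by
  obtain ⟨c, hc, hP⟩ := hP
  refine ⟨fun i => σ (c i), ?_, fun i => B.over_smul x σ (hP i)⟩
  exact hc.map' (f := (σ : Ω →ₐ[K] Ω)) σ.injective

/-! ### orbits -/

/-- **(B6)** a place over a value in `closFieldK K S` has finite orbit under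
`Aut(Ω / closFieldK K S)`. -/
theorem finite_orbit_of_over (x : F) (S : Set Ω) {P : Place Ω FΩ} {c : Ω}
    (h : Over (B.φ x) P c) (hc : c ∈ closFieldK K S) :
    (orbitOfK B (galOverK K S) P).Finite := by
  refine (B.finite_over (B.φ x) c).subset ?_
  rintro _ ⟨σ, hσ, rfl⟩
  have := B.over_smul x σ h
  rwa [mem_galOverK.mp hσ c hc] at this

/-- a pole of a function of `F` has finite orbit. -/
theorem finite_orbit_of_pole (x : F) (H : Subgroup (Ω ≃ₐ[K] Ω)) {P : Place Ω FΩ}
    (h : P.ord (B.φ x) < 0) : (orbitOfK B H P).Finite := by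
  refine (B.finite_pole (B.φ x)).subset ?_
  rintro _ ⟨σ, -, rfl⟩
  exact B.pole_smul x σ h

/-- **(B7)** a divisor all of whose points have finite orbit has finite orbit. -/
theorem finite_orbit_divisor (H : Subgroup (Ω ≃ₐ[K] Ω)) (D : Divisor Ω FΩ)
    (h : ∀ P ∈ D.support, (orbitOfK B H P).Finite) : (orbitOfK B H D).Finite := by
  classical
  haveI : ∀ P : D.support, Finite (orbitOfK B H (P : Place Ω FΩ)) :=
    fun P => (h P P.2).to_subtype
  let r : H → (∀ P : D.support, orbitOfK B H (P : Place Ω FΩ)) :=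
    fun σ P => ⟨B.act (σ : Ω ≃ₐ[K] Ω) • (P : Place Ω FΩ), σ, σ.2, rfl⟩
  let o : H → Divisor Ω FΩ := fun σ => B.act (σ : Ω ≃ₐ[K] Ω) • D
  have hfac : ∀ a b, r a = r b → o a = o b := by
    intro a b hab
    have hP : ∀ P ∈ D.support, B.act (a : Ω ≃ₐ[K] Ω) • P = B.act (b : Ω ≃ₐ[K] Ω) • P :=
      fun P hP => by
        have := congrArg (fun f => ((f ⟨P, hP⟩ : orbitOfK B H P) : Place Ω FΩ)) hab
        exact this
    show B.act (a : Ω ≃ₐ[K] Ω) • D = B.act (b : Ω ≃ₐ[K] Ω) • D
    rw [SemilinearAut.divisor_smul_def, SemilinearAut.divisor_smul_def]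
    rw [Finsupp.mapDomain, Finsupp.mapDomain]
    refine Finset.sum_congr rfl fun Q hQ => ?_
    show Finsupp.single (B.act (a : Ω ≃ₐ[K] Ω) • Q) (D Q)
      = Finsupp.single (B.act (b : Ω ≃ₐ[K] Ω) • Q) (D Q)
    rw [hP Q hQ]
  refine (bs_finite_range_of_factors o r hfac).subset ?_
  rintro _ ⟨σ, hσ, rfl⟩
  exact ⟨⟨σ, hσ⟩, rfl⟩

/-- **(B8)** the points of a divisor with finite orbit have finite orbit. -/
theorem finite_orbit_of_mem_support (H : Subgroup (Ω ≃ₐ[K] Ω)) (D : Divisor Ω FΩ)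
    (h : (orbitOfK B H D).Finite) {P : Place Ω FΩ} (hP : P ∈ D.support) :
    (orbitOfK B H P).Finite := by
  refine (h.biUnion (t := fun E => ((E.support : Finset _) : Set _))
    (fun E _ => E.support.finite_toSet)).subset ?_
  rintro _ ⟨σ, hσ, rfl⟩
  refine Set.mem_biUnion (⟨σ, hσ, rfl⟩ : B.act σ • D ∈ orbitOfK B H D) ?_
  rw [Finset.mem_coe, Finsupp.mem_support_iff, SemilinearAut.divisor_smul_apply_smul]
  exact Finsupp.mem_support_iff.mp hP

/-- **(B9)** if `P` lies over `c` and has finite orbit under `Aut(Ω / closFieldK K S)`, then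
`c ∈ closFieldK K S`. -/
theorem mem_closFieldK_of_finite_orbit_place [IsAlgClosed K] [IsAlgClosed Ω] (x : F) (S : Set Ω)
    {P : Place Ω FΩ} {c : Ω} (h : Over (B.φ x) P c)
    (hfin : (orbitOfK B (galOverK K S) P).Finite) : c ∈ closFieldK K S := by
  refine mem_closFieldK_of_finite_orbit S c ?_
  refine (hfin.image (fun Q => Fermat.Agent.S17.Pts.ev Q (B.φ x))).subset ?_
  rintro _ ⟨σ, hσ, rfl⟩
  refine ⟨B.act σ • P, ⟨σ, hσ, rfl⟩, ?_⟩
  exact ev_of_over (B.over_smul x σ h)

/-! ### the bound for the fibres -/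

/-- the number of poles of `φ x`, with multiplicities. -/
def poleNum (B : BCSetup K F Ω FΩ) (x : F) : ℕ :=
  (∑ v ∈ (divOf B.hΩ (B.φ x)).support, max (-(v.ord (B.φ x))) 0).toNat

theorem poleNum_cast (x : F) :
    (B.poleNum x : ℤ) = ∑ v ∈ (divOf B.hΩ (B.φ x)).support, max (-(v.ord (B.φ x))) 0 := by
  unfold poleNum
  exact Int.toNat_of_nonneg (Finset.sum_nonneg fun v _ => le_max_right _ _)

/-- the fibre over `c` has at most `poleNum x` points. -/
theorem ncard_over_le (x : F) (c : Ω) :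
    {P : Place Ω FΩ | Over (B.φ x) P c}.ncard ≤ B.poleNum x := by
  classical
  set u := B.φ x with hu
  set f := u - algebraMap Ω FΩ c with hf
  set D := divOf B.hΩ f with hD
  have hZ := B.finite_over u c
  have hZsub : hZ.toFinset ⊆ D.support := by
    intro v hv
    rw [Set.Finite.mem_toFinset] at hv
    rw [Finsupp.mem_support_iff, hD, divOf_apply]
    exact ne_of_gt hv
  have hdeg : ∑ v ∈ D.support, D v = 0 := by
    rw [← degree_eq_sum B.hΩ, hD, degree_divOf]
  have hsplit : ∑ v ∈ D.support \ hZ.toFinset, D v + ∑ v ∈ hZ.toFinset, D v = 0 := by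
    rw [Finset.sum_sdiff hZsub, hdeg]
  have h1 : (hZ.toFinset.card : ℤ) ≤ ∑ v ∈ hZ.toFinset, D v := by
    rw [Finset.card_eq_sum_ones, Nat.cast_sum]
    refine Finset.sum_le_sum fun v hv => ?_
    rw [Set.Finite.mem_toFinset] at hv
    rw [hD, divOf_apply, Nat.cast_one]
    exact hv
  have h2 : ∑ v ∈ D.support \ hZ.toFinset, (-D v) ≤
      ∑ v ∈ (divOf B.hΩ u).support, max (-(v.ord u)) 0 := by
    have hpole : ∀ v ∈ D.support \ hZ.toFinset, v.ord f < 0 := by
      intro v hv
      rw [Finset.mem_sdiff, Finsupp.mem_support_iff, hD, divOf_apply, Set.Finite.mem_toFinset]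
        at hv
      have h3 : ¬ 0 < v.ord f := hv.2
      omega
    calc ∑ v ∈ D.support \ hZ.toFinset, (-D v)
        ≤ ∑ v ∈ D.support \ hZ.toFinset, max (-(v.ord u)) 0 := by
          refine Finset.sum_le_sum fun v hv => ?_
          have h3 := hpole v hv
          have h4 := ord_neg_of_ord_sub_const_neg h3
          rw [hD, divOf_apply, hf, ord_sub_const_of_pole' h4]
          exact le_max_left _ _
      _ ≤ ∑ v ∈ (divOf B.hΩ u).support, max (-(v.ord u)) 0 := by
          refine Finset.sum_le_sum_of_subset_of_nonneg ?_ fun v _ _ => le_max_right _ _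
          intro v hv
          have h4 := ord_neg_of_ord_sub_const_neg (hpole v hv)
          rw [Finsupp.mem_support_iff, divOf_apply]
          exact ne_of_lt h4
  rw [Finset.sum_neg_distrib] at h2
  have h5 := B.poleNum_cast x
  rw [Set.ncard_eq_toFinset_card _ hZ]
  rw [← hu] at h5
  omega

/-- **(FIB)** the fibres of `x` are finite, of bounded cardinality. -/
theorem fibreBound' (x : F) : FibreBound B x :=
  ⟨B.poleNum x, fun c => ⟨B.finite_over (B.φ x) c, B.ncard_over_le x c⟩⟩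

end BCSetup

/-- **(FIB)** the fibres of `x` are finite, of bounded cardinality. -/
theorem fibreBound (B : BCSetup K F Ω FΩ) (x : F) : FibreBound B x :=
  B.fibreBound' x

end Fermat.Agent.S27
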