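import Mathlib

set_option autoImplicit false

/-!
# S27, seat E (lifting of torsion), sub-architect helper38: the VALUATION BRIDGE, definitions

Pure algebra (Mathlib only).  `K ⊂ Ω` fields, `A` a valuation ring of `Ω` with residue map
`res : A → ω` (surjective), `k ⊂ ω` a subfield containing the residues of `A ∩ K`.

For `s : Fin g → Ω`, `u : Fin m → Ω` with entries in `A`:
* `conjVals K s u` : the value tuples `(σ (u j))_j`, `σ ∈ Aut(Ω / K)` fixing every `s i`;
* `BridgeVal V`    : (fundamental inequality + Gauss) if the residues `sb` of `s` are algebraically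
  independent over `k` and `u` is algebraic over `K(s)`, then `k(sb)(ub) / k(sb)` is finite and
  `[k(sb)(ub) : k(sb)] ≤ [K(s)(u) : K(s)]`;
* `BridgeGalUpper`, `BridgeGalLower` : counting conjugates (Galois theory);
* `Bridge V`       : `#conjVals k sb ub ≤ #conjVals K s u` (the only statement used by the chain).

This file contains definitions only.  DO NOT EDIT (ask helper38).
-/

noncomputable section

namespace Fermat.Agent.S27

open IntermediateField

/-- a valued field `(Ω, A)` over `K` with residue map `res : A → ω`, `ω` over `k`. -/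
structure ValRes (K Ω k ω : Type*) [Field K] [Field Ω] [Field k] [Field ω]
    [Algebra K Ω] [Algebra k ω] where
  /-- the valuation ring -/
  A : ValuationSubring Ω
  /-- the residue map -/
  res : A →+* ω
  res_surj : Function.Surjective res
  /-- the residues of the elements of `K` lie in `k` -/
  res_K : ∀ (a : K) (ha : algebraMap K Ω a ∈ A),
    res ⟨algebraMap K Ω a, ha⟩ ∈ Set.range (algebraMap k ω)

variable {K Ω k ω : Type*} [Field K] [Field Ω] [Field k] [Field ω] [Algebra K Ω] [Algebra k ω]

/-- the residues of a family of elements of `A`. -/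
def ValRes.resFam (V : ValRes K Ω k ω) {ι : Type*} (u : ι → Ω) (hu : ∀ i, u i ∈ V.A) : ι → ω :=
  fun i => V.res ⟨u i, hu i⟩

variable (K) in
/-- the value tuples of the conjugates of `u` under `Aut(Ω / K(s))`. -/
def conjVals {g m : ℕ} (s : Fin g → Ω) (u : Fin m → Ω) : Set (Fin m → Ω) :=
  {v | ∃ σ : Ω ≃ₐ[K] Ω, (∀ i, σ (s i) = s i) ∧ ∀ j, v j = σ (u j)}

/-- **(VAL)** fundamental inequality over a Gauss base. -/
def BridgeVal (V : ValRes K Ω k ω) : Prop :=
  ∀ (g m : ℕ) (s : Fin g → Ω) (hs : ∀ i, s i ∈ V.A) (u : Fin m → Ω) (hu : ∀ j, u j ∈ V.A),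
    AlgebraicIndependent k (V.resFam s hs) →
    (∀ j, IsAlgebraic ↥(adjoin K (Set.range s)) (u j)) →
    FiniteDimensional ↥(adjoin k (Set.range (V.resFam s hs)))
        ↥(adjoin ↥(adjoin k (Set.range (V.resFam s hs))) (Set.range (V.resFam u hu))) ∧
      Module.finrank ↥(adjoin k (Set.range (V.resFam s hs)))
          ↥(adjoin ↥(adjoin k (Set.range (V.resFam s hs))) (Set.range (V.resFam u hu))) ≤
        Module.finrank ↥(adjoin K (Set.range s))
          ↥(adjoin ↥(adjoin K (Set.range s)) (Set.range u))

variable (K Ω) in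
/-- **(GAL-U)** the conjugates of `u` over `K(s)` are at most `[K(s)(u) : K(s)]` (any
characteristic). -/
def BridgeGalUpper : Prop :=
  ∀ (g m : ℕ) (s : Fin g → Ω) (u : Fin m → Ω),
    FiniteDimensional ↥(adjoin K (Set.range s))
        ↥(adjoin ↥(adjoin K (Set.range s)) (Set.range u)) →
    (conjVals K s u).Finite ∧
      (conjVals K s u).ncard ≤
        Module.finrank ↥(adjoin K (Set.range s))
          ↥(adjoin ↥(adjoin K (Set.range s)) (Set.range u))

variable (K Ω) in
/-- **(GAL-L)** in characteristic zero, `Ω` algebraically closed: the conjugates of `u` over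
`K(s)` are exactly `[K(s)(u) : K(s)]` many. -/
def BridgeGalLower : Prop :=
  ∀ (g m : ℕ) (s : Fin g → Ω) (u : Fin m → Ω),
    (∀ j, IsAlgebraic ↥(adjoin K (Set.range s)) (u j)) →
    Module.finrank ↥(adjoin K (Set.range s))
        ↥(adjoin ↥(adjoin K (Set.range s)) (Set.range u)) ≤ (conjVals K s u).ncard

/-- **(BRIDGE)** the statement used by the chain. -/
def Bridge (V : ValRes K Ω k ω) : Prop :=
  ∀ (g m : ℕ) (s : Fin g → Ω) (hs : ∀ i, s i ∈ V.A) (u : Fin m → Ω) (hu : ∀ j, u j ∈ V.A),
    AlgebraicIndependent k (V.resFam s hs) →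
    (∀ j, IsAlgebraic ↥(adjoin K (Set.range s)) (u j)) →
    (conjVals K s u).Finite ∧
      (conjVals k (V.resFam s hs) (V.resFam u hu)).ncard ≤ (conjVals K s u).ncard

end Fermat.Agent.S27
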