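import Fermat.Agent.S27.Lift.GenProps
import Fermat.Agent.S27.Lift.BridgeDefs
import Fermat.Agent.Lib.FF.RedCore
import Fermat.Agent.Lib.RR.Riemann

set_option autoImplicit false

/-!
# S27, seat E (lifting of torsion), sub-architect helper38: the CHAIN, definitions and statements

## The chain (n ≥ 1 prime to the residue characteristic, `g` = genus, `N` = fibre bound of `x`)
`Qf` a generic `g`-tuple of places of `FΩ` (characteristic `0`), `c = [Qf]`; `Q` a `g`-tuple with
`[Q] = n • c`, over the values `t`; the valuation ring of `Ω` is chosen AFTER `Q`, such that the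
residues `tb` of `t` are algebraically independent over `k` (a transcendence basis of `ω / k`).
`s = e_1(t), .., e_g(t)`, `u` = the values of `x, y` at the places `Qf i`.  Then

  `#Pic⁰(F_k)[n]  ≤  #conjVals k sb ub  ≤  #conjVals K s u  ≤  N^g · g! · #Pic⁰(FΩ)[n]`
       (CLAIM-L)            (BRIDGE)             (CLAIM-U)

* CLAIM-L (characteristic `p`): the reduction `Qfb` of `Qf` is a division point of the generic
  class `[Qb]`, hence generic (TR); so is the representative of `[Qfb] + bc z` for every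
  `z ∈ Pic⁰(F_k)[n]` (TR); generic tuples are conjugate (CONJ), by `τ` say; `τ` fixes the class
  `[Qb]`, hence permutes the places `Qb i` (NS) and fixes `sb`; the values of `xb, yb` at a generic
  place determine it (E1), and `bc` is injective (BCINJ).
* CLAIM-U (characteristic `0`): `σ` fixes `s`, hence permutes `t`, so `σ (Q i)` lies over `t (π i)`:
  at most `N^g` divisors `σ • sumPl Q`; `n • σ c = [σ • sumPl Q]`: at most `N^g · #Pic⁰[n]`
  classes `σ c`; each is the class of at most `g!` generic tuples (NS).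

This file contains definitions only.  DO NOT EDIT (ask helper38).
-/

noncomputable section

namespace Fermat.Agent.S27

open AlgebraicCurve Fermat.Agent.RR Fermat.Agent.Deuring Fermat.Agent.FF IntermediateField

universe uK uF uΩ uFΩ uk uFk uω uFω

section One

variable {K : Type uK} {F : Type uF} {Ω : Type uΩ} {FΩ : Type uFΩ}
  [Field K] [Field F] [Field Ω] [Field FΩ] [Algebra K F] [Algebra K Ω] [Algebra Ω FΩ]

/-- the elementary symmetric functions `e_1, .., e_g` of `t_0, .., t_{g-1}`. -/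
def symFam {g : ℕ} (t : Fin g → Ω) : Fin g → Ω :=
  fun j => (Finset.univ.val.map t).esymm ((j : ℕ) + 1)

/-- the values of two functions at the places of a tuple. -/
def valFam {g : ℕ} (P : Fin g → Place Ω FΩ) (ux uy : FΩ) : Fin (g + g) → Ω :=
  Fin.append (fun i => Fermat.Agent.S17.Pts.ev (P i) ux) (fun i => Fermat.Agent.S17.Pts.ev (P i) uy)

/-- **(CLAIM-U)** the upper bound for the conjugates, in terms of the torsion. -/
def ClaimU (B : BCSetup K F Ω FΩ) (x y : F) : Prop :=
  ∀ (N : ℕ), (∀ c : Ω, {P : Place Ω FΩ | Over (B.φ x) P c}.Finite ∧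
      {P : Place Ω FΩ | Over (B.φ x) P c}.ncard ≤ N) →
  ∀ (n : ℕ), 0 < n → Finite (Pic0.torsion Ω FΩ n) →
  ∀ (P₀ : Place Ω FΩ), (∀ σ : Ω ≃ₐ[K] Ω, B.act σ • P₀ = P₀) →
  ∀ (g : ℕ), g = genusFF Ω FΩ → ∀ (Qf Q : Fin g → Place Ω FΩ) (t : Fin g → Ω),
    IsGenTuple B x Qf → (∀ i, Over (B.φ x) (Q i) (t i)) →
    pcls B.hΩ P₀ (sumPl Q) = n • pcls B.hΩ P₀ (sumPl Qf) →
    (conjVals K (symFam t) (valFam Qf (B.φ x) (B.φ y))).ncard ≤
      N ^ g * g.factorial * Nat.card (Pic0.torsion Ω FΩ n)

/-- **(CLAIM-L)** the lower bound for the conjugates, in terms of the torsion of the small field. -/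
def ClaimL (B : BCSetup K F Ω FΩ) (x y : F) : Prop :=
  ∀ (n : ℕ), 0 < n →
  ∀ (P₀ : Place K F) (g : ℕ), g = genusFF Ω FΩ →
  ∀ (Qf Q : Fin g → Place Ω FΩ) (t : Fin g → Ω),
    IsTranscendenceBasis K t → (∀ i, Over (B.φ x) (Q i) (t i)) →
    pcls B.hΩ (B.ext P₀) (sumPl Q) = n • pcls B.hΩ (B.ext P₀) (sumPl Qf) →
    (conjVals K (symFam t) (valFam Qf (B.φ x) (B.φ y))).Finite →
    Nat.card (Pic0.torsion K F n) ≤
      (conjVals K (symFam t) (valFam Qf (B.φ x) (B.φ y))).ncard

end One

section Red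

variable {K : Type uK} {F : Type uF} {k : Type uk} {Fk : Type uFk}
  [Field K] [Field F] [Algebra K F] [Field k] [Field Fk] [Algebra k Fk]

/-- zeros of `u - c`, `c ∈ A`, reduce to zeros of `red u - res c`. -/
def RedZero (S : ValSetup K F k Fk) (r : Place K F → Place k Fk) (u : F) : Prop :=
  ∀ (P : Place K F) (c : K) (hc : c ∈ S.A), 0 < P.ord (u - algebraMap K F c) →
    0 < (r P).ord (S.red u - algebraMap k Fk (S.res ⟨c, hc⟩))

/-- **(REDZ)** zeros reduce to zeros for functions whose degree does not drop. -/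
def RedZeroOfDeg (S : ValSetup K F k Fk) (r : Place K F → Place k Fk) : Prop :=
  ∀ (u : F), u ∈ S.Ov → S.red u ∉ Set.range (algebraMap k Fk) →
    Divisor.degree (poleDiv S.hF u) ≤ Divisor.degree (poleDiv S.hFk (S.red u)) →
    RedZero S r u ∧ RedZero S r u⁻¹ ∧ ∀ P : Place K F, P.ord u < 0 → (r P).ord (S.red u) < 0

/-- **(REDV)** values reduce to values at the places to which no pole reduces: if `P` is a zero
of `u - c` and no pole of `u` has the same reduction as `P`, then `c ∈ A` and `r P` is a zero of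
`red u - res c` (push only; no comparison of degrees). -/
def RedValue (S : ValSetup K F k Fk) (r : Place K F → Place k Fk) : Prop :=
  ∀ (u : F), u ∈ S.Ov → S.red u ∉ Set.range (algebraMap k Fk) →
  ∀ (P : Place K F), (∀ P' : Place K F, r P' = r P → 0 ≤ P'.ord u) →
  ∀ (c : K), 0 < P.ord (u - algebraMap K F c) →
    ∃ hc : c ∈ S.A, 0 < (r P).ord (S.red u - algebraMap k Fk (S.res ⟨c, hc⟩))

end Red

section Lift

variable (K : Type uK) (F : Type uF) (Ω : Type uΩ) (FΩ : Type uFΩ)
  (k : Type uk) (Fk : Type uFk) (ω : Type uω) (Fω : Type uFω)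
  [Field K] [Field F] [Field Ω] [Field FΩ] [Algebra K F] [Algebra K Ω] [Algebra Ω FΩ]
  [Field k] [Field Fk] [Field ω] [Field Fω] [Algebra k Fk] [Algebra k ω] [Algebra ω Fω]

/-- The data of the chain, without base points: two constant extensions and a good reduction
between the big fields. -/
structure LiftCore where
  /-- characteristic `0` -/
  B0 : BCSetup K F Ω FΩ
  /-- characteristic `p` -/
  Bp : BCSetup k Fk ω Fω
  /-- the constant reduction of `FΩ` -/
  S : ValSetup Ω FΩ ω Fω
  /-- the reduction of places -/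
  r : Place Ω FΩ → Place ω Fω
  hr : IsReduction S r
  /-- the residues of the elements of `K` lie in `k` -/
  res_K : ∀ (a : K) (ha : algebraMap K Ω a ∈ S.A),
    S.res ⟨algebraMap K Ω a, ha⟩ ∈ Set.range (algebraMap k ω)
  genus_eq : genusFF Ω FΩ = genusFF ω Fω
  /-- the coordinate functions -/
  x : F
  y : F
  xb : Fk
  yb : Fk
  hx : Transcendental K x
  hxb : Transcendental k xb
  finb : FiniteDimensional ↥k⟮xb⟯ Fk
  sepb : Algebra.IsSeparable ↥k⟮xb⟯ Fk
  genb : IntermediateField.adjoin k ({xb, yb} : Set Fk) = ⊤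
  x_mem : B0.φ x ∈ S.Ov
  y_mem : B0.φ y ∈ S.Ov
  red_x : S.red (B0.φ x) = Bp.φ xb
  red_y : S.red (B0.φ y) = Bp.φ yb
  deg_x : Divisor.degree (poleDiv S.hF (B0.φ x)) ≤ Divisor.degree (poleDiv S.hFk (Bp.φ xb))
  /-- the poles of `y` are poles of `x` (`y` is integral over `K[x]`) -/
  pole_y : ∀ P : Place Ω FΩ, P.ord (B0.φ y) < 0 → P.ord (B0.φ x) < 0
  yb_nonconst : Bp.φ yb ∉ Set.range (algebraMap ω Fω)

/-- The data of the chain: a `LiftCore` with compatible base points. -/
structure LiftSetup extends LiftCore K F Ω FΩ k Fk ω Fω where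
  /-- the base points -/
  P0 : Place K F
  P0b : Place k Fk
  r_P0 : r (B0.ext P0) = Bp.ext P0b

variable {K F Ω FΩ k Fk ω Fω}

/-- the valued field of a lift core. -/
def LiftCore.valRes (L : LiftCore K F Ω FΩ k Fk ω Fω) : ValRes K Ω k ω where
  A := L.S.A
  res := L.S.res
  res_surj := L.S.res_surj
  res_K := L.res_K

/-- the valued field of a lift setup. -/
def LiftSetup.valRes (L : LiftSetup K F Ω FΩ k Fk ω Fω) : ValRes K Ω k ω :=
  L.toLiftCore.valRes

/-- **(BASEPT)** the reduction of the extension of a pole of `x` is the extension of a place of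
`Fk`. -/
def BasePt (L : LiftCore K F Ω FΩ k Fk ω Fω) : Prop :=
  ∀ P0 : Place K F, P0.ord L.x < 0 → ∃ P0b : Place k Fk, L.r (L.B0.ext P0) = L.Bp.ext P0b

/-- **(CHAIN)** the torsion of the reduction is bounded by the torsion in characteristic `0`. -/
def Chain (L : LiftSetup K F Ω FΩ k Fk ω Fω) : Prop :=
  ∀ (N : ℕ), (∀ c : Ω, {P : Place Ω FΩ | Over (L.B0.φ L.x) P c}.Finite ∧
      {P : Place Ω FΩ | Over (L.B0.φ L.x) P c}.ncard ≤ N) →
  ∀ (n : ℕ), 0 < n → Finite (Pic0.torsion Ω FΩ n) →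
  ∀ (g : ℕ), g = genusFF Ω FΩ → ∀ (Qf Q : Fin g → Place Ω FΩ) (t : Fin g → Ω)
    (ht : ∀ i, t i ∈ L.S.A),
    IsGenTuple L.B0 L.x Qf → (∀ i, Over (L.B0.φ L.x) (Q i) (t i)) →
    IsTranscendenceBasis K t →
    IsTranscendenceBasis k (fun i => L.S.res ⟨t i, ht i⟩) →
    pcls L.B0.hΩ (L.B0.ext L.P0) (sumPl Q) = n • pcls L.B0.hΩ (L.B0.ext L.P0) (sumPl Qf) →
    Nat.card (Pic0.torsion k Fk n) ≤
      N ^ g * g.factorial * Nat.card (Pic0.torsion Ω FΩ n)

end Lift

end Fermat.Agent.S27
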