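/-
S27, seat E, leaf REDZ (helper20): zeros reduce to zeros, poles reduce to poles, for functions
whose degree does not drop under a Deuring reduction.

`redZeroOfDeg (hr : IsReduction S r) : RedZeroOfDeg S r`.
Proof: the statements for `u` are `Lib/FF/RedValue` (`IsReduction.ord_red_sub_pos`,
`IsReduction.ord_red_neg`; the reverse inequality of the degrees is Deuring's fundamental
inequality, a non-constant function is transcendental); for `u⁻¹` apply them to `u⁻¹`
(`deg (u⁻¹)_∞ = deg (u)_∞` since principal divisors have degree `0`).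
-/
import Fermat.Agent.S27.Lift.ChainProps
import Fermat.Agent.Lib.FF.RedValue
import Fermat.Agent.Lib.Deuring.FundIneq

set_option autoImplicit false

noncomputable section

namespace Fermat.Agent.S27

open AlgebraicCurve Fermat.Agent.RR Fermat.Agent.Deuring Fermat.Agent.FF

variable {K F k Fk : Type*} [Field K] [Field F] [Algebra K F] [Field k] [Field Fk] [Algebra k Fk]

/-- a non-constant element of a function field is transcendental. -/
theorem rz_transcendental_of_not_mem_range (h : IsRRField k Fk) {y : Fk}
    (hy : y ∉ Set.range (algebraMap k Fk)) : Transcendental k y := by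
  intro halg
  apply hy
  rw [← mem_riemannRochSpace_zero_iff h]
  have h1 := mem_riemannRochSpace_poleDiv h y
  rwa [poleDiv_eq_zero_of_isAlgebraic h halg] at h1

/-- `deg (f⁻¹)_∞ = deg (f)_∞`. -/
theorem rz_degree_poleDiv_inv (h : IsRRField k Fk) (f : Fk) :
    Divisor.degree (poleDiv h f⁻¹) = Divisor.degree (poleDiv h f) := by
  have h1 := congrArg Divisor.degree (fi_divOf_eq h f)
  rw [degree_divOf, map_sub] at h1
  omega

/-- the statements of `RedZeroOfDeg` for `u` itself. -/
theorem rz_core {S : ValSetup K F k Fk} {r : Place K F → Place k Fk} (hr : IsReduction S r)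
    {u : F} (hu : u ∈ S.Ov) (htr : Transcendental k (S.red u))
    (hle : Divisor.degree (poleDiv S.hF u) ≤ Divisor.degree (poleDiv S.hFk (S.red u))) :
    RedZero S r u ∧ ∀ P : Place K F, P.ord u < 0 → (r P).ord (S.red u) < 0 := by
  have hdeg : Divisor.degree (poleDiv S.hFk (S.red u)) = Divisor.degree (poleDiv S.hF u) :=
    le_antisymm (fi_degree_poleDiv_red_le S hu) hle
  exact ⟨fun P c hc hP => hr.ord_red_sub_pos hu htr hdeg hc hP,
    fun P hP => hr.ord_red_neg hu htr hdeg hP⟩

/-- **(REDZ)** zeros reduce to zeros for functions whose degree does not drop. -/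
theorem redZeroOfDeg {S : ValSetup K F k Fk} {r : Place K F → Place k Fk}
    (hr : IsReduction S r) : RedZeroOfDeg S r := by
  intro u hu hnc hle
  have htr : Transcendental k (S.red u) := rz_transcendental_of_not_mem_range S.hFk hnc
  have hred0 : S.red u ≠ 0 := fun h0 => htr (h0 ▸ isAlgebraic_zero)
  have hinv : u⁻¹ ∈ S.Ov := S.inv_mem_of_red_ne_zero hred0
  have hu0 : u ≠ 0 := S.ne_zero_of_red_ne_zero hred0
  have hredinv : S.red u⁻¹ = (S.red u)⁻¹ := S.red_inv hu hinv hu0
  have htr' : Transcendental k (S.red u⁻¹) := by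
    rw [hredinv]
    intro halg
    apply htr
    have := halg.inv
    rwa [inv_inv] at this
  have hle' : Divisor.degree (poleDiv S.hF u⁻¹) ≤
      Divisor.degree (poleDiv S.hFk (S.red u⁻¹)) := by
    rw [hredinv, rz_degree_poleDiv_inv S.hF, rz_degree_poleDiv_inv S.hFk]
    exact hle
  obtain ⟨h1, h3⟩ := rz_core hr hu htr hle
  obtain ⟨h2, -⟩ := rz_core hr hinv htr' hle'
  exact ⟨h1, h2, h3⟩

end Fermat.Agent.S27
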