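import Fermat.Agent.S27.Lift.ChainProps
import Fermat.Agent.S27.Lift.Basic
import Fermat.Agent.S27.Lift.RedZero
import Fermat.Agent.Lib.ConstExt.Restrict

set_option autoImplicit false
set_option linter.unusedSectionVars false

/-!
# S27, seat E, leaf BASEPT (helper65): base points reduce to base points

`P0` a pole of `x` in `F`: `B0.ext P0` is a pole of `φ x`, so `r (B0.ext P0)` is a pole of
`red (φ x) = φb xb` (REDZ, part 3), hence not trivial on `φb Fk`, hence the extension of a place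
`P0b` of `Fk` (`ConstExt.exists_extPlace_eq_or`).
-/

noncomputable section

namespace Fermat.Agent.S27

open AlgebraicCurve Fermat.Agent.RR Fermat.Agent.Deuring Fermat.Agent.FF IntermediateField

universe uK uF uΩ uFΩ uk uFk uω uFω

variable {K : Type uK} {F : Type uF} {Ω : Type uΩ} {FΩ : Type uFΩ}
  {k : Type uk} {Fk : Type uFk} {ω : Type uω} {Fω : Type uFω}
  [Field K] [Field F] [Field Ω] [Field FΩ] [Algebra K F] [Algebra K Ω] [Algebra Ω FΩ]
  [Field k] [Field Fk] [Field ω] [Field Fω] [Algebra k Fk] [Algebra k ω] [Algebra ω Fω]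

/-- **(BASEPT)** the reduction of the extension of a pole of `x` is the extension of a place of
`Fk`. -/
theorem basePt [IsAlgClosed K] [IsAlgClosed Ω] [IsAlgClosed k] [IsAlgClosed ω]
    (L : LiftCore K F Ω FΩ k Fk ω Fω) : BasePt L := by
  intro P0 hP0
  have h1 : (L.B0.ext P0).ord (L.B0.φ L.x) < 0 := by
    have h0 := Fermat.Agent.ConstExt.ord_extPlace L.B0.isConstExt L.B0.resConst P0 L.x
    have h0' : (L.B0.ext P0).ord (L.B0.φ L.x) = P0.ord L.x := h0
    rw [h0']
    exact hP0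
  have hxnc : L.S.red (L.B0.φ L.x) ∉ Set.range (algebraMap ω Fω) := by
    rw [L.red_x]
    rintro ⟨c, hc⟩
    exact L.Bp.φ_ne_const L.hxb c hc.symm
  have hdx : Divisor.degree (poleDiv L.S.hF (L.B0.φ L.x)) ≤
      Divisor.degree (poleDiv L.S.hFk (L.S.red (L.B0.φ L.x))) := by
    rw [L.red_x]
    exact L.deg_x
  obtain ⟨-, -, hPx⟩ := redZeroOfDeg L.hr (L.B0.φ L.x) L.x_mem hxnc hdx
  have h2 := hPx _ h1
  rw [L.red_x] at h2
  rcases Fermat.Agent.ConstExt.exists_extPlace_eq_or L.Bp.isConstExt L.Bp.resConst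
    (L.r (L.B0.ext P0)) with ⟨v, hv⟩ | h
  · exact ⟨v, hv.symm⟩
  · exfalso
    have hxb0 : L.xb ≠ 0 := fun h0 => L.hxb (h0 ▸ isAlgebraic_zero)
    have h3 := h L.xb hxb0
    omega

end Fermat.Agent.S27
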