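import Fermat.Agent.S27.Lift.ChainProps
import Fermat.Agent.S27.Lift.ValAdapt

set_option autoImplicit false

/-!
# S27, seat E (lifting of torsion), sub-architect helper38: the remaining statements

* abstract side: `DivGen` (DIVGEN), `GenEx` (GENEX), `ResTB` (RES-TB; VAL-AD is `Lift/ValAdapt.lean`);
* construction side (seat C, helper75): `ConstructionStatement`;
* the assembly is `Lift/Final.lean`: `ConstructionStatement → TorsionLower`.

This file contains definitions only.  DO NOT EDIT (ask helper38).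
-/

noncomputable section

namespace Fermat.Agent.S27

open AlgebraicCurve Fermat.Agent.RR Fermat.Agent.Deuring Fermat.Agent.FF IntermediateField

universe uK uF uΩ uFΩ uk uFk uω uFω

section One

variable {K : Type uK} {F : Type uF} {Ω : Type uΩ} {FΩ : Type uFΩ}
  [Field K] [Field F] [Field Ω] [Field FΩ] [Algebra K F] [Algebra K Ω] [Algebra Ω FΩ]

/-- **(DIVGEN)** a tuple whose class is a division point of the class of a generic tuple of
length `g` is generic (TR + NS + PERM). -/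
def DivGen (B : BCSetup K F Ω FΩ) (x : F) : Prop :=
  ∀ (P₀ : Place Ω FΩ), (∀ σ : Ω ≃ₐ[K] Ω, B.act σ • P₀ = P₀) →
  ∀ (n g : ℕ), g = genusFF Ω FΩ → ∀ (Qf Q : Fin g → Place Ω FΩ),
    IsGenTuple B x Q →
    pcls B.hΩ P₀ (sumPl Q) = n • pcls B.hΩ P₀ (sumPl Qf) → IsGenTuple B x Qf

/-- **(GENEX)** existence of the two generic tuples of the chain: `Qf` generic, `[Q] = n [Qf]`,
`Q` over a transcendence basis `t`. -/
def GenEx (B : BCSetup K F Ω FΩ) (x : F) : Prop :=
  Transcendental K x →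
  ∀ (P₀ : Place Ω FΩ), (∀ σ : Ω ≃ₐ[K] Ω, B.act σ • P₀ = P₀) →
  ∀ (g : ℕ), g = genusFF Ω FΩ → (∃ t0 : Fin g → Ω, IsTranscendenceBasis K t0) →
  ∀ (n : ℕ), 0 < n → Finite (Pic0.torsion Ω FΩ n) →
    ∃ (Qf Q : Fin g → Place Ω FΩ) (t : Fin g → Ω),
      IsGenTuple B x Qf ∧ (∀ i, Over (B.φ x) (Q i) (t i)) ∧ IsTranscendenceBasis K t ∧
      pcls B.hΩ P₀ (sumPl Q) = n • pcls B.hΩ P₀ (sumPl Qf)

end One

section Res

variable {K : Type uK} {Ω : Type uΩ} {k : Type uk} {ω : Type uω}
  [Field K] [Field Ω] [Field k] [Field ω] [Algebra K Ω] [Algebra k ω]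

/-- every element of `k` is the residue of an element of `K ∩ A`. -/
def ValRes.ResKSurj (V : ValRes K Ω k ω) : Prop :=
  ∀ b : k, ∃ (a : K) (ha : algebraMap K Ω a ∈ V.A), V.res ⟨algebraMap K Ω a, ha⟩ = algebraMap k ω b

/-- **(RES-TB)** the residues of a transcendence basis to which the valuation ring is adapted
(`IsAdapted`, `Lift/ValAdapt.lean`) form a transcendence basis of the residue field. -/
def ResTB (V : ValRes K Ω k ω) : Prop :=
  V.ResKSurj → ∀ (A : ValuationSubring K), V.A.comap (algebraMap K Ω) = A →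
  ∀ (g : ℕ) (t : Fin g → Ω) (hV : IsAdapted A (t := t) V.A), IsTranscendenceBasis K t →
    IsTranscendenceBasis k (V.resFam t hV.2.1)

end Res

/-- **(CONSTRUCTION)** the construction side (seat C): for `F / K` and a prime `ℓ` there are
* an algebraically closed `Ω ⊇ K` of transcendence degree `g(FΩ)`, a constant extension `FΩ`,
* a valuation ring `A` of `K` with reduction `(k, Fk)` in which the `ℓ`-power torsion is counted,
* the descent of torsion from `FΩ` to `F`,
* for every valuation ring `AΩ` of `Ω` over `A` a lift core with `S.A = AΩ`. -/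
def ConstructionStatement : Prop :=
  ∀ (K : Type uK) (F : Type uF) [Field K] [Field F] [Algebra K F] [IsAlgClosed K] [CharZero K],
    IsRRField K F → ∀ ℓ : ℕ, ℓ.Prime →
    ∃ (Ω : Type uK) (_ : Field Ω) (_ : Algebra K Ω) (_ : IsAlgClosed Ω)
      (FΩ : Type uK) (_ : Field FΩ) (_ : Algebra Ω FΩ)
      (k : Type uK) (_ : Field k) (_ : IsAlgClosed k)
      (Fk : Type uK) (_ : Field Fk) (_ : Algebra k Fk)
      (B0 : BCSetup K F Ω FΩ) (x y : F) (A : ValuationSubring K),
      Transcendental K x ∧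
      (∃ t0 : Fin (genusFF Ω FΩ) → Ω, IsTranscendenceBasis K t0) ∧
      (∀ j : ℕ, Nat.card (Pic0.torsion k Fk (ℓ ^ j)) = ℓ ^ (2 * genusFF K F * j)) ∧
      (∀ j : ℕ, Finite (Pic0.torsion Ω FΩ (ℓ ^ j)) ∧
        Nat.card (Pic0.torsion Ω FΩ (ℓ ^ j)) ≤ Nat.card (Pic0.torsion K F (ℓ ^ j))) ∧
      ∀ (AΩ : ValuationSubring Ω), AΩ.comap (algebraMap K Ω) = A →
        ∃ (ω : Type uK) (_ : Field ω) (_ : IsAlgClosed ω) (_ : Algebra k ω)
          (Fω : Type uK) (_ : Field Fω) (_ : Algebra ω Fω)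
          (L : LiftCore K F Ω FΩ k Fk ω Fω),
          L.B0 = B0 ∧ L.S.A = AΩ ∧ L.x = x ∧ L.y = y ∧
            IntermediateField.adjoin K ({x, y} : Set F) = ⊤ ∧ L.valRes.ResKSurj

end Fermat.Agent.S27
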