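import Fermat.Agent.S27.Lift.GenProps
import Fermat.Agent.S27.Lift.FieldK
import Fermat.Agent.Lib.Div.NonSpecial

set_option autoImplicit false
set_option linter.unusedSectionVars false
set_option linter.style.haveILetI false

/-!
# S27, seat E, leaf NS (helper63): generic effective divisors of degree `≤ g` are nonspecial

Port of `Lib/Div/NonSpecial.lean` (`ell_sumPl_eq_one`) to an abstract constant extension
`B : BCSetup K F Ω FΩ`, in any characteristic.  The translations `c ↦ c + n`, `n : ℕ`, of the
original are replaced by translations `c ↦ c + a`, `a : K` (`K` is infinite).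

* `nonSpecial_of_translate` : `NonSpecial B x` from the translation property
  (`exists_galOverK_translate` of leaf FIELDK) as an explicit hypothesis;
* `nonSpecial` : `NonSpecial B x` for `K`, `Ω` algebraically closed;
* the lemmas of leaf BASIC that are used (`ns_over_smul`, `ns_over_unique`,
  `ns_finite_orbit_of_over`, `ns_finite_orbit_divisor`) are proved here under private names.
-/

noncomputable section

namespace Fermat.Agent.S27

open AlgebraicCurve Fermat.Agent.RR

universe uK uF uΩ uFΩ

variable {K : Type uK} {F : Type uF} {Ω : Type uΩ} {FΩ : Type uFΩ}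
  [Field K] [Field F] [Field Ω] [Field FΩ] [Algebra K F] [Algebra K Ω] [Algebra Ω FΩ]

/-- the translation property of leaf FIELDK. -/
def TranslateK (K : Type uK) (Ω : Type uΩ) [Field K] [Field Ω] [Algebra K Ω] : Prop :=
  ∀ (S : Set Ω) {c : Ω}, c ∉ closFieldK K S → ∀ a : K,
    ∃ σ ∈ galOverK K S, σ c = c + algebraMap K Ω a

/-! ### the part of leaf BASIC that is needed -/

theorem ns_over_unique {u : FΩ} {P : Place Ω FΩ} {c c' : Ω} (h : Over u P c)
    (h' : Over u P c') : c = c' :=
  Fermat.Agent.S17.Pts.CongAt.unique (Or.inr h) (Or.inr h')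

theorem ns_over_smul (B : BCSetup K F Ω FΩ) (x : F) (σ : Ω ≃ₐ[K] Ω) {P : Place Ω FΩ} {c : Ω}
    (h : Over (B.φ x) P c) : Over (B.φ x) (B.act σ • P) (σ c) := by
  unfold Over at h ⊢
  have h1 : B.φ x - algebraMap Ω FΩ (σ c) = B.act σ • (B.φ x - algebraMap Ω FΩ c) := by
    rw [smul_sub, B.act_φ, SemilinearAut.smul_algebraMap, B.baseAut_act]
  rw [h1, SemilinearAut.ord_smul]
  exact h

theorem ns_finite_over (B : BCSetup K F Ω FΩ) (x : F) (c : Ω) :
    {P : Place Ω FΩ | Over (B.φ x) P c}.Finite :=
  Fermat.Agent.RR.finite_zeros B.hΩ (B.φ x - algebraMap Ω FΩ c)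

theorem ns_finite_orbit_of_over (B : BCSetup K F Ω FΩ) (x : F) (S : Set Ω)
    {P : Place Ω FΩ} {c : Ω} (h : Over (B.φ x) P c) (hc : c ∈ closFieldK K S) :
    (orbitOfK B (galOverK K S) P).Finite := by
  refine (ns_finite_over B x c).subset ?_
  rintro _ ⟨σ, hσ, rfl⟩
  have := ns_over_smul B x σ h
  rwa [mem_galOverK.mp hσ c hc] at this

/-- a function factoring through a map to a finite type has finite range. -/
theorem ns_finite_range_of_factors {α β γ : Type*} [Finite γ] (o : α → β) (r : α → γ)
    (hr : ∀ a b, r a = r b → o a = o b) : (Set.range o).Finite := by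
  classical
  have hfin : (Set.range fun x : Set.range r => o x.2.choose).Finite := Set.finite_range _
  refine hfin.subset ?_
  rintro _ ⟨a, rfl⟩
  refine ⟨⟨r a, a, rfl⟩, ?_⟩
  exact hr _ _ (Exists.choose_spec (⟨a, rfl⟩ : ∃ b, r b = r a))

theorem ns_finite_orbit_divisor (B : BCSetup K F Ω FΩ) (H : Subgroup (Ω ≃ₐ[K] Ω))
    (D : Divisor Ω FΩ) (h : ∀ P ∈ D.support, (orbitOfK B H P).Finite) :
    (orbitOfK B H D).Finite := by
  classical
  haveI : ∀ P : D.support, Finite (orbitOfK B H (P : Place Ω FΩ)) :=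
    fun P => (h P P.2).to_subtype
  let r : H → (∀ P : D.support, orbitOfK B H (P : Place Ω FΩ)) :=
    fun σ P => ⟨B.act (σ : Ω ≃ₐ[K] Ω) • (P : Place Ω FΩ), σ, σ.2, rfl⟩
  let o : H → Divisor Ω FΩ := fun σ => B.act (σ : Ω ≃ₐ[K] Ω) • D
  have hfac : ∀ a b, r a = r b → o a = o b := by
    intro a b hab
    have hP : ∀ P ∈ D.support, B.act (a : Ω ≃ₐ[K] Ω) • P = B.act (b : Ω ≃ₐ[K] Ω) • P :=
      fun P hP => by
        have := congrArg (fun f => ((f ⟨P, hP⟩ : orbitOfK B H P) : Place Ω FΩ)) hab
        exact this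
    show B.act (a : Ω ≃ₐ[K] Ω) • D = B.act (b : Ω ≃ₐ[K] Ω) • D
    rw [SemilinearAut.divisor_smul_def, SemilinearAut.divisor_smul_def]
    rw [Finsupp.mapDomain, Finsupp.mapDomain]
    refine Finset.sum_congr rfl fun Q hQ => ?_
    show Finsupp.single (B.act (a : Ω ≃ₐ[K] Ω) • Q) (D Q)
      = Finsupp.single (B.act (b : Ω ≃ₐ[K] Ω) • Q) (D Q)
    rw [hP Q hQ]
  refine (ns_finite_range_of_factors o r hfac).subset ?_
  rintro _ ⟨σ, hσ, rfl⟩
  exact ⟨⟨σ, hσ⟩, rfl⟩

/-! ### the part of leaf FIELDK that is elementary -/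

theorem ns_subset_closFieldK (S : Set Ω) : S ⊆ closFieldK K S := by
  intro a ha
  rw [SetLike.mem_coe, mem_closFieldK]
  exact isAlgebraic_algebraMap
    (⟨a, IntermediateField.subset_adjoin K S ha⟩ : ↥(IntermediateField.adjoin K S))

theorem ns_not_mem_closFieldK {g : ℕ} (c : Fin g → Ω) (hc : AlgebraicIndependent K c)
    (i : Fin g) : c i ∉ closFieldK K (c '' {j | j ≠ i}) := by
  rw [mem_closFieldK, IntermediateField.isAlgebraic_adjoin_iff]
  have hi : i ∉ {j : Fin g | j ≠ i} := by simp
  exact hc.transcendental_adjoin hi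

/-! ### divisors `sumPl` -/

theorem ns_sumPl_succ {n : ℕ} (P : Fin (n + 1) → Place Ω FΩ) :
    sumPl P = sumPl (fun i : Fin n => P i.castSucc) + Finsupp.single (P (Fin.last n)) 1 := by
  unfold sumPl
  rw [Fin.sum_univ_castSucc]

theorem ns_sumPl_nonneg {n : ℕ} (P : Fin n → Place Ω FΩ) : 0 ≤ sumPl P := by
  unfold sumPl
  refine Finset.sum_nonneg fun i _ => ?_
  rw [Finsupp.le_def]
  intro v
  by_cases hv : v = P i
  · rw [hv, Finsupp.single_eq_same]
    exact zero_le_one
  · rw [Finsupp.single_eq_of_ne hv]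
    exact le_rfl

theorem ns_degree_sumPl (hΩ : IsRRField Ω FΩ) {n : ℕ} (P : Fin n → Place Ω FΩ) :
    Divisor.degree (sumPl P) = n := by
  unfold sumPl
  rw [map_sum]
  simp only [Divisor.degree_single, hΩ.deg_one, Nat.cast_one, mul_one, Finset.sum_const,
    Finset.card_univ, Fintype.card_fin, nsmul_eq_mul]

theorem ns_support_sumPl {n : ℕ} (P : Fin n → Place Ω FΩ) {Q : Place Ω FΩ}
    (hQ : Q ∈ (sumPl P).support) : ∃ i, Q = P i := by
  classical
  by_contra hcon
  rw [not_exists] at hcon
  rw [Finsupp.mem_support_iff] at hQ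
  apply hQ
  unfold sumPl
  rw [Finsupp.finsetSum_apply]
  refine Finset.sum_eq_zero fun i _ => ?_
  exact Finsupp.single_eq_of_ne (hcon i)

/-- **(NS)** from the translation property: a generic effective divisor of degree `n ≤ g`
has `ℓ = 1`. -/
theorem nonSpecial_of_translate [Infinite K] (B : BCSetup K F Ω FΩ) (x : F)
    (htr : TranslateK K Ω) : NonSpecial B x := by
  classical
  intro n
  induction n with
  | zero =>
    intro _ P _
    have : sumPl P = 0 := by
      unfold sumPl
      exact Finset.sum_empty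
    rw [this, ell_zero B.hΩ]
  | succ n ih =>
    intro hn P hP
    obtain ⟨c, hc, hover⟩ := hP
    set P' : Fin n → Place Ω FΩ := fun i => P i.castSucc with hP'
    set D := sumPl P' with hD
    have hgen' : IsGenTuple B x P' :=
      ⟨fun i => c i.castSucc, hc.comp _ (Fin.castSucc_injective n), fun i => hover i.castSucc⟩
    have hellD : ell D = 1 := ih (by omega) P' hgen'
    have hD0 : 0 ≤ D := ns_sumPl_nonneg P'
    have hdegD : Divisor.degree D = n := ns_degree_sumPl B.hΩ P'
    rw [ns_sumPl_succ P]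
    by_contra hbad
    -- the set of values of the first `n` points
    set S : Set Ω := c '' {j | j ≠ Fin.last n} with hS
    have hcS : ∀ i : Fin n, c i.castSucc ∈ closFieldK K S := fun i =>
      ns_subset_closFieldK S ⟨i.castSucc, (Fin.castSucc_lt_last i).ne, rfl⟩
    have hlast : c (Fin.last n) ∉ closFieldK K S :=
      ns_not_mem_closFieldK c hc (Fin.last n)
    -- translations by the elements `e m` of `K`
    let e : ℕ ↪ K := Infinite.natEmbedding K
    choose σ hσS hσ using fun m : ℕ => htr S hlast (e m)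
    -- the orbit of `D` is finite
    have hfinD : (orbitOfK B (galOverK K S) D).Finite := by
      refine ns_finite_orbit_divisor B (galOverK K S) D fun Q hQ => ?_
      obtain ⟨i, rfl⟩ := ns_support_sumPl P' hQ
      exact ns_finite_orbit_of_over B x S (hover i.castSucc) (hcS i)
    -- pigeonhole: infinitely many `m` with the same `σ m • D`
    have hmaps : ∀ m : ℕ, B.act (σ m) • D ∈ orbitOfK B (galOverK K S) D :=
      fun m => ⟨σ m, hσS m, rfl⟩
    haveI : Finite ↥(orbitOfK B (galOverK K S) D) := hfinD.to_subtype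
    obtain ⟨y, hy⟩ := Finite.exists_infinite_fiber
      (fun m : ℕ => (⟨B.act (σ m) • D, hmaps m⟩ : ↥(orbitOfK B (galOverK K S) D)))
    set D' : Divisor Ω FΩ := (y : Divisor Ω FΩ) with hD'
    have hinf' : {m : ℕ | B.act (σ m) • D = D'}.Infinite := by
      have h1 := Set.infinite_coe_iff.mp hy
      refine h1.mono ?_
      intro m hm
      have hm' : (⟨B.act (σ m) • D, hmaps m⟩ : ↥(orbitOfK B (galOverK K S) D)) = y := hm
      exact congrArg Subtype.val hm'
    -- `D'` is effective of degree `n < g` with `ℓ = 1`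
    obtain ⟨m₀, hm₀⟩ := hinf'.nonempty
    have hm₀' : B.act (σ m₀) • D = D' := hm₀
    have hD'0 : 0 ≤ D' := by
      rw [← hm₀', Finsupp.le_def]
      intro w
      rw [SemilinearAut.divisor_smul_apply]
      exact Finsupp.le_def.mp hD0 _
    have hD'ell : ell D' = 1 := by rw [← hm₀', Fermat.Agent.Div.ell_smul, hellD]
    have hD'deg : Divisor.degree D' < (genusFF Ω FΩ : ℤ) := by
      rw [← hm₀', SemilinearAut.degree_smul, hdegD]
      exact_mod_cast hn
    have hfin := Fermat.Agent.Div.finite_ell_add_single_ne B.hΩ D' hD'0 hD'ell hD'deg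
    -- the points `σ m • P_last` are pairwise distinct and all bad
    have hinj : Set.InjOn (fun m : ℕ => B.act (σ m) • P (Fin.last n))
        {m | B.act (σ m) • D = D'} := by
      intro m _ m' _ hmm
      have h1 := ns_over_smul B x (σ m) (hover (Fin.last n))
      have h2 := ns_over_smul B x (σ m') (hover (Fin.last n))
      have hmm' : B.act (σ m) • P (Fin.last n) = B.act (σ m') • P (Fin.last n) := hmm
      rw [hmm'] at h1
      have h3 := ns_over_unique h1 h2
      rw [hσ m, hσ m'] at h3
      have h4 : algebraMap K Ω (e m) = algebraMap K Ω (e m') := add_left_cancel h3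
      exact e.injective ((algebraMap K Ω).injective h4)
    have hsub : (fun m : ℕ => B.act (σ m) • P (Fin.last n)) ''
        {m | B.act (σ m) • D = D'} ⊆
        {Q | ell (D' + Finsupp.single Q 1) ≠ 1} := by
      rintro Q ⟨m, hm, rfl⟩
      show ell (D' + Finsupp.single (B.act (σ m) • P (Fin.last n)) 1) ≠ 1
      have hm' : B.act (σ m) • D = D' := hm
      rw [← hm', ← SemilinearAut.smul_single, ← smul_add, Fermat.Agent.Div.ell_smul]
      exact hbad
    exact (hinf'.image hinj) (hfin.subset hsub)

/-- **(NS)**: a generic effective divisor of degree `n ≤ g` has `ℓ = 1`. -/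
theorem nonSpecial [IsAlgClosed K] [IsAlgClosed Ω] (B : BCSetup K F Ω FΩ) (x : F) :
    NonSpecial B x := by
  haveI : Infinite K := IsAlgClosed.instInfinite
  exact nonSpecial_of_translate B x (fun S _ hc a => exists_galOverK_translate S hc a)

end Fermat.Agent.S27
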