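import Fermat.Agent.S27.Lift.GenProps
import Fermat.Agent.S27.Lift.FieldK
import Fermat.Agent.S27.Lift.NonSpecial
import Fermat.Agent.Lib.Div.Transfer

set_option autoImplicit false
set_option linter.unusedSectionVars false

/-!
# S27, seat E, leaf TR (helper65): transfer of genericity

Port of `Lib/Div/Transfer.lean` (`isGenTuple_of_transfer`, helper70) to an abstract constant
extension `B : BCSetup K F Ω FΩ`, in any characteristic.

`x = pcls (P_1 + .. + P_g)` generic with `ℓ(P_1 + .. + P_g) = 1`, `z = pcls E`, `E ≥ 0` of degree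
`g`, and (H): for every finite `S ⊂ Ω`, if the orbit of `z` under `Aut(Ω / closFieldK K S)` is
finite then so is the orbit of `x`.  Then `E = Q_1 + .. + Q_g` with `(Q_i)` generic.

The lemmas of leaf BASIC that are used are proved here under the prefix `trK_` (the ones proved
in `NonSpecial.lean` under the prefix `ns_` are imported).
-/

noncomputable section

namespace Fermat.Agent.S27

open AlgebraicCurve Fermat.Agent.RR

universe uK uF uΩ uFΩ

variable {K : Type uK} {F : Type uF} {Ω : Type uΩ} {FΩ : Type uFΩ}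
  [Field K] [Field F] [Field Ω] [Field FΩ] [Algebra K F] [Algebra K Ω] [Algebra Ω FΩ]

/-- `pcls` is the class map `cls` of `Lib/Div`. -/
theorem trK_pcls_eq_cls (h : IsRRField Ω FΩ) (P₀ : Place Ω FΩ) (D : Divisor Ω FΩ) :
    pcls h P₀ D = Fermat.Agent.Div.cls h P₀ D := rfl

/-- a place over a value is not a pole. -/
theorem trK_not_pole_of_over {u : FΩ} {P : Place Ω FΩ} {c : Ω} (h : Over u P c) :
    0 ≤ P.ord u :=
  Fermat.Agent.S17.Pts.CongAt.ord_nonneg (Or.inr h)

/-- every place is a pole of `x` or lies over a value (if `x` is not a constant, which holds as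
soon as some place lies over some value). -/
theorem trK_pole_or_over (B : BCSetup K F Ω FΩ) (x : F)
    (hx : ∃ (P : Place Ω FΩ) (c : Ω), Over (B.φ x) P c) (Q : Place Ω FΩ) :
    Q.ord (B.φ x) < 0 ∨ ∃ a : Ω, Over (B.φ x) Q a := by
  by_cases hQ : Q.ord (B.φ x) < 0
  · exact Or.inl hQ
  · right
    obtain ⟨a, ha⟩ := exists_const_sub B.hΩ Q (not_lt.mp hQ)
    rcases ha with ha | ha
    · exfalso
      obtain ⟨P, c, hPc⟩ := hx
      unfold Over at hPc
      rw [ha, ← map_sub, Fermat.Agent.S24Res.ord_algebraMap] at hPc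
      exact lt_irrefl _ hPc
    · exact ⟨a, ha⟩

theorem trK_pole_smul (B : BCSetup K F Ω FΩ) (x : F) (σ : Ω ≃ₐ[K] Ω) {P : Place Ω FΩ}
    (h : P.ord (B.φ x) < 0) : (B.act σ • P).ord (B.φ x) < 0 := by
  rw [Fermat.Agent.S17.Pts.ord_smul_of_fixed _ _ (B.act_φ σ x)]
  exact h

/-- a pole of `x` has finite orbit. -/
theorem trK_finite_orbit_of_pole (B : BCSetup K F Ω FΩ) (x : F) (H : Subgroup (Ω ≃ₐ[K] Ω))
    {P : Place Ω FΩ} (h : P.ord (B.φ x) < 0) : (orbitOfK B H P).Finite := by
  refine (Fermat.Agent.RR.finite_poles B.hΩ (B.φ x)).subset ?_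
  rintro _ ⟨σ, -, rfl⟩
  exact trK_pole_smul B x σ h

/-- the points of a divisor with finite orbit have finite orbit. -/
theorem trK_finite_orbit_of_mem_support (B : BCSetup K F Ω FΩ) (H : Subgroup (Ω ≃ₐ[K] Ω))
    (D : Divisor Ω FΩ) (h : (orbitOfK B H D).Finite) {P : Place Ω FΩ} (hP : P ∈ D.support) :
    (orbitOfK B H P).Finite := by
  refine (h.biUnion (t := fun E => ((E.support : Finset _) : Set _))
    (fun E _ => E.support.finite_toSet)).subset ?_
  rintro _ ⟨σ, hσ, rfl⟩
  refine Set.mem_biUnion (⟨σ, hσ, rfl⟩ : B.act σ • D ∈ orbitOfK B H D) ?_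
  rw [Finset.mem_coe, Finsupp.mem_support_iff, SemilinearAut.divisor_smul_apply_smul]
  exact Finsupp.mem_support_iff.mp hP

/-- if `P` lies over `c` and has finite orbit under `Aut(Ω / closFieldK K S)`, then
`c ∈ closFieldK K S`. -/
theorem trK_mem_closFieldK_of_finite_orbit_place [IsAlgClosed K] [IsAlgClosed Ω]
    (B : BCSetup K F Ω FΩ) (x : F) (S : Set Ω) {P : Place Ω FΩ} {c : Ω}
    (h : Over (B.φ x) P c) (hfin : (orbitOfK B (galOverK K S) P).Finite) :
    c ∈ closFieldK K S := by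
  refine mem_closFieldK_of_finite_orbit S c ?_
  refine (hfin.image (fun Q => Fermat.Agent.S17.Pts.ev Q (B.φ x))).subset ?_
  rintro _ ⟨σ, hσ, rfl⟩
  refine ⟨B.act σ • P, ⟨σ, hσ, rfl⟩, ?_⟩
  exact Fermat.Agent.S17.Pts.ev_eq_of_congAt (Or.inr (ns_over_smul B x σ h))

/-- the points of `sumPl P` are in its support. -/
theorem trK_mem_support_sumPl {n : ℕ} (P : Fin n → Place Ω FΩ) (i : Fin n) :
    P i ∈ (sumPl P).support := by
  classical
  rw [Finsupp.mem_support_iff]
  unfold sumPl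
  rw [Finsupp.finsetSum_apply]
  have h1 : ∀ j ∈ (Finset.univ : Finset (Fin n)),
      (0 : ℤ) ≤ (Finsupp.single (P j) (1 : ℤ)) (P i) := by
    intro j _
    rw [Finsupp.single_apply]
    split_ifs <;> simp
  have h2 := Finset.single_le_sum h1 (Finset.mem_univ i)
  rw [Finsupp.single_eq_same] at h2
  omega

/-- the class of a Galois-translated divisor. -/
theorem trK_smul_pcls (B : BCSetup K F Ω FΩ) (P₀ : Place Ω FΩ) (σ : Ω ≃ₐ[K] Ω)
    (hσ : B.act σ • P₀ = P₀) (D : Divisor Ω FΩ) :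
    B.act σ • pcls B.hΩ P₀ D = pcls B.hΩ P₀ (B.act σ • D) := by
  unfold pcls
  rw [SemilinearAut.pic0_smul_mk]
  congr 1
  apply Subtype.ext
  rw [SemilinearAut.coe_degZeroSMulHom]
  show B.act σ • (D - Finsupp.single P₀ (Divisor.degree D)) =
    B.act σ • D - Finsupp.single P₀ (Divisor.degree (B.act σ • D))
  rw [SemilinearAut.degree_smul]
  exact Fermat.Agent.Div.tr_smul_sub_single _ D P₀ _ hσ

/-- the orbit of a class is finite if the orbit of the divisor is. -/
theorem trK_finite_orbit_pcls (B : BCSetup K F Ω FΩ) (P₀ : Place Ω FΩ)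
    (H : Subgroup (Ω ≃ₐ[K] Ω)) (hP₀ : ∀ σ ∈ H, B.act σ • P₀ = P₀)
    (E : Divisor Ω FΩ) (hE : (orbitOfK B H E).Finite) :
    (orbitOfK B H (pcls B.hΩ P₀ E)).Finite := by
  refine (hE.image (pcls B.hΩ P₀)).subset ?_
  rintro _ ⟨σ, hσ, rfl⟩
  exact ⟨_, ⟨σ, hσ, rfl⟩, (trK_smul_pcls B P₀ σ (hP₀ σ hσ) E).symm⟩

/-- the orbit of an effective divisor with `ℓ = 1` is finite if the orbit of its class is. -/
theorem trK_finite_orbit_of_pcls (B : BCSetup K F Ω FΩ) (P₀ : Place Ω FΩ)
    (H : Subgroup (Ω ≃ₐ[K] Ω)) (hP₀ : ∀ σ ∈ H, B.act σ • P₀ = P₀)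
    (D : Divisor Ω FΩ) (hD : 0 ≤ D) (hell : ell D = 1)
    (hfin : (orbitOfK B H (pcls B.hΩ P₀ D)).Finite) : (orbitOfK B H D).Finite := by
  apply Set.Finite.of_finite_image (f := pcls B.hΩ P₀)
  · refine hfin.subset ?_
    rintro _ ⟨_, ⟨σ, hσ, rfl⟩, rfl⟩
    exact ⟨σ, hσ, trK_smul_pcls B P₀ σ (hP₀ σ hσ) _⟩
  · rintro _ ⟨σ, hσ, rfl⟩ _ ⟨τ, hτ, rfl⟩ heq
    refine Fermat.Agent.Div.tr_eq_of_cls_eq B.hΩ P₀ _ _
      (Fermat.Agent.Div.tr_smul_nonneg _ hD) (Fermat.Agent.Div.tr_smul_nonneg _ hD) ?_ ?_ heq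
    · rw [Fermat.Agent.Div.ell_smul]
      exact hell
    · rw [SemilinearAut.degree_smul, SemilinearAut.degree_smul]

/-- **(TR)** transfer of genericity. -/
theorem transfer [IsAlgClosed K] [IsAlgClosed Ω] (B : BCSetup K F Ω FΩ) (x : F) :
    Transfer B x := by
  classical
  intro P₀ hP₀ g P hP hell E hE hdeg H
  obtain ⟨Q, hQ⟩ := Fermat.Agent.Div.tr_exists_tuple B.hΩ g E hE hdeg
  have hEQ : E = sumPl Q := hQ
  obtain ⟨c, hc, hover⟩ := hP
  -- the values of the coordinate function at the points of `E`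
  set c' : Fin g → Ω := fun i => if h : ∃ a, Over (B.φ x) (Q i) a then h.choose else 0 with hc'
  have hc'spec : ∀ i, (∃ a, Over (B.φ x) (Q i) a) → Over (B.φ x) (Q i) (c' i) := by
    intro i h
    simp only [hc', dif_pos h]
    exact h.choose_spec
  set S : Finset Ω := Finset.univ.image c' with hS
  have hScard : S.card ≤ g := by
    calc S.card ≤ (Finset.univ : Finset (Fin g)).card := Finset.card_image_le
      _ = g := by simp
  have hmemS' : ∀ i, c' i ∈ (S : Set Ω) := fun i =>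
    Finset.mem_coe.mpr (Finset.mem_image_of_mem _ (Finset.mem_univ i))
  have hmemS : ∀ i, c' i ∈ closFieldK K (S : Set Ω) := fun i =>
    subset_closFieldK _ (hmemS' i)
  have hxne : ∀ i : Fin g, ∃ (R : Place Ω FΩ) (a : Ω), Over (B.φ x) R a :=
    fun i => ⟨P i, c i, hover i⟩
  -- the orbit of `E` is finite
  have horbE : (orbitOfK B (galOverK K (S : Set Ω)) E).Finite := by
    apply ns_finite_orbit_divisor
    intro R hR
    rw [hEQ] at hR
    obtain ⟨i, rfl⟩ := ns_support_sumPl Q hR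
    rcases trK_pole_or_over B x (hxne i) (Q i) with hp | ho
    · exact trK_finite_orbit_of_pole B x _ hp
    · exact ns_finite_orbit_of_over B x _ (hc'spec i ho) (hmemS i)
  have hfixP₀ : ∀ σ ∈ galOverK K (S : Set Ω), B.act σ • P₀ = P₀ := fun σ _ => hP₀ σ
  have horbx := H S (trK_finite_orbit_pcls B P₀ _ hfixP₀ E horbE)
  have horbD : (orbitOfK B (galOverK K (S : Set Ω)) (sumPl P)).Finite :=
    trK_finite_orbit_of_pcls B P₀ _ hfixP₀ _ (ns_sumPl_nonneg P) hell horbx
  -- the values `c i` are algebraic over `K(S)`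
  have hcS : ∀ i, c i ∈ closFieldK K (S : Set Ω) := fun i =>
    trK_mem_closFieldK_of_finite_orbit_place B x _ (hover i)
      (trK_finite_orbit_of_mem_support B _ _ horbD (trK_mem_support_sumPl P i))
  obtain ⟨hcard, hind⟩ := algebraicIndependent_of_mem_closFieldK c hc S hScard hcS
  have hinj : Function.Injective c' := by
    have h1 : (Finset.univ.image c').card = (Finset.univ : Finset (Fin g)).card := by
      rw [← hS, hcard]
      simp
    have h2 := Finset.injOn_of_card_image_eq h1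
    intro i j hij
    exact h2 (Finset.mem_coe.mpr (Finset.mem_univ i)) (Finset.mem_coe.mpr (Finset.mem_univ j)) hij
  have hind' : AlgebraicIndependent K c' :=
    hind.comp (fun i : Fin g => (⟨c' i, hmemS' i⟩ : (S : Set Ω)))
      (fun i j hij => hinj (congrArg Subtype.val hij))
  have hover' : ∀ i, Over (B.φ x) (Q i) (c' i) := by
    intro i
    rcases trK_pole_or_over B x (hxne i) (Q i) with hp | ho
    · exfalso
      have hnot : ¬ ∃ a, Over (B.φ x) (Q i) a := fun ⟨a, ha⟩ =>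
        absurd hp (not_lt.mpr (trK_not_pole_of_over ha))
      have h0 : c' i = 0 := by simp only [hc', dif_neg hnot]
      have htr := hind'.transcendental i
      rw [h0] at htr
      exact htr isAlgebraic_zero
    · exact hc'spec i ho
  exact ⟨Q, hEQ, c', hind', hover'⟩

end Fermat.Agent.S27
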