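import Mathlib
import Fermat.Agent.S27.Lift.ChainProps
import Fermat.Agent.S27.Lift.Interface
import Fermat.Agent.S27.Lift.Basic
import Fermat.Agent.S27.Lift.NonSpecial
import Fermat.Agent.S27.Lift.Transfer

set_option autoImplicit false
set_option linter.unusedSectionVars false

/-!
# S27, seat E (lifting of torsion), leaf CLAIM-L (helper13)

`claimL : ClaimL B x y` from the leaves NS, TR, DIVGEN, CONJ, E0, E1, BCINJ and `F = K(x, y)`:
the `n`-torsion of `Pic⁰(F)` injects into the conjugates of the values of `x, y` at the points of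
a division point `Qf` of a generic class `[Q]`, `Q` over a transcendence basis `t`, under the
automorphisms fixing the symmetric functions of `t`.

For `z ∈ Pic⁰(F)[n]` the class `[Qf] + bc z` has an effective representative `E_z` of degree `g`,
`n • [E_z] = [Q]`, so `E_z = sumPl Q_z` with `Q_z` generic (TR); `τ_z • Qf = Q_z` (CONJ);
`τ_z` fixes `[Q]`, hence the divisor `sumPl Q` (NS), hence permutes the `Q i` and the `t i`.
The values of `x, y` at `Q_z i` determine `Q_z i` (E1, `F = K(x, y)`), and `bc` is injective.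
-/

noncomputable section

namespace Fermat.Agent.S27

open AlgebraicCurve Fermat.Agent.RR IntermediateField

universe uK uF uΩ uFΩ

variable {K : Type uK} {F : Type uF} {Ω : Type uΩ} {FΩ : Type uFΩ}
  [Field K] [Field F] [Field Ω] [Field FΩ] [Algebra K F] [Algebra K Ω] [Algebra Ω FΩ]

/-! ### symmetric functions -/

theorem cl_symFam_eq_aeval {g : ℕ} (t : Fin g → Ω) (j : Fin g) :
    symFam t j = MvPolynomial.aeval t (MvPolynomial.esymm (Fin g) K ((j : ℕ) + 1)) := by
  unfold symFam
  rw [MvPolynomial.aeval_esymm_eq_multiset_esymm]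

/-- an automorphism which permutes the `t i` fixes their symmetric functions. -/
theorem cl_symFam_fixed {g : ℕ} (t : Fin g → Ω) (ht : Function.Injective t) (σ : Ω ≃ₐ[K] Ω)
    (h : ∀ i, ∃ j, σ (t i) = t j) (k : Fin g) : σ (symFam t k) = symFam t k := by
  choose p hp using h
  have hinj : Function.Injective p := by
    intro i i' hii
    apply ht
    apply σ.injective
    rw [hp i, hp i', hii]
  let π : Equiv.Perm (Fin g) := Equiv.ofBijective p (Finite.injective_iff_bijective.1 hinj)
  have h1 : σ (MvPolynomial.aeval t (MvPolynomial.esymm (Fin g) K ((k : ℕ) + 1))) =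
      MvPolynomial.aeval (fun i => σ (t i)) (MvPolynomial.esymm (Fin g) K ((k : ℕ) + 1)) :=
    MvPolynomial.comp_aeval_apply t (σ : Ω →ₐ[K] Ω) _
  have h2 : (fun i => σ (t i)) = t ∘ π := funext fun i => hp i
  rw [cl_symFam_eq_aeval (K := K), h1, h2, ← MvPolynomial.aeval_rename,
    MvPolynomial.rename_esymm]

/-! ### the value homomorphism of a generic place -/

/-- the value map of a generic place, as a ring homomorphism. -/
def clEval (B : BCSetup K F Ω FΩ) (P : Place Ω FΩ) (hP : IsGenPl B P) : F →+* Ω where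
  toFun f := Fermat.Agent.S17.Pts.ev P (B.φ f)
  map_one' := by rw [map_one, Fermat.Agent.S17.Pts.ev_one]
  map_zero' := by rw [map_zero, Fermat.Agent.S17.Pts.ev_zero]
  map_mul' f g := by
    rw [map_mul]
    exact Fermat.Agent.S17.Pts.ev_mul B.hΩ P (hP f).ge (hP g).ge
  map_add' f g := by
    rw [map_add]
    exact Fermat.Agent.S17.Pts.ev_add B.hΩ P (hP f).ge (hP g).ge

theorem clEval_apply (B : BCSetup K F Ω FΩ) (P : Place Ω FΩ) (hP : IsGenPl B P) (f : F) :
    clEval B P hP f = Fermat.Agent.S17.Pts.ev P (B.φ f) := rfl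

theorem clEval_algebraMap (B : BCSetup K F Ω FΩ) (P : Place Ω FΩ) (hP : IsGenPl B P) (a : K) :
    clEval B P hP (algebraMap K F a) = algebraMap K Ω a := by
  rw [clEval_apply, B.isConstExt.comm, Fermat.Agent.S17.Pts.ev_algebraMap]

/-- two ring homomorphisms on `F = K(x, y)` which agree on `K`, `x` and `y` are equal. -/
theorem cl_ringHom_ext {x y : F} (hgen : IntermediateField.adjoin K ({x, y} : Set F) = ⊤)
    (ε₁ ε₂ : F →+* Ω) (hK : ∀ a : K, ε₁ (algebraMap K F a) = ε₂ (algebraMap K F a))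
    (hx : ε₁ x = ε₂ x) (hy : ε₁ y = ε₂ y) (f : F) : ε₁ f = ε₂ f := by
  let T : IntermediateField K F :=
    { carrier := {f | ε₁ f = ε₂ f}
      mul_mem' := fun {a b} ha hb => by
        show ε₁ (a * b) = ε₂ (a * b)
        rw [map_mul, map_mul, ha, hb]
      one_mem' := by
        show ε₁ 1 = ε₂ 1
        rw [map_one, map_one]
      add_mem' := fun {a b} ha hb => by
        show ε₁ (a + b) = ε₂ (a + b)
        rw [map_add, map_add, ha, hb]
      zero_mem' := by
        show ε₁ 0 = ε₂ 0
        rw [map_zero, map_zero]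
      algebraMap_mem' := hK
      inv_mem' := fun a ha => by
        show ε₁ a⁻¹ = ε₂ a⁻¹
        rw [map_inv₀, map_inv₀, ha] }
  have h1 : IntermediateField.adjoin K ({x, y} : Set F) ≤ T := by
    rw [IntermediateField.adjoin_le_iff]
    intro z hz
    rcases hz with rfl | hz
    · exact hx
    · rw [Set.mem_singleton_iff] at hz
      subst hz
      exact hy
  rw [hgen] at h1
  exact h1 (IntermediateField.mem_top (x := f))

/-! ### CLAIM-L -/

/-- **(CLAIM-L)** the lower bound for the conjugates. -/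
theorem claimL (B : BCSetup K F Ω FΩ) (x y : F)
    (hgen : IntermediateField.adjoin K ({x, y} : Set F) = ⊤)
    (hNS : NonSpecial B x) (hTR : Transfer B x) (hDG : DivGen B x) (hCONJ : Conj B x)
    (hE0 : GenericOfOver B x) (hE1 : ValuesDetermine B x) (hBC : BcInjective B) :
    ClaimL B x y := by
  classical
  intro n hn P₀ g hg Qf Q t ht hover hcls hfin
  have hfix : ∀ σ : Ω ≃ₐ[K] Ω, B.act σ • B.ext P₀ = B.ext P₀ := fun σ => B.act_ext σ P₀
  have hQgen : IsGenTuple B x Q := ⟨t, ht.1, hover⟩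
  have hQfgen : IsGenTuple B x Qf := hDG (B.ext P₀) hfix n g hg Qf Q hQgen hcls
  have hellQ : ell (sumPl Q) = 1 := hNS g (le_of_eq hg) Q hQgen
  have htinj : Function.Injective t := ht.1.injective
  have htors : ∀ z : Pic0.torsion K F n, n • (z : Pic0 K F) = 0 := by
    intro z
    have h1 := Pic0.mem_torsion.1 z.2
    rwa [natCast_zsmul] at h1
  -- for every torsion class an automorphism
  have key : ∀ z : Pic0.torsion K F n, ∃ (σ : Ω ≃ₐ[K] Ω) (Qz : Fin g → Place Ω FΩ),
      IsGenTuple B x Qz ∧ (∀ i, B.act σ • Qf i = Qz i) ∧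
      pcls B.hΩ (B.ext P₀) (sumPl Qz) =
        pcls B.hΩ (B.ext P₀) (sumPl Qf) + B.bc (z : Pic0 K F) := by
    intro z
    obtain ⟨E, hE0', hEdeg, hEcls⟩ := Fermat.Agent.Div.tr_exists_effective_cls B.hΩ (B.ext P₀)
      (pcls B.hΩ (B.ext P₀) (sumPl Qf) + B.bc (z : Pic0 K F))
    have hEdeg' : Divisor.degree E = (g : ℤ) := by rw [hEdeg, hg]
    have hEcls' : pcls B.hΩ (B.ext P₀) E =
        pcls B.hΩ (B.ext P₀) (sumPl Qf) + B.bc (z : Pic0 K F) := hEcls.symm
    have hnE : n • pcls B.hΩ (B.ext P₀) E = pcls B.hΩ (B.ext P₀) (sumPl Q) := by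
      rw [hEcls', nsmul_add, ← hcls, ← map_nsmul, htors z, map_zero, add_zero]
    obtain ⟨Qz, hEQz, hQzgen⟩ := hTR (B.ext P₀) hfix g Q hQgen hellQ E hE0' hEdeg'
      (fun S hS => by
        rw [← hnE]
        refine (hS.image (fun e => n • e)).subset ?_
        rintro _ ⟨σ, hσ, rfl⟩
        exact ⟨_, ⟨σ, hσ, rfl⟩, (smul_comm n (B.act σ) _)⟩)
    obtain ⟨σ, hσ⟩ := hCONJ g t ht Qz Qf hQzgen hQfgen
    exact ⟨σ, Qz, hQzgen, hσ, by rw [← hEQz]; exact hEcls'⟩
  choose σ Qz hQzgen hσQ hQzcls using key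
  -- `σ z` fixes the symmetric functions of `t`
  have hσs : ∀ z k, σ z (symFam t k) = symFam t k := by
    intro z k
    have h1 : B.act (σ z) • pcls B.hΩ (B.ext P₀) (sumPl Qf) =
        pcls B.hΩ (B.ext P₀) (sumPl Qf) + B.bc (z : Pic0 K F) := by
      rw [B.smul_pcls (B.ext P₀) (σ z) (hfix _), smul_sumPl]
      have h0 : (fun i => B.act (σ z) • Qf i) = Qz z := funext (hσQ z)
      rw [h0, hQzcls]
    have h2 : B.act (σ z) • pcls B.hΩ (B.ext P₀) (sumPl Q) =
        pcls B.hΩ (B.ext P₀) (sumPl Q) := by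
      rw [hcls, ← smul_comm n (B.act (σ z)), h1, nsmul_add, ← map_nsmul, htors z, map_zero,
        add_zero]
    rw [B.smul_pcls (B.ext P₀) (σ z) (hfix _)] at h2
    have h3 : sumPl Q = B.act (σ z) • sumPl Q :=
      Fermat.Agent.Div.tr_eq_of_cls_eq B.hΩ (B.ext P₀) (sumPl Q) (B.act (σ z) • sumPl Q)
        (sumPl_nonneg Q) (Fermat.Agent.Div.tr_smul_nonneg _ (sumPl_nonneg Q)) hellQ
        (by rw [SemilinearAut.degree_smul]) h2.symm
    refine cl_symFam_fixed t htinj (σ z) (fun i => ?_) k
    have h4 : B.act (σ z) • Q i ∈ (sumPl Q).support := by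
      rw [h3, smul_sumPl]
      exact trK_mem_support_sumPl (fun i => B.act (σ z) • Q i) i
    obtain ⟨j, hj⟩ := ns_support_sumPl Q h4
    refine ⟨j, ?_⟩
    have h5 : Over (B.φ x) (B.act (σ z) • Q i) (σ z (t i)) := B.over_smul x (σ z) (hover i)
    rw [hj] at h5
    exact over_unique h5 (hover j)
  -- the injection
  set u : Fin (g + g) → Ω := valFam Qf (B.φ x) (B.φ y) with hu
  have hv : ∀ z, (fun j => σ z (u j)) ∈ conjVals K (symFam t) u :=
    fun z => ⟨σ z, hσs z, fun j => rfl⟩
  have hinj : ∀ z z' : Pic0.torsion K F n,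
      (fun j => σ z (u j)) = (fun j => σ z' (u j)) → z = z' := by
    intro z z' hzz
    have hval : ∀ (i : Fin g) (f : F), f = x ∨ f = y →
        Fermat.Agent.S17.Pts.ev (Qz z i) (B.φ f) = Fermat.Agent.S17.Pts.ev (Qz z' i) (B.φ f) := by
      intro i f hf
      rw [← hσQ z i, ← hσQ z' i, B.ev_smul, B.ev_smul]
      rcases hf with rfl | rfl
      · have h1 := congrFun hzz (Fin.castAdd g i)
        simp only [hu, valFam, Fin.append_left] at h1
        exact h1
      · have h1 := congrFun hzz (Fin.natAdd g i)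
        simp only [hu, valFam, Fin.append_right] at h1
        exact h1
    have hQeq : Qz z = Qz z' := by
      funext i
      obtain ⟨c, hc, hcover⟩ := hQzgen z
      obtain ⟨c', hc', hcover'⟩ := hQzgen z'
      have hci : Transcendental K (c i) := hc.transcendental i
      have hci' : Transcendental K (c' i) := hc'.transcendental i
      have hg1 : IsGenPl B (Qz z i) := hE0 (Qz z i) (c i) hci (hcover i)
      have hg2 : IsGenPl B (Qz z' i) := hE0 (Qz z' i) (c' i) hci' (hcover' i)
      refine hE1 (Qz z i) (Qz z' i) (c i) (c' i) hci hci' (hcover i) (hcover' i) (fun f => ?_)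
      exact cl_ringHom_ext hgen (clEval B (Qz z i) hg1) (clEval B (Qz z' i) hg2)
        (fun a => by rw [clEval_algebraMap, clEval_algebraMap])
        (hval i x (Or.inl rfl)) (hval i y (Or.inr rfl)) f
    have h1 := hQzcls z
    rw [hQeq, hQzcls z'] at h1
    have h2 : B.bc (z' : Pic0 K F) = B.bc (z : Pic0 K F) := add_left_cancel h1
    exact Subtype.ext (hBC h2).symm
  have : Finite ↥(conjVals K (symFam t) u) := hfin.to_subtype
  rw [← Nat.card_coe_set_eq]
  exact Nat.card_le_card_of_injective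
    (fun z => (⟨fun j => σ z (u j), hv z⟩ : ↥(conjVals K (symFam t) u)))
    (fun z z' h => hinj z z' (Subtype.ext_iff.1 h))

end Fermat.Agent.S27
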