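/-
S27, seat E, leaf COMB (helper20): combinatorics of tuples of places with a given sum, and of the
elementary symmetric functions of a tuple.

* `exists_perm_of_sumPl_eq`, `sumPl_comp_perm`, `card_tuples_sumPl_le`
* `symFam_comp_perm`, `exists_perm_of_symFam_eq`, `symFam_map`, `symFam_mem`
* `algebraicIndependent_symFam`, `isAlgebraic_adjoin_symFam`
-/
import Mathlib
import Fermat.Agent.S27.Lift.ChainProps
import Fermat.Agent.S27.Lift.FieldK

set_option autoImplicit false
set_option linter.style.haveILetI false

noncomputable section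

namespace Fermat.Agent.S27

open AlgebraicCurve

/-! ### tuples with the same fibre cardinalities -/

/-- two families with the same fibre cardinalities differ by a permutation. -/
theorem comb_exists_perm {α ι : Type*} [Fintype ι] [DecidableEq α] (P Q : ι → α)
    (h : ∀ a, (Finset.univ.filter (fun i => P i = a)).card =
      (Finset.univ.filter (fun i => Q i = a)).card) :
    ∃ π : Equiv.Perm ι, ∀ i, P i = Q (π i) := by
  classical
  have hcard : ∀ a, Fintype.card {i // P i = a} = Fintype.card {i // Q i = a} := by
    intro a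
    rw [Fintype.card_subtype, Fintype.card_subtype]
    exact h a
  let e : ∀ a, {i // P i = a} ≃ {i // Q i = a} := fun a => Fintype.equivOfCardEq (hcard a)
  refine ⟨Equiv.ofFiberEquiv e, fun i => ?_⟩
  exact (Equiv.ofFiberEquiv_map e i).symm

/-- two families with the same multiset of values differ by a permutation. -/
theorem comb_exists_perm_of_map_eq {α ι : Type*} [Fintype ι] (P Q : ι → α)
    (h : Finset.univ.val.map P = Finset.univ.val.map Q) :
    ∃ π : Equiv.Perm ι, ∀ i, P i = Q (π i) := by
  classical
  apply comb_exists_perm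
  intro a
  have h1 := congrArg (Multiset.count a) h
  rw [Multiset.count_map, Multiset.count_map] at h1
  have h2 : ∀ R : ι → α, (Finset.univ.filter (fun i => R i = a)).card =
      Multiset.card (Multiset.filter (fun i => a = R i) Finset.univ.val) := by
    intro R
    rw [Finset.card_def, Finset.filter_val]
    congr 1
    apply Multiset.filter_congr
    intro i _
    exact eq_comm
  rw [h2 P, h2 Q]
  exact h1

/-! ### `sumPl` -/

section SumPl

variable {Ω : Type*} {FΩ : Type*} [Field Ω] [Field FΩ] [Algebra Ω FΩ]

open Classical in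
theorem sumPl_apply {n : ℕ} (P : Fin n → Place Ω FΩ) (v : Place Ω FΩ) :
    sumPl P v = ((Finset.univ.filter (fun i => P i = v)).card : ℤ) := by
  unfold sumPl
  rw [Finsupp.finsetSum_apply]
  simp only [Finsupp.single_apply]
  rw [Finset.sum_boole]

/-- tuples with the same sum differ by a permutation. -/
theorem exists_perm_of_sumPl_eq {n : ℕ} (P Q : Fin n → Place Ω FΩ) (h : sumPl P = sumPl Q) :
    ∃ π : Equiv.Perm (Fin n), ∀ i, P i = Q (π i) := by
  classical
  apply comb_exists_perm
  intro v
  have h1 := congrArg (fun D : Divisor Ω FΩ => D v) h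
  simp only [sumPl_apply] at h1
  exact_mod_cast h1

theorem sumPl_comp_perm {n : ℕ} (P : Fin n → Place Ω FΩ) (π : Equiv.Perm (Fin n)) :
    sumPl (P ∘ π) = sumPl P := by
  unfold sumPl
  exact Equiv.sum_comp π (fun i => Finsupp.single (P i) (1 : ℤ))

/-- at most `n!` tuples have a given sum. -/
theorem card_tuples_sumPl_le (D : Divisor Ω FΩ) (n : ℕ) :
    {P : Fin n → Place Ω FΩ | sumPl P = D}.Finite ∧
      {P : Fin n → Place Ω FΩ | sumPl P = D}.ncard ≤ n.factorial := by
  classical
  by_cases hne : {P : Fin n → Place Ω FΩ | sumPl P = D}.Nonempty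
  · obtain ⟨P₀, hP₀⟩ := hne
    have hsub : {P : Fin n → Place Ω FΩ | sumPl P = D} ⊆
        Set.range (fun π : Equiv.Perm (Fin n) => P₀ ∘ π) := by
      intro P hP
      obtain ⟨π, hπ⟩ := exists_perm_of_sumPl_eq P P₀ (hP.trans hP₀.symm)
      exact ⟨π, funext fun i => (hπ i).symm⟩
    have hfin : (Set.range (fun π : Equiv.Perm (Fin n) => P₀ ∘ π)).Finite :=
      Set.finite_range _
    refine ⟨hfin.subset hsub, ?_⟩
    calc {P : Fin n → Place Ω FΩ | sumPl P = D}.ncard
        ≤ (Set.range (fun π : Equiv.Perm (Fin n) => P₀ ∘ π)).ncard :=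
          Set.ncard_le_ncard hsub hfin
      _ ≤ Nat.card (Equiv.Perm (Fin n)) := by
          rw [← Set.image_univ]
          calc (((fun π : Equiv.Perm (Fin n) => P₀ ∘ π) '' Set.univ)).ncard
              ≤ (Set.univ : Set (Equiv.Perm (Fin n))).ncard :=
                Set.ncard_image_le Set.finite_univ
            _ = Nat.card (Equiv.Perm (Fin n)) := Set.ncard_univ _
      _ = n.factorial := by
          rw [Nat.card_eq_fintype_card, Fintype.card_perm, Fintype.card_fin]
  · rw [Set.not_nonempty_iff_eq_empty] at hne
    rw [hne]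
    exact ⟨Set.finite_empty, by simp⟩

end SumPl

/-! ### `symFam` -/

section SymFam

variable {Ω : Type*} [Field Ω]

theorem symFam_comp_perm {g : ℕ} (t : Fin g → Ω) (π : Equiv.Perm (Fin g)) :
    symFam (t ∘ π) = symFam t := by
  funext j
  unfold symFam
  rw [← Multiset.map_map, Multiset.map_univ_val_equiv]

/-- the elementary symmetric functions of the values of a multiset determine it. -/
theorem comb_multiset_eq_of_esymm_eq (s s' : Multiset Ω) (hcard : Multiset.card s = Multiset.card s')
    (h : ∀ j, 1 ≤ j → j ≤ Multiset.card s → s.esymm j = s'.esymm j) : s = s' := by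
  have hp : (s.map fun a => Polynomial.X - Polynomial.C a).prod =
      (s'.map fun a => Polynomial.X - Polynomial.C a).prod := by
    rw [Multiset.prod_X_sub_X_eq_sum_esymm, Multiset.prod_X_sub_X_eq_sum_esymm, ← hcard]
    refine Finset.sum_congr rfl fun j hj => ?_
    rcases Nat.eq_zero_or_pos j with rfl | hj0
    · simp [Multiset.esymm]
    · rw [h j hj0 (Nat.lt_succ_iff.mp (Finset.mem_range.mp hj))]
  have := congrArg Polynomial.roots hp
  rwa [Polynomial.roots_multiset_prod_X_sub_C, Polynomial.roots_multiset_prod_X_sub_C] at this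

theorem exists_perm_of_symFam_eq {g : ℕ} (t t' : Fin g → Ω) (h : symFam t = symFam t') :
    ∃ π : Equiv.Perm (Fin g), ∀ i, t i = t' (π i) := by
  apply comb_exists_perm_of_map_eq
  apply comb_multiset_eq_of_esymm_eq
  · simp
  · intro j hj1 hjg
    rw [Multiset.card_map, Finset.card_val, Finset.card_univ, Fintype.card_fin] at hjg
    obtain ⟨j', rfl⟩ : ∃ j', j = j' + 1 := ⟨j - 1, by omega⟩
    have := congrFun h ⟨j', by omega⟩
    exact this

/-- `esymm` commutes with ring homomorphisms. -/
theorem comb_map_esymm {R S : Type*} [CommSemiring R] [CommSemiring S] (f : R →+* S)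
    (s : Multiset R) (n : ℕ) : f (s.esymm n) = (s.map f).esymm n := by
  unfold Multiset.esymm
  rw [Multiset.powersetCard_map, Multiset.map_map, map_multiset_sum, Multiset.map_map]
  congr 1
  apply Multiset.map_congr rfl
  intro x _
  simp only [Function.comp_apply]
  exact map_multiset_prod f x

theorem symFam_map {ω : Type*} [Field ω] (f : Ω →+* ω) {g : ℕ} (t : Fin g → Ω) (j : Fin g) :
    f (symFam t j) = symFam (f ∘ t) j := by
  unfold symFam
  rw [comb_map_esymm, Multiset.map_map]

theorem symFam_mem (O : Subring Ω) {g : ℕ} {t : Fin g → Ω} (ht : ∀ i, t i ∈ O) (j : Fin g) :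
    symFam t j ∈ O := by
  unfold symFam
  have h1 : Finset.univ.val.map t =
      (Finset.univ.val.map (fun i => (⟨t i, ht i⟩ : O))).map O.subtype := by
    rw [Multiset.map_map]
    rfl
  rw [h1, ← comb_map_esymm]
  exact Subtype.property _

variable {K : Type*} [Field K] [Algebra K Ω]

theorem algebraicIndependent_symFam {g : ℕ} {t : Fin g → Ω} (ht : AlgebraicIndependent K t) :
    AlgebraicIndependent K (symFam t) := by
  have hE : AlgebraicIndependent K
      (fun i : Fin g => MvPolynomial.esymm (Fin g) K ((i : ℕ) + 1)) := by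
    rw [algebraicIndependent_iff_injective_aeval]
    intro p q hpq
    apply MvPolynomial.esymmAlgHom_fin_injective K (le_refl g)
    apply Subtype.ext
    rw [MvPolynomial.esymmAlgHom_apply, MvPolynomial.esymmAlgHom_apply]
    exact hpq
  have h1 := hE.map' (f := MvPolynomial.aeval t) ht
  have h2 : (MvPolynomial.aeval t : MvPolynomial (Fin g) K →ₐ[K] Ω) ∘
      (fun i : Fin g => MvPolynomial.esymm (Fin g) K ((i : ℕ) + 1)) = symFam t := by
    funext i
    simp only [Function.comp_apply]
    rw [MvPolynomial.aeval_esymm_eq_multiset_esymm]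
    rfl
  rw [h2] at h1
  exact h1

/-- every `t i` is algebraic over the field generated by the symmetric functions. -/
theorem comb_mem_closFieldK_symFam {g : ℕ} (t : Fin g → Ω) (i : Fin g) :
    t i ∈ closFieldK K (Set.range (symFam t)) := by
  classical
  rw [mem_closFieldK]
  set L := IntermediateField.adjoin K (Set.range (symFam t)) with hL
  set s : Multiset Ω := Finset.univ.val.map t with hs
  have hcard : Multiset.card s = g := by simp [hs]
  set p : Polynomial Ω := (s.map fun a => Polynomial.X - Polynomial.C a).prod with hp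
  have hmonic : p.Monic := Polynomial.monic_multiset_prod_of_monic _ _
    (fun a _ => Polynomial.monic_X_sub_C a)
  have hesymm : ∀ j, j ≤ g → s.esymm j ∈ L := by
    intro j hj
    rcases Nat.eq_zero_or_pos j with rfl | hj0
    · have : s.esymm 0 = 1 := by simp [Multiset.esymm]
      rw [this]
      exact one_mem _
    · obtain ⟨j', rfl⟩ : ∃ j', j = j' + 1 := ⟨j - 1, by omega⟩
      exact IntermediateField.subset_adjoin K _ ⟨⟨j', by omega⟩, rfl⟩
  have hlift : p ∈ Polynomial.lifts (algebraMap L Ω) := by
    rw [hp, Multiset.prod_X_sub_X_eq_sum_esymm]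
    apply Subsemiring.sum_mem
    intro j hj
    rw [hcard] at hj ⊢
    have hj' : j ≤ g := Nat.lt_succ_iff.mp (Finset.mem_range.mp hj)
    apply Subsemiring.mul_mem
    · have h1 : ((-1 : Polynomial Ω)) ^ j =
          Polynomial.C (algebraMap L Ω ((-1) ^ j)) := by
        simp
      rw [h1]
      exact Polynomial.C_mem_lifts _ _
    · apply Subsemiring.mul_mem
      · have h2 : Polynomial.C (s.esymm j) =
            Polynomial.C (algebraMap L Ω ⟨s.esymm j, hesymm j hj'⟩) := rfl
        rw [h2]
        exact Polynomial.C_mem_lifts _ _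
      · exact Subsemiring.pow_mem _ (Polynomial.X_mem_lifts _) _
  obtain ⟨q, hqmap, -, hqmonic⟩ := Polynomial.lifts_and_degree_eq_and_monic hlift hmonic
  have hroot : Polynomial.aeval (t i) q = 0 := by
    rw [Polynomial.aeval_def, ← Polynomial.eval_map, hqmap, hp, Polynomial.eval_multiset_prod]
    apply Multiset.prod_eq_zero
    rw [Multiset.mem_map]
    refine ⟨Polynomial.X - Polynomial.C (t i), ?_, by simp⟩
    rw [Multiset.mem_map]
    exact ⟨t i, by rw [hs, Multiset.mem_map]; exact ⟨i, Finset.mem_univ_val i, rfl⟩, rfl⟩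
  exact ⟨q, hqmonic.ne_zero, hroot⟩

theorem isAlgebraic_adjoin_symFam {g : ℕ} {t : Fin g → Ω} (ht : IsTranscendenceBasis K t)
    (a : Ω) : IsAlgebraic ↥(IntermediateField.adjoin K (Set.range (symFam t))) a := by
  rw [← mem_closFieldK]
  have h1 : a ∈ closFieldK K (Set.range t) := by
    rw [mem_closFieldK]
    haveI := ht.isAlgebraic_field
    exact Algebra.IsAlgebraic.isAlgebraic a
  have h2 : Set.range t ⊆ (closFieldK K (Set.range (symFam t)) : Set Ω) := by
    rintro _ ⟨i, rfl⟩
    exact comb_mem_closFieldK_symFam t i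
  have h3 : (closFieldK K (Set.range t) : Set Ω) ⊆ closFieldK K (Set.range (symFam t)) := by
    rw [closFieldK_eq_matroid_closure, closFieldK_eq_matroid_closure] at *
    exact Matroid.closure_subset_closure_of_subset_closure h2
  exact h3 h1

end SymFam

end Fermat.Agent.S27
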