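import Fermat.Agent.S27.Lift.ChainProps
import Fermat.Agent.S27.Lift.Basic
import Fermat.Agent.S27.Lift.Transfer
import Fermat.Agent.S27.Lift.Comb

set_option autoImplicit false
set_option linter.unusedSectionVars false

/-!
# S27, seat E, leaf CLAIM-U (helper44): the upper bound for the conjugates

`claimU_core` : `ClaimU B x y` from `NonSpecial B x` and the combinatorial facts of leaf COMB (as
explicit hypotheses).

Proof.  `G` = the automorphisms fixing `symFam t`, `c = pcls (sumPl Qf)`.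
* the value tuple `σ ∘ u` is determined by the tuple of places `σ • Qf` (`B.ev_smul`);
* `σ ∈ G` permutes `t`, so `σ • Q i` lies over `t (π i)`: `sumPl (σ • Q)` is one of at most `N ^ g`
  divisors, and `n • (σ • c) = pcls (sumPl (σ • Q))`: at most `N ^ g * #Pic⁰[n]` classes `σ • c`;
* `σ • Qf` is generic, so `ell = 1` (NS): `sumPl (σ • Qf)` is determined by its class `σ • c`, and
  at most `g!` tuples have a given sum.
-/

noncomputable section

namespace Fermat.Agent.S27

open AlgebraicCurve Fermat.Agent.RR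

universe uK uF uΩ uFΩ

/-- counting along the fibres of a map. -/
theorem cu_ncard_le_mul {α β : Type*} (S : Set α) (f : α → β) (T : Set β) (hT : T.Finite)
    (hST : ∀ a ∈ S, f a ∈ T) (m : ℕ)
    (hfib : ∀ b ∈ T, {a | a ∈ S ∧ f a = b}.Finite ∧ {a | a ∈ S ∧ f a = b}.ncard ≤ m) :
    S.Finite ∧ S.ncard ≤ T.ncard * m := by
  classical
  have hSU : S = ⋃ b ∈ T, {a | a ∈ S ∧ f a = b} := by
    ext a
    simp only [Set.mem_iUnion, Set.mem_ofPred_eq, exists_prop]
    constructor
    · intro ha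
      exact ⟨f a, hST a ha, ha, rfl⟩
    · rintro ⟨b, -, ha, -⟩
      exact ha
  have hfin : S.Finite := by
    rw [hSU]
    exact hT.biUnion fun b hb => (hfib b hb).1
  refine ⟨hfin, ?_⟩
  rw [Set.ncard_eq_toFinset_card S hfin, Set.ncard_eq_toFinset_card T hT]
  have h1 := Finset.card_le_mul_card_image (f := f) hfin.toFinset m ?_
  · refine h1.trans ?_
    rw [mul_comm]
    refine Nat.mul_le_mul_right m (Finset.card_le_card ?_)
    intro b hb
    obtain ⟨a, ha, rfl⟩ := Finset.mem_image.mp hb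
    rw [Set.Finite.mem_toFinset] at ha ⊢
    exact hST a ha
  · intro b hb
    obtain ⟨a, ha, rfl⟩ := Finset.mem_image.mp hb
    rw [Set.Finite.mem_toFinset] at ha
    obtain ⟨hf1, hf2⟩ := hfib (f a) (hST a ha)
    have h2 : (hfin.toFinset.filter fun x => f x = f a) = hf1.toFinset := by
      ext z
      simp only [Finset.mem_filter, Set.Finite.mem_toFinset, Set.mem_ofPred_eq]
    rw [h2, ← Set.ncard_eq_toFinset_card _ hf1]
    exact hf2

variable {K : Type uK} {F : Type uF} {Ω : Type uΩ} {FΩ : Type uFΩ}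
  [Field K] [Field F] [Field Ω] [Field FΩ] [Algebra K F] [Algebra K Ω] [Algebra Ω FΩ]

/-- the value tuple of a translated tuple of places. -/
theorem cu_valFam_smul (B : BCSetup K F Ω FΩ) (x y : F) (σ : Ω ≃ₐ[K] Ω) {g : ℕ}
    (P : Fin g → Place Ω FΩ) (j : Fin (g + g)) :
    valFam (fun i => B.act σ • P i) (B.φ x) (B.φ y) j = σ (valFam P (B.φ x) (B.φ y) j) := by
  unfold valFam
  refine Fin.addCases (fun i => ?_) (fun i => ?_) j
  · rw [Fin.append_left, Fin.append_left, B.ev_smul]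
  · rw [Fin.append_right, Fin.append_right, B.ev_smul]

/-- the fibres of multiplication by `n` on `Pic⁰` are cosets of the torsion. -/
theorem cu_fibre_nsmul (n : ℕ) [Finite (Pic0.torsion Ω FΩ n)] (w : Pic0 Ω FΩ) :
    {z : Pic0 Ω FΩ | n • z = w}.Finite ∧
      {z : Pic0 Ω FΩ | n • z = w}.ncard ≤ Nat.card (Pic0.torsion Ω FΩ n) := by
  by_cases h : ∃ z₀ : Pic0 Ω FΩ, n • z₀ = w
  · obtain ⟨z₀, hz₀⟩ := h
    have hsub : {z : Pic0 Ω FΩ | n • z = w} ⊆
        (fun u : Pic0.torsion Ω FΩ n => (u : Pic0 Ω FΩ) + z₀) '' Set.univ := by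
      intro z hz
      have hz' : n • z = w := hz
      have hmem : z - z₀ ∈ Pic0.torsion Ω FΩ n := by
        rw [Pic0.mem_torsion, natCast_zsmul, nsmul_sub, hz', hz₀, sub_self]
      exact ⟨⟨z - z₀, hmem⟩, trivial, by simp⟩
    have hfin : ((fun u : Pic0.torsion Ω FΩ n => (u : Pic0 Ω FΩ) + z₀) '' Set.univ).Finite :=
      Set.finite_univ.image _
    refine ⟨hfin.subset hsub, (Set.ncard_le_ncard hsub hfin).trans ?_⟩
    refine (Set.ncard_image_le Set.finite_univ).trans ?_
    rw [Set.ncard_univ]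
  · have hemp : {z : Pic0 Ω FΩ | n • z = w} = ∅ := by
      ext z
      simp only [Set.mem_ofPred_eq, Set.mem_empty_iff_false, iff_false]
      intro hz
      exact h ⟨z, hz⟩
    rw [hemp]
    exact ⟨Set.finite_empty, by simp⟩

/-- **(CLAIM-U)** from the combinatorial facts of leaf COMB. -/
theorem claimU_core (B : BCSetup K F Ω FΩ) (x y : F) (hNS : NonSpecial B x)
    (hperm : ∀ (g : ℕ) (t t' : Fin g → Ω), symFam t = symFam t' →
      ∃ π : Equiv.Perm (Fin g), ∀ i, t i = t' (π i))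
    (hsum : ∀ (g : ℕ) (P : Fin g → Place Ω FΩ) (π : Equiv.Perm (Fin g)),
      sumPl (P ∘ π) = sumPl P)
    (hcard : ∀ (g : ℕ) (D : Divisor Ω FΩ),
      {P : Fin g → Place Ω FΩ | sumPl P = D}.Finite ∧
        {P : Fin g → Place Ω FΩ | sumPl P = D}.ncard ≤ g.factorial)
    (hmap : ∀ (g : ℕ) (σ : Ω ≃ₐ[K] Ω) (t : Fin g → Ω) (j : Fin g),
      σ (symFam t j) = symFam (fun i => σ (t i)) j) :
    ClaimU B x y := by
  classical
  intro N hN n hn hfin P₀ hP₀ g hg Qf Q t hQf hQ hcls
  set c := pcls B.hΩ P₀ (sumPl Qf) with hc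
  let G : Set (Ω ≃ₐ[K] Ω) := {σ | ∀ i, σ (symFam t i) = symFam t i}
  let TT : Set (Fin g → Place Ω FΩ) := {P | ∃ σ ∈ G, P = fun i => B.act σ • Qf i}
  let C : Set (Pic0 Ω FΩ) := {z | ∃ σ ∈ G, z = B.act σ • c}
  let Φ : Set (Fin g → Place Ω FΩ) := {R | ∀ j, Over (B.φ x) (R j) (t j)}
  let W : Set (Pic0 Ω FΩ) := (fun R => pcls B.hΩ P₀ (sumPl R)) '' Φ
  -- the fibres
  have hΦ : Φ.Finite ∧ Φ.ncard ≤ N ^ g := by
    have h1 : Φ = ↑(Fintype.piFinset fun j => (hN (t j)).1.toFinset) := by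
      ext R
      simp only [Φ, Set.mem_ofPred_eq, Finset.mem_coe, Fintype.mem_piFinset,
        Set.Finite.mem_toFinset]
    rw [h1]
    refine ⟨Finset.finite_toSet _, ?_⟩
    rw [Set.ncard_coe_finset, Fintype.card_piFinset]
    calc ∏ j, ((hN (t j)).1.toFinset).card
        ≤ N ^ (Finset.univ : Finset (Fin g)).card :=
          Finset.prod_le_pow_card _ _ _ (fun j _ => by
            rw [← Set.ncard_eq_toFinset_card _ (hN (t j)).1]
            exact (hN (t j)).2)
      _ = N ^ g := by rw [Finset.card_univ, Fintype.card_fin]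
  have hW : W.Finite ∧ W.ncard ≤ N ^ g :=
    ⟨hΦ.1.image _, (Set.ncard_image_le hΦ.1).trans hΦ.2⟩
  -- the classes
  have hC : C.Finite ∧ C.ncard ≤ W.ncard * Nat.card (Pic0.torsion Ω FΩ n) := by
    refine cu_ncard_le_mul C (fun z => n • z) W hW.1 ?_ _ ?_
    · rintro z ⟨σ, hσ, rfl⟩
      obtain ⟨π, hπ⟩ := hperm g (fun i => σ (t i)) t (by
        funext j
        rw [← hmap]
        exact hσ j)
      refine ⟨fun j => B.act σ • Q (π.symm j), ?_, ?_⟩
      · intro j
        have h2 := B.over_smul x σ (hQ (π.symm j))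
        rw [hπ (π.symm j), Equiv.apply_symm_apply] at h2
        exact h2
      · show pcls B.hΩ P₀ (sumPl fun j => B.act σ • Q (π.symm j)) = n • (B.act σ • c)
        have h3 : (fun j => B.act σ • Q (π.symm j)) = (fun i => B.act σ • Q i) ∘ π.symm := rfl
        rw [h3, hsum, ← smul_sumPl, ← B.smul_pcls P₀ σ (hP₀ σ), hcls]
        exact map_nsmul (DistribSMul.toAddMonoidHom (Pic0 Ω FΩ) (B.act σ)) n c
    · intro w _
      obtain ⟨h4, h5⟩ := cu_fibre_nsmul n w
      exact ⟨h4.subset (fun z hz => hz.2),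
        (Set.ncard_le_ncard (fun z hz => hz.2) h4).trans h5⟩
  -- the tuples
  have hTT : TT.Finite ∧ TT.ncard ≤ C.ncard * g.factorial := by
    refine cu_ncard_le_mul TT (fun P => pcls B.hΩ P₀ (sumPl P)) C hC.1 ?_ _ ?_
    · rintro P ⟨σ, hσ, rfl⟩
      refine ⟨σ, hσ, ?_⟩
      show pcls B.hΩ P₀ (sumPl fun i => B.act σ • Qf i) = B.act σ • c
      rw [← smul_sumPl, ← B.smul_pcls P₀ σ (hP₀ σ)]
    · intro z _
      by_cases hne : ∃ P₁, P₁ ∈ TT ∧ pcls B.hΩ P₀ (sumPl P₁) = z
      · obtain ⟨P₁, hP₁, hP₁z⟩ := hne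
        have hsub : {P | P ∈ TT ∧ pcls B.hΩ P₀ (sumPl P) = z} ⊆
            {P | sumPl P = sumPl P₁} := by
          rintro P ⟨hP, hPz⟩
          obtain ⟨σ, hσ, rfl⟩ := hP
          have hgen := B.isGenTuple_smul x σ hQf
          have hell := hNS g (le_of_eq hg) _ hgen
          refine Fermat.Agent.Div.tr_eq_of_cls_eq B.hΩ P₀ _ _ (sumPl_nonneg _)
            (sumPl_nonneg _) hell ?_ ?_
          · rw [degree_sumPl B.hΩ, degree_sumPl B.hΩ]
          · rw [← trK_pcls_eq_cls, ← trK_pcls_eq_cls, hP₁z]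
            exact hPz
        exact ⟨(hcard g _).1.subset hsub,
          (Set.ncard_le_ncard hsub (hcard g _).1).trans (hcard g _).2⟩
      · have hemp : {P | P ∈ TT ∧ pcls B.hΩ P₀ (sumPl P) = z} = ∅ := by
          ext P
          simp only [Set.mem_ofPred_eq, Set.mem_empty_iff_false, iff_false]
          intro h
          exact hne ⟨P, h⟩
        rw [hemp]
        exact ⟨Set.finite_empty, by simp⟩
  -- the conjugates
  have hsub : conjVals K (symFam t) (valFam Qf (B.φ x) (B.φ y)) ⊆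
      (fun P => valFam P (B.φ x) (B.φ y)) '' TT := by
    rintro v ⟨σ, hσ, hv⟩
    refine ⟨fun i => B.act σ • Qf i, ⟨σ, hσ, rfl⟩, ?_⟩
    funext j
    rw [hv j]
    exact cu_valFam_smul B x y σ Qf j
  calc (conjVals K (symFam t) (valFam Qf (B.φ x) (B.φ y))).ncard
      ≤ ((fun P => valFam P (B.φ x) (B.φ y)) '' TT).ncard :=
        Set.ncard_le_ncard hsub (hTT.1.image _)
    _ ≤ TT.ncard := Set.ncard_image_le hTT.1
    _ ≤ C.ncard * g.factorial := hTT.2
    _ ≤ (W.ncard * Nat.card (Pic0.torsion Ω FΩ n)) * g.factorial :=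
        Nat.mul_le_mul_right _ hC.2
    _ ≤ (N ^ g * Nat.card (Pic0.torsion Ω FΩ n)) * g.factorial :=
        Nat.mul_le_mul_right _ (Nat.mul_le_mul_right _ hW.2)
    _ = N ^ g * g.factorial * Nat.card (Pic0.torsion Ω FΩ n) := by ring

/-- **(CLAIM-U)** the upper bound for the conjugates, in terms of the torsion. -/
theorem claimU (B : BCSetup K F Ω FΩ) (x y : F) (hNS : NonSpecial B x) : ClaimU B x y :=
  claimU_core B x y hNS (fun _ t t' h => exists_perm_of_symFam_eq t t' h)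
    (fun _ P π => sumPl_comp_perm P π) (fun g D => card_tuples_sumPl_le D g)
    (fun _ σ t j => symFam_map (σ : Ω →+* Ω) t j)

end Fermat.Agent.S27
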