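/-
S27, seat E (lifting), leaf CONJ (helper89): generic tuples of maximal length are conjugate
under `Aut(Ω/K)`.

Direct proof (no intermediate function fields).  A generic place `P` (over a value `c` of `x`
transcendental over `K`) gives a `K`-embedding `ψ_P = ev_P ∘ φ : F → Ω`, and is determined by it
(E1).  Key step (`conj_key`): if `c` is transcendental over a subfield `E ⊇ K` of `Ω` and `P`, `Q`
lie over `c`, there is `σ ∈ Aut(Ω/E)` with `σ ∘ ψ_Q = ψ_P`: the field `E(X)` embeds in `Ω`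
(`X ↦ c`) and in `FΩ` (`X ↦ φ x`), compatibly with `ev_P` and `ev_Q`; the minimal polynomial of
`φ y` over `E(X)` (`y` a primitive element of `F / K(x)`) has the two roots `ψ_P y`, `ψ_Q y` in `Ω`.
-/
import Mathlib
import Fermat.Agent.S27.Lift.GenProps
import Fermat.Agent.S27.Lift.FieldK
import Fermat.Agent.Lib.Div.AutExt
import Fermat.Agent.S17.Pts.Galois

set_option autoImplicit false
set_option linter.style.haveILetI false

noncomputable section

namespace Fermat.Agent.S27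

open AlgebraicCurve Fermat.Agent.RR Fermat.Agent.S17.Pts Polynomial IntermediateField

universe uK uF uΩ uFΩ

variable {K : Type uK} {F : Type uF} {Ω : Type uΩ} {FΩ : Type uFΩ}
  [Field K] [Field F] [Field Ω] [Field FΩ] [Algebra K F] [Algebra K Ω] [Algebra Ω FΩ]

/-! ### Equivariance -/

theorem conj_over_smul (B : BCSetup K F Ω FΩ) (x : F) (σ : Ω ≃ₐ[K] Ω) {P : Place Ω FΩ} {c : Ω}
    (h : Over (B.φ x) P c) : Over (B.φ x) (B.act σ • P) (σ c) := by
  unfold Over at h ⊢
  have h1 : B.φ x - algebraMap Ω FΩ (σ c) = B.act σ • (B.φ x - algebraMap Ω FΩ c) := by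
    rw [smul_sub, B.act_φ, SemilinearAut.smul_algebraMap, B.baseAut_act]
  rw [h1, SemilinearAut.ord_smul]
  exact h

theorem conj_ev_smul (B : BCSetup K F Ω FΩ) (σ : Ω ≃ₐ[K] Ω) (P : Place Ω FΩ) (f : F) :
    ev (B.act σ • P) (B.φ f) = σ (ev P (B.φ f)) := by
  rw [ev_smul_of_fixed B.hΩ (B.act σ) P (B.act_φ σ f), B.baseAut_act]

theorem conj_ev_of_over {u : FΩ} {P : Place Ω FΩ} {c : Ω} (h : Over u P c) : ev P u = c :=
  ev_eq_of_congAt (Or.inr h)

/-! ### The value map of a generic place -/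

/-- the value map of a generic place, a `K`-embedding `F → Ω`. -/
def conjVal (B : BCSetup K F Ω FΩ) (P : Place Ω FΩ) (hP : IsGenPl B P) : F →ₐ[K] Ω where
  toFun f := ev P (B.φ f)
  map_one' := by rw [map_one, ev_one]
  map_mul' f g := by rw [map_mul, ev_mul B.hΩ P (hP f).ge (hP g).ge]
  map_zero' := by rw [map_zero, ev_zero]
  map_add' f g := by rw [map_add, ev_add B.hΩ P (hP f).ge (hP g).ge]
  commutes' a := by rw [B.isConstExt.comm, ev_algebraMap]

theorem conjVal_apply (B : BCSetup K F Ω FΩ) (P : Place Ω FΩ) (hP : IsGenPl B P) (f : F) :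
    conjVal B P hP f = ev P (B.φ f) := rfl

/-! ### Bivariate relations -/

/-- every element of `F` satisfies a nontrivial polynomial relation over `K[x]`. -/
theorem conj_exists_rel {x : F} (hx : Transcendental K x) [FiniteDimensional ↥K⟮x⟯ F] (f : F) :
    ∃ G : K[X][X], G ≠ 0 ∧
      G.eval₂ ((Polynomial.aeval x : K[X] →ₐ[K] F) : K[X] →+* F) f = 0 := by
  have h1 : IsAlgebraic (Algebra.adjoin K {x}) f :=
    isAlgebraic_adjoin_iff.mp (Algebra.IsAlgebraic.isAlgebraic (R := ↥K⟮x⟯) f)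
  obtain ⟨G₀, hG₀, hG₀f⟩ := h1
  let e := Polynomial.algEquivOfTranscendental K x hx
  refine ⟨G₀.map (e.symm : ↥(Algebra.adjoin K {x}) →+* K[X]), ?_, ?_⟩
  · exact (Polynomial.map_ne_zero_iff e.symm.injective).mpr hG₀
  · rw [Polynomial.eval₂_map]
    have h2 : (((Polynomial.aeval x : K[X] →ₐ[K] F) : K[X] →+* F)).comp
        (e.symm : ↥(Algebra.adjoin K {x}) →+* K[X]) = algebraMap ↥(Algebra.adjoin K {x}) F := by
      ext a
      obtain ⟨G, rfl⟩ := e.surjective a
      show Polynomial.aeval x (e.symm (e G)) = ((e G : ↥(Algebra.adjoin K {x})) : F)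
      rw [e.symm_apply_apply]
      show _ = ((Polynomial.aeval (⟨x, Algebra.self_mem_adjoin_singleton K x⟩ :
        ↥(Algebra.adjoin K {x})) G : ↥(Algebra.adjoin K {x})) : F)
      rw [← Subalgebra.coe_val, ← Polynomial.aeval_algHom_apply]
      rfl
    rw [h2]
    exact hG₀f

/-! ### The field `E(X)` inside `Ω` and inside `FΩ` -/

section Key

variable (E : IntermediateField K Ω)

/-- `E[X] → FΩ`, `X ↦ u`. -/
def conjJF (u : FΩ) : (↥E)[X] →+* FΩ :=
  ((Polynomial.aeval u : Polynomial Ω →ₐ[Ω] FΩ) : Polynomial Ω →+* FΩ).comp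
    (Polynomial.mapRingHom (algebraMap ↥E Ω))

theorem conjJF_apply (u : FΩ) (G : (↥E)[X]) :
    conjJF E u G = Polynomial.aeval u (G.map (algebraMap ↥E Ω)) := rfl

theorem conj_ord_mul_nonneg (P : Place Ω FΩ) {f g : FΩ} (hf : 0 ≤ P.ord f) (hg : 0 ≤ P.ord g) :
    0 ≤ P.ord (f * g) :=
  Fermat.Agent.S24Res.ord_nonneg_of_mem P
    (mul_mem (Fermat.Agent.S24Res.mem_of_ord_nonneg P hf)
      (Fermat.Agent.S24Res.mem_of_ord_nonneg P hg))

theorem conj_ord_add_nonneg (P : Place Ω FΩ) {f g : FΩ} (hf : 0 ≤ P.ord f) (hg : 0 ≤ P.ord g) :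
    0 ≤ P.ord (f + g) :=
  Fermat.Agent.S24Res.ord_nonneg_of_mem P
    (add_mem (Fermat.Agent.S24Res.mem_of_ord_nonneg P hf)
      (Fermat.Agent.S24Res.mem_of_ord_nonneg P hg))

theorem conj_ord_pow_nonneg (P : Place Ω FΩ) {f : FΩ} (hf : 0 ≤ P.ord f) (n : ℕ) :
    0 ≤ P.ord (f ^ n) :=
  Fermat.Agent.S24Res.ord_nonneg_of_mem P
    (pow_mem (Fermat.Agent.S24Res.mem_of_ord_nonneg P hf) n)

theorem conj_ord_nonneg_of_over {u : FΩ} {P : Place Ω FΩ} {c : Ω} (h : Over u P c) :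
    0 ≤ P.ord u :=
  CongAt.ord_nonneg (Or.inr h)

/-- values of polynomials in `u` with coefficients in `E`. -/
theorem conjJF_ev (hΩ : IsRRField Ω FΩ) {u : FΩ} {P : Place Ω FΩ} {c : Ω} (hP : Over u P c)
    (G : (↥E)[X]) :
    0 ≤ P.ord (conjJF E u G) ∧ ev P (conjJF E u G) = Polynomial.aeval c G := by
  have hu := conj_ord_nonneg_of_over hP
  refine ⟨ord_aeval_nonneg P hu _, ?_⟩
  rw [conjJF_apply, ev_aeval hΩ P hu, conj_ev_of_over hP, Polynomial.eval_map_algebraMap]

theorem conjJF_injective (hΩ : IsRRField Ω FΩ) {u : FΩ} {P : Place Ω FΩ} {c : Ω}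
    (hP : Over u P c) (hc : Transcendental ↥E c) : Function.Injective (conjJF E u) := by
  rw [injective_iff_map_eq_zero]
  intro G hG
  have h1 := (conjJF_ev E hΩ hP G).2
  rw [hG, ev_zero] at h1
  exact (transcendental_iff_injective.mp hc) (by rw [← h1, map_zero])

/-- a nonzero polynomial in `u` is a unit at `P`. -/
theorem conjJF_ord (hΩ : IsRRField Ω FΩ) {u : FΩ} {P : Place Ω FΩ} {c : Ω} (hP : Over u P c)
    (hc : Transcendental ↥E c) {G : (↥E)[X]} (hG : G ≠ 0) : P.ord (conjJF E u G) = 0 := by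
  obtain ⟨h1, h2⟩ := conjJF_ev E hΩ hP G
  have h3 : conjJF E u G ≠ 0 := fun h =>
    hG (conjJF_injective E hΩ hP hc (by rw [h, map_zero]))
  have h4 : Polynomial.aeval c G ≠ 0 := fun h =>
    hG ((transcendental_iff_injective.mp hc) (by rw [h, map_zero]))
  by_contra hne
  have h5 : 0 < P.ord (conjJF E u G) := lt_of_le_of_ne h1 (Ne.symm hne)
  exact h4 (h2 ▸ (ev_eq_zero_iff hΩ P h3 h1).mpr h5)

/-- the embedding `E(X) → Ω`, `X ↦ c`. -/
def conjIΩ {c : Ω} (hc : Transcendental ↥E c) : RatFunc ↥E →+* Ω :=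
  RatFunc.liftRingHom ((Polynomial.aeval c : (↥E)[X] →ₐ[↥E] Ω) : (↥E)[X] →+* Ω)
    (nonZeroDivisors_le_comap_nonZeroDivisors_of_injective _
      (transcendental_iff_injective.mp hc))

/-- the embedding `E(X) → FΩ`, `X ↦ u`. -/
def conjIF {u : FΩ} (hu : Function.Injective (conjJF E u)) : RatFunc ↥E →+* FΩ :=
  RatFunc.liftRingHom (conjJF E u)
    (nonZeroDivisors_le_comap_nonZeroDivisors_of_injective _ hu)

theorem conjIΩ_algebraMap {c : Ω} (hc : Transcendental ↥E c) (G : (↥E)[X]) :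
    conjIΩ E hc (algebraMap (↥E)[X] (RatFunc ↥E) G) = Polynomial.aeval c G :=
  RatFunc.liftRingHom_algebraMap _ _ G

theorem conjIF_algebraMap {u : FΩ} (hu : Function.Injective (conjJF E u)) (G : (↥E)[X]) :
    conjIF E hu (algebraMap (↥E)[X] (RatFunc ↥E) G) = conjJF E u G :=
  RatFunc.liftRingHom_algebraMap _ _ G

/-- the two embeddings of `E(X)` are compatible with the value map of a place over `c`. -/
theorem conjIF_ev (hΩ : IsRRField Ω FΩ) {u : FΩ} {P : Place Ω FΩ} {c : Ω} (hP : Over u P c)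
    (hc : Transcendental ↥E c) (hu : Function.Injective (conjJF E u)) (r : RatFunc ↥E) :
    0 ≤ P.ord (conjIF E hu r) ∧ ev P (conjIF E hu r) = conjIΩ E hc r := by
  induction r using RatFunc.induction_on with
  | f p q hq =>
    have hq0 := conjJF_ord E hΩ hP hc hq
    obtain ⟨hp1, hp2⟩ := conjJF_ev E hΩ hP p
    obtain ⟨-, hq2⟩ := conjJF_ev E hΩ hP q
    have e1 : conjIF E hu (algebraMap (↥E)[X] (RatFunc ↥E) p / algebraMap (↥E)[X] (RatFunc ↥E) q)
        = conjJF E u p / conjJF E u q := by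
      rw [map_div₀, conjIF_algebraMap, conjIF_algebraMap]
    have e2 : conjIΩ E hc (algebraMap (↥E)[X] (RatFunc ↥E) p / algebraMap (↥E)[X] (RatFunc ↥E) q)
        = Polynomial.aeval c p / Polynomial.aeval c q := by
      rw [map_div₀, conjIΩ_algebraMap, conjIΩ_algebraMap]
    rw [e1, e2]
    have hinv : P.ord (conjJF E u q)⁻¹ = 0 := by rw [P.ord_inv, hq0, neg_zero]
    refine ⟨?_, ?_⟩
    · rw [div_eq_mul_inv]
      exact conj_ord_mul_nonneg P hp1 hinv.ge
    · rw [ev_div hΩ P hp1 hq0, hp2, hq2]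

/-- values of polynomials over `E(X)`. -/
theorem conj_ev_eval₂ (hΩ : IsRRField Ω FΩ) {u : FΩ} {P : Place Ω FΩ} {c : Ω} (hP : Over u P c)
    (hc : Transcendental ↥E c) (hu : Function.Injective (conjJF E u)) {v : FΩ}
    (hv : 0 ≤ P.ord v) (p : (RatFunc ↥E)[X]) :
    0 ≤ P.ord (p.eval₂ (conjIF E hu) v) ∧
      ev P (p.eval₂ (conjIF E hu) v) = p.eval₂ (conjIΩ E hc) (ev P v) := by
  induction p using Polynomial.induction_on' with
  | add p q hp hq =>
    rw [Polynomial.eval₂_add, Polynomial.eval₂_add]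
    exact ⟨conj_ord_add_nonneg P hp.1 hq.1, by rw [ev_add hΩ P hp.1 hq.1, hp.2, hq.2]⟩
  | monomial n a =>
    rw [Polynomial.eval₂_monomial, Polynomial.eval₂_monomial]
    obtain ⟨h1, h2⟩ := conjIF_ev E hΩ hP hc hu a
    have h3 := conj_ord_pow_nonneg P hv n
    exact ⟨conj_ord_mul_nonneg P h1 h3, by rw [ev_mul hΩ P h1 h3, h2, ev_pow hΩ P hv]⟩

end Key

/-! ### The key step -/

/-- two `K`-algebra homomorphisms on `F = K(x, y)` that agree on `x` and `y` are equal. -/
theorem conj_algHom_ext {x y : F} (hy : (↥K⟮x⟯)⟮y⟯ = ⊤) {ψ₁ ψ₂ : F →ₐ[K] Ω} (h1 : ψ₁ x = ψ₂ x)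
    (h2 : ψ₁ y = ψ₂ y) (f : F) : ψ₁ f = ψ₂ f := by
  have htop : K⟮x, y⟯ = ⊤ := by
    rw [← adjoin_simple_adjoin_simple, hy, restrictScalars_top]
  have hf : f ∈ K⟮x, y⟯ := by rw [htop]; exact mem_top
  induction hf using IntermediateField.adjoin_induction with
  | mem a ha =>
    rcases ha with rfl | ha
    · exact h1
    · rw [Set.mem_singleton_iff] at ha
      subst ha
      exact h2
  | algebraMap a => rw [ψ₁.commutes, ψ₂.commutes]
  | add a b _ _ ha hb => rw [map_add, map_add, ha, hb]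
  | inv a _ ha => rw [map_inv₀, map_inv₀, ha]
  | mul a b _ _ ha hb => rw [map_mul, map_mul, ha, hb]

/-- **Key step**: two generic places over the same value `c`, transcendental over `E`, are
conjugate by an automorphism of `Ω` over `E`, at the level of value maps. -/
theorem conj_key [IsAlgClosed Ω] (B : BCSetup K F Ω FΩ) {x y : F} (hx : Transcendental K x)
    [FiniteDimensional ↥K⟮x⟯ F] (hy : (↥K⟮x⟯)⟮y⟯ = ⊤) (E : IntermediateField K Ω) {c : Ω}
    (hc : Transcendental ↥E c) {P Q : Place Ω FΩ} (hP : IsGenPl B P) (hQ : IsGenPl B Q)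
    (hPc : Over (B.φ x) P c) (hQc : Over (B.φ x) Q c) :
    ∃ σ : Ω ≃ₐ[K] Ω, (∀ a ∈ E, σ a = a) ∧ σ c = c ∧
      ∀ f : F, σ (ev Q (B.φ f)) = ev P (B.φ f) := by
  have hu : Function.Injective (conjJF E (B.φ x)) := conjJF_injective E B.hΩ hPc hc
  letI algΩ : Algebra (RatFunc ↥E) Ω := (conjIΩ E hc).toAlgebra
  letI algF : Algebra (RatFunc ↥E) FΩ := (conjIF E hu).toAlgebra
  have hmapΩ : algebraMap (RatFunc ↥E) Ω = conjIΩ E hc := RingHom.algebraMap_toAlgebra _
  have hmapF : algebraMap (RatFunc ↥E) FΩ = conjIF E hu := RingHom.algebraMap_toAlgebra _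
  -- `φ y` is algebraic over `E(X)`
  obtain ⟨G, hG0, hG⟩ := conj_exists_rel hx y
  set w : K[X] →+* RatFunc ↥E :=
    (algebraMap (↥E)[X] (RatFunc ↥E)).comp (Polynomial.mapRingHom (algebraMap K ↥E)) with hw
  have hwinj : Function.Injective w :=
    (IsFractionRing.injective (↥E)[X] (RatFunc ↥E)).comp
      (Polynomial.map_injective _ (algebraMap K ↥E).injective)
  have hcomp : (conjIF E hu).comp w
      = B.φ.comp ((Polynomial.aeval x : K[X] →ₐ[K] F) : K[X] →+* F) := by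
    apply Polynomial.ringHom_ext
    · intro a
      show conjIF E hu (algebraMap (↥E)[X] (RatFunc ↥E) ((Polynomial.C a).map (algebraMap K ↥E)))
        = B.φ (Polynomial.aeval x (Polynomial.C a))
      rw [conjIF_algebraMap, conjJF_apply, Polynomial.map_C, Polynomial.map_C,
        Polynomial.aeval_C, Polynomial.aeval_C, B.isConstExt.comm]
      rfl
    · show conjIF E hu (algebraMap (↥E)[X] (RatFunc ↥E) ((Polynomial.X).map (algebraMap K ↥E)))
        = B.φ (Polynomial.aeval x Polynomial.X)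
      rw [conjIF_algebraMap, conjJF_apply, Polynomial.map_X, Polynomial.map_X,
        Polynomial.aeval_X, Polynomial.aeval_X]
  have halg : IsIntegral (RatFunc ↥E) (B.φ y) := by
    apply IsAlgebraic.isIntegral
    refine ⟨G.map w, (Polynomial.map_ne_zero_iff hwinj).mpr hG0, ?_⟩
    rw [Polynomial.aeval_def, hmapF, Polynomial.eval₂_map, hcomp, ← Polynomial.hom_eval₂, hG,
      map_zero]
  have hirr : Irreducible (minpoly (RatFunc ↥E) (B.φ y)) := minpoly.irreducible halg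
  have hroot : (minpoly (RatFunc ↥E) (B.φ y)).eval₂ (conjIF E hu) (B.φ y) = 0 := by
    have := minpoly.aeval (RatFunc ↥E) (B.φ y)
    rwa [Polynomial.aeval_def, hmapF] at this
  have hrootP : Polynomial.aeval (ev P (B.φ y)) (minpoly (RatFunc ↥E) (B.φ y)) = 0 := by
    rw [Polynomial.aeval_def, hmapΩ, ← (conj_ev_eval₂ E B.hΩ hPc hc hu (hP y).ge _).2, hroot,
      ev_zero]
  have hrootQ : Polynomial.aeval (ev Q (B.φ y)) (minpoly (RatFunc ↥E) (B.φ y)) = 0 := by
    rw [Polynomial.aeval_def, hmapΩ, ← (conj_ev_eval₂ E B.hΩ hQc hc hu (hQ y).ge _).2, hroot,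
      ev_zero]
  obtain ⟨σ, hσ⟩ := Fermat.Agent.Div.exists_algEquiv_of_root_irreducible hirr hrootQ hrootP
  -- `σ` fixes the image of `E(X)`
  have hfixE : ∀ a ∈ E, σ a = a := by
    intro a ha
    have h1 : algebraMap (RatFunc ↥E) Ω (algebraMap (↥E)[X] (RatFunc ↥E)
        (Polynomial.C (⟨a, ha⟩ : ↥E))) = a := by
      rw [hmapΩ, conjIΩ_algebraMap, Polynomial.aeval_C]
      rfl
    rw [← h1, σ.commutes]
  have hfixc : σ c = c := by
    have h1 : algebraMap (RatFunc ↥E) Ω (algebraMap (↥E)[X] (RatFunc ↥E) Polynomial.X) = c := by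
      rw [hmapΩ, conjIΩ_algebraMap, Polynomial.aeval_X]
    rw [← h1, σ.commutes]
  let σ' : Ω ≃ₐ[K] Ω := AlgEquiv.ofRingEquiv (f := σ.toRingEquiv)
    (fun a => hfixE _ (E.algebraMap_mem a))
  refine ⟨σ', hfixE, hfixc, fun f => ?_⟩
  have key := conj_algHom_ext (ψ₁ := (σ' : Ω →ₐ[K] Ω).comp (conjVal B Q hQ))
    (ψ₂ := conjVal B P hP) hy ?_ ?_ f
  · exact key
  · show σ (ev Q (B.φ x)) = ev P (B.φ x)
    rw [conj_ev_of_over hQc, conj_ev_of_over hPc, hfixc]
  · exact hσ

/-! ### The assembly -/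

/-- the values of a `K`-embedding `ψ : F → Ω` are algebraic over `K(ψ x)`. -/
theorem conj_val_mem_closFieldK {x : F} (hx : Transcendental K x) [FiniteDimensional ↥K⟮x⟯ F]
    (ψ : F →ₐ[K] Ω) {S : Set Ω} (hS : ψ x ∈ S) (hψx : Transcendental K (ψ x)) (f : F) :
    ψ f ∈ closFieldK K S := by
  rw [mem_closFieldK_iff_adjoin]
  obtain ⟨G, hG0, hG⟩ := conj_exists_rel hx f
  set z : ↥(Algebra.adjoin K S) := ⟨ψ x, Algebra.subset_adjoin hS⟩ with hz
  set a : K[X] →+* ↥(Algebra.adjoin K S) :=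
    ((Polynomial.aeval z : K[X] →ₐ[K] ↥(Algebra.adjoin K S)) : K[X] →+* ↥(Algebra.adjoin K S))
    with ha
  have hval : ∀ p : K[X], ((a p : ↥(Algebra.adjoin K S)) : Ω) = Polynomial.aeval (ψ x) p := by
    intro p
    show (((Polynomial.aeval z p : ↥(Algebra.adjoin K S))) : Ω) = _
    rw [← Subalgebra.coe_val, ← Polynomial.aeval_algHom_apply]
    rfl
  have hainj : Function.Injective a := by
    rw [injective_iff_map_eq_zero]
    intro p hp
    have h1 := hval p
    rw [hp] at h1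
    exact (transcendental_iff_injective.mp hψx) (by rw [← h1, map_zero]; rfl)
  have hcomp : (algebraMap ↥(Algebra.adjoin K S) Ω).comp a
      = (ψ : F →+* Ω).comp ((Polynomial.aeval x : K[X] →ₐ[K] F) : K[X] →+* F) := by
    apply Polynomial.ringHom_ext
    · intro b
      show ((a (Polynomial.C b) : ↥(Algebra.adjoin K S)) : Ω)
        = ψ (Polynomial.aeval x (Polynomial.C b))
      rw [hval, Polynomial.aeval_C, Polynomial.aeval_C, ψ.commutes]
    · show ((a Polynomial.X : ↥(Algebra.adjoin K S)) : Ω) = ψ (Polynomial.aeval x Polynomial.X)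
      rw [hval, Polynomial.aeval_X, Polynomial.aeval_X]
  refine ⟨G.map a, (Polynomial.map_ne_zero_iff hainj).mpr hG0, ?_⟩
  have h3 := Polynomial.hom_eval₂ G ((Polynomial.aeval x : K[X] →ₐ[K] F) : K[X] →+* F)
    (ψ : F →+* Ω) f
  rw [hG, map_zero] at h3
  rw [Polynomial.aeval_def, Polynomial.eval₂_map, hcomp]
  exact h3.symm

/-- **CONJ**: generic tuples of maximal length are conjugate under `Aut(Ω/K)`. -/
theorem conj [IsAlgClosed Ω] (B : BCSetup K F Ω FΩ) {x : F} (hx : Transcendental K x)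
    [FiniteDimensional ↥K⟮x⟯ F] [Algebra.IsSeparable ↥K⟮x⟯ F]
    (hE1 : ValuesDetermine B x) (hE0 : GenericOfOver B x) : Conj B x := by
  classical
  intro g t ht P Q hP hQ
  obtain ⟨c, hc, hPc⟩ := hP
  obtain ⟨d, hd, hQd⟩ := hQ
  have hle := ht.lift_cardinalMk_eq_trdeg.ge
  have hcb : IsTranscendenceBasis K c := hc.isTranscendenceBasis_of_lift_trdeg_le_of_finite hle
  have hdb : IsTranscendenceBasis K d := hd.isTranscendenceBasis_of_lift_trdeg_le_of_finite hle
  obtain ⟨y, hy⟩ := Field.exists_primitive_element ↥K⟮x⟯ F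
  obtain ⟨σ₀, hσ₀⟩ := exists_aut_of_transcendenceBasis c d hcb hdb
  have hct : ∀ i, Transcendental K (c i) := fun i => hc.transcendental i
  have hQ' : ∀ i, Over (B.φ x) (B.act σ₀ • Q i) (c i) := fun i => by
    have := conj_over_smul B x σ₀ (hQd i)
    rwa [hσ₀ i] at this
  -- one place at a time
  have hstep : ∀ n : Fin g, ∃ τ : Ω ≃ₐ[K] Ω, B.act τ • (B.act σ₀ • Q n) = P n ∧
      ∀ j, j ≠ n → ∀ R : Place Ω FΩ, Over (B.φ x) R (c j) → B.act τ • R = R := by
    intro n
    have hEcl : IsAlgClosed ↥(closFieldK K (c '' {j | j ≠ n})) := closFieldK_isAlgClosed _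
    have hcn : Transcendental ↥(closFieldK K (c '' {j | j ≠ n})) (c n) := by
      intro halg
      obtain ⟨e, he⟩ := Fermat.Agent.F3I2.autC_mem_range_of_isAlgebraic halg
      exact not_mem_closFieldK_of_algebraicIndependent c hc n (he ▸ e.2)
    obtain ⟨τ, hτE, hτc, hτ⟩ := conj_key B hx hy (closFieldK K (c '' {j | j ≠ n})) hcn
      (hE0 _ _ (hct n) (hPc n)) (hE0 _ _ (hct n) (hQ' n)) (hPc n) (hQ' n)
    refine ⟨τ, ?_, fun j hj R hR => ?_⟩
    · refine hE1 _ _ (c n) (c n) (hct n) (hct n) ?_ (hPc n) fun f => ?_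
      · have := conj_over_smul B x τ (hQ' n)
        rwa [hτc] at this
      · rw [conj_ev_smul, hτ f]
    · have hcj : c j ∈ c '' {j | j ≠ n} := ⟨j, hj, rfl⟩
      refine hE1 _ _ (c j) (c j) (hct j) (hct j) ?_ hR fun f => ?_
      · have := conj_over_smul B x τ hR
        rwa [hτE (c j) (subset_closFieldK _ hcj)] at this
      · rw [conj_ev_smul]
        have hgen := hE0 R (c j) (hct j) hR
        have hψx : conjVal B R hgen x = c j := conj_ev_of_over hR
        exact hτE _ (conj_val_mem_closFieldK hx (conjVal B R hgen) (hψx ▸ hcj)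
          (hψx ▸ hct j) f)
  choose τ hτ1 hτ2 using hstep
  -- the induction
  have hind : ∀ n : ℕ, n ≤ g → ∃ σ : Ω ≃ₐ[K] Ω,
      (∀ i : Fin g, (i : ℕ) < n → B.act σ • (B.act σ₀ • Q i) = P i) ∧
      (∀ i : Fin g, n ≤ (i : ℕ) → B.act σ • (B.act σ₀ • Q i) = B.act σ₀ • Q i) := by
    intro n
    induction n with
    | zero =>
      intro _
      exact ⟨1, fun i hi => absurd hi (Nat.not_lt_zero _), fun i _ => by rw [map_one, one_smul]⟩
    | succ n ih =>
      intro hn
      obtain ⟨σ, h1, h2⟩ := ih (Nat.le_of_succ_le hn)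
      refine ⟨τ ⟨n, hn⟩ * σ, fun i hi => ?_, fun i hi => ?_⟩
      · rw [map_mul, mul_smul]
        rcases Nat.lt_succ_iff_lt_or_eq.mp hi with hlt | heq
        · rw [h1 i hlt]
          exact hτ2 ⟨n, hn⟩ i (fun h => by rw [h] at hlt; exact lt_irrefl _ hlt) _ (hPc i)
        · have hi' : i = ⟨n, hn⟩ := Fin.ext heq
          rw [h2 i (le_of_eq heq.symm), hi']
          exact hτ1 ⟨n, hn⟩
      · rw [map_mul, mul_smul, h2 i (Nat.le_of_succ_le hi)]
        exact hτ2 ⟨n, hn⟩ i (fun h => by rw [h] at hi; exact Nat.not_succ_le_self _ hi) _ (hQ' i)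
  obtain ⟨σ, h1, -⟩ := hind g le_rfl
  refine ⟨σ * σ₀, fun i => ?_⟩
  rw [map_mul, mul_smul]
  exact h1 i i.2

end Fermat.Agent.S27
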