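/-
S27, seat E (lifting of torsion), leaf DIVGEN (helper5):

`divGen B x (hNS : NonSpecial B x) (hTR : Transfer B x) : DivGen B x` — a `g`-tuple of places whose
class is a division point of the class of a generic `g`-tuple is generic.

Proof: `c = [Qf]`, `n • c = [Q]`; the orbit of `n • c` under any subgroup is the image of the orbit
of `c`, so (TR) applies to `E = sumPl Qf` and gives a generic tuple `Q'` with `sumPl Qf = sumPl Q'`;
then `Qf = Q' ∘ π` for a permutation `π` (`dg_exists_perm_of_sumPl_eq`).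
-/
import Mathlib
import Fermat.Agent.S27.Lift.Interface
import Fermat.Agent.S27.Lift.Basic

set_option autoImplicit false
set_option linter.style.haveILetI false

noncomputable section

namespace Fermat.Agent.S27

open AlgebraicCurve Fermat.Agent.RR

universe uK uF uΩ uFΩ

variable {K : Type uK} {F : Type uF} {Ω : Type uΩ} {FΩ : Type uFΩ}
  [Field K] [Field F] [Field Ω] [Field FΩ] [Algebra K F] [Algebra K Ω] [Algebra Ω FΩ]

/-- two functions on `Fin n` with fibres of the same cardinality differ by a permutation. -/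
theorem dg_exists_perm_of_card_fibre {α : Type*} {n : ℕ} (P Q : Fin n → α)
    (h : ∀ a : α, Nat.card {i // P i = a} = Nat.card {i // Q i = a}) :
    ∃ π : Equiv.Perm (Fin n), ∀ i, P i = Q (π i) := by
  classical
  have e : ∀ a : α, {i // P i = a} ≃ {i // Q i = a} := fun a =>
    (Finite.card_eq.mp (h a)).some
  let π : Equiv.Perm (Fin n) :=
    (Equiv.sigmaFiberEquiv P).symm.trans ((Equiv.sigmaCongrRight e).trans (Equiv.sigmaFiberEquiv Q))
  refine ⟨π, fun i => ?_⟩
  have h1 : π i = ((e (P i)) ⟨i, rfl⟩ : Fin n) := rfl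
  rw [h1]
  exact ((e (P i)) ⟨i, rfl⟩).2.symm

/-- the multiplicity of a place in `sumPl P`. -/
theorem dg_sumPl_apply {n : ℕ} (P : Fin n → Place Ω FΩ) (v : Place Ω FΩ) :
    (sumPl P) v = (Nat.card {i // P i = v} : ℤ) := by
  classical
  unfold sumPl
  rw [Finsupp.finsetSum_apply]
  simp only [Finsupp.single_apply]
  rw [Finset.sum_ite, Finset.sum_const_zero, add_zero, Finset.sum_const, nsmul_eq_mul, mul_one,
    Nat.card_eq_fintype_card, Fintype.card_subtype]

/-- **(PERM)** two tuples of places with the same sum differ by a permutation. -/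
theorem dg_exists_perm_of_sumPl_eq {n : ℕ} (P Q : Fin n → Place Ω FΩ)
    (h : sumPl P = sumPl Q) : ∃ π : Equiv.Perm (Fin n), ∀ i, P i = Q (π i) := by
  refine dg_exists_perm_of_card_fibre P Q fun v => ?_
  have h1 := congrArg (fun D : Divisor Ω FΩ => D v) h
  simp only [dg_sumPl_apply] at h1
  exact_mod_cast h1

/-- a permuted generic tuple is generic. -/
theorem dg_isGenTuple_comp_perm (B : BCSetup K F Ω FΩ) (x : F) {n : ℕ}
    {Q : Fin n → Place Ω FΩ} (hQ : IsGenTuple B x Q) (π : Equiv.Perm (Fin n)) :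
    IsGenTuple B x (fun i => Q (π i)) := by
  obtain ⟨c, hc, hQc⟩ := hQ
  exact ⟨fun i => c (π i), hc.comp π π.injective, fun i => hQc (π i)⟩

/-- the orbit of a multiple is the image of the orbit. -/
theorem dg_orbit_nsmul_finite (B : BCSetup K F Ω FΩ) (H : Subgroup (Ω ≃ₐ[K] Ω))
    (c : Pic0 Ω FΩ) (n : ℕ) (h : (orbitOfK B H c).Finite) :
    (orbitOfK B H (n • c)).Finite := by
  refine (h.image fun z => n • z).subset ?_
  rintro y ⟨σ, hσ, rfl⟩
  refine ⟨B.act σ • c, ⟨σ, hσ, rfl⟩, ?_⟩
  exact (smul_nsmul_comm' (B.act σ) n c)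
where
  smul_nsmul_comm' (g : SemilinearAut Ω FΩ) (n : ℕ) (c : Pic0 Ω FΩ) :
      n • (g • c) = g • (n • c) :=
    (map_nsmul (DistribSMul.toAddMonoidHom (Pic0 Ω FΩ) g) n c).symm

/-- **(DIVGEN)** a tuple whose class is a division point of the class of a generic tuple of
length `g` is generic. -/
theorem divGen (B : BCSetup K F Ω FΩ) (x : F) (hNS : NonSpecial B x) (hTR : Transfer B x) :
    DivGen B x := by
  intro P₀ hP₀ n g hg Qf Q hQ hcls
  have hell : ell (sumPl Q) = 1 := hNS g hg.le Q hQ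
  obtain ⟨Q', hQ', hgen⟩ := hTR P₀ hP₀ g Q hQ hell (sumPl Qf) (sumPl_nonneg Qf)
    (degree_sumPl B.hΩ Qf) (fun S hfin => by
      rw [hcls]
      exact dg_orbit_nsmul_finite B _ _ n hfin)
  obtain ⟨π, hπ⟩ := dg_exists_perm_of_sumPl_eq Qf Q' hQ'
  have h1 : Qf = fun i => Q' (π i) := funext hπ
  rw [h1]
  exact dg_isGenTuple_comp_perm B x hgen π

end Fermat.Agent.S27
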