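import Mathlib
import Fermat.Agent.S27.Lift.GenProps
import Fermat.Agent.S27.Lift.FieldK

set_option autoImplicit false

/-!
# S27, seat E, leaf FIX (helper29; sub-architect helper38): Galois descent of functions

`B : BCSetup K F Ω FΩ`, `K ⊂ Ω` algebraically closed (any characteristic).

* `fixedField B : FixedField B` : a function of `FΩ` with finite orbit under `Aut(Ω/K)` lies in
  `φ F`;
* `bcInjective B : BcInjective B` : the base change `Pic⁰(F) → Pic⁰(FΩ)` is injective.

Proof.  `Ψ α = Σ α_i φ(f_i)` (`f` a `K`-basis of `F`, `α : ι →₀ Ω`) is injective (linear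
disjointness), semilinear for the action of `Aut(Ω/K)`, and every `u ∈ FΩ` is a quotient
`Ψ α / Ψ β`.  If `σ u = c_σ u` for all `σ` in a set `H` whose fixed field is `K`, the space
`V = {β | u Ψ β ∈ im Ψ}` is stable under `H`; a non-zero vector of minimal support in `V`,
normalised by one coordinate `= 1`, is fixed by `H`, hence `K`-rational: `u φ(f_b) = Ψ α`; then
`σ α = c_σ α`, so `α` is a multiple of a `K`-rational vector and `u = c φ(f_a / f_b)`.
-/

noncomputable section

namespace Fermat.Agent.S27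

open AlgebraicCurve Fermat.Agent.RR Fermat.Agent.ConstExt

universe uK uF uΩ uFΩ

variable {K : Type uK} {F : Type uF} {Ω : Type uΩ} {FΩ : Type uFΩ}
  [Field K] [Field F] [Field Ω] [Field FΩ] [Algebra K F] [Algebra K Ω] [Algebra Ω FΩ]

/-- an element of `Ω` with finite orbit under `Aut(Ω/K)` lies in `K`. -/
theorem fx_mem_range_of_finite_orbit [IsAlgClosed K] [IsAlgClosed Ω] (c : Ω)
    (h : {d : Ω | ∃ σ : Ω ≃ₐ[K] Ω, σ c = d}.Finite) : c ∈ Set.range (algebraMap K Ω) := by
  by_contra hc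
  have hct : Transcendental K c := fun halg =>
    hc (Fermat.Agent.F3I2.autC_mem_range_of_isAlgebraic halg)
  have hinj : Function.Injective (fun a : K => c + algebraMap K Ω a) := by
    intro a b hab
    exact (algebraMap K Ω).injective (add_left_cancel hab)
  have hsub : Set.range (fun a : K => c + algebraMap K Ω a) ⊆
      {d : Ω | ∃ σ : Ω ≃ₐ[K] Ω, σ c = d} := by
    rintro _ ⟨a, rfl⟩
    exact exists_algEquiv_translate hct a
  have : Infinite K := IsAlgClosed.instInfinite
  exact (Set.infinite_range_of_injective hinj) (h.subset hsub)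

/-- **Minimal support.**  A non-zero subspace of `ι →₀ Ω` which is stable under the coordinatewise
action of a set `H` of automorphisms contains a non-zero vector fixed by `H`. -/
theorem fx_exists_fixed {ι : Type*} (V : Submodule Ω (ι →₀ Ω)) (hV : V ≠ ⊥)
    (H : Set (Ω ≃ₐ[K] Ω))
    (hstab : ∀ σ ∈ H, ∀ v ∈ V, Finsupp.mapRange (σ : Ω → Ω) (map_zero σ) v ∈ V) :
    ∃ v ∈ V, v ≠ 0 ∧ ∀ σ ∈ H, ∀ i, σ (v i) = v i := by
  classical
  -- a non-zero vector of minimal support
  have hne : ∃ n : ℕ, ∃ v ∈ V, v ≠ 0 ∧ v.support.card = n := by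
    obtain ⟨v, hv, hv0⟩ := (Submodule.ne_bot_iff V).1 hV
    exact ⟨_, v, hv, hv0, rfl⟩
  obtain ⟨v, hvV, hv0, hcard⟩ := Nat.find_spec hne
  have hmin : ∀ w ∈ V, w ≠ 0 → v.support.card ≤ w.support.card := by
    intro w hw hw0
    rw [hcard]
    exact Nat.find_min' hne ⟨w, hw, hw0, rfl⟩
  obtain ⟨i₀, hi₀⟩ : ∃ i₀, v i₀ ≠ 0 := by
    by_contra hcon
    exact hv0 (Finsupp.ext fun i => by_contra fun h => hcon ⟨i, h⟩)
  -- normalise
  set v' : ι →₀ Ω := (v i₀)⁻¹ • v with hv'
  have hv'V : v' ∈ V := V.smul_mem _ hvV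
  have hv'i₀ : v' i₀ = 1 := by
    rw [hv', Finsupp.smul_apply, smul_eq_mul, inv_mul_cancel₀ hi₀]
  have hv'0 : v' ≠ 0 := by
    intro h
    rw [h, Finsupp.zero_apply] at hv'i₀
    exact zero_ne_one hv'i₀
  have hsupp : v'.support ⊆ v.support := by
    intro i hi
    rw [Finsupp.mem_support_iff] at hi ⊢
    intro h
    apply hi
    rw [hv', Finsupp.smul_apply, h, smul_zero]
  refine ⟨v', hv'V, hv'0, fun σ hσ => ?_⟩
  set w : ι →₀ Ω := Finsupp.mapRange (σ : Ω → Ω) (map_zero σ) v' - v' with hw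
  have hwV : w ∈ V := V.sub_mem (hstab σ hσ v' hv'V) hv'V
  have hw0 : w = 0 := by
    by_contra hw0
    have h1 := hmin w hwV hw0
    have h2 : w.support ⊂ v.support := by
      refine (Finset.ssubset_iff_of_subset ?_).2 ⟨i₀, Finsupp.mem_support_iff.2 hi₀, ?_⟩
      · intro i hi
        apply hsupp
        rw [Finsupp.mem_support_iff] at hi ⊢
        intro h
        apply hi
        rw [hw, Finsupp.sub_apply, Finsupp.mapRange_apply, h, map_zero, sub_zero]
      · rw [Finsupp.mem_support_iff, not_not, hw, Finsupp.sub_apply, Finsupp.mapRange_apply,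
          hv'i₀, map_one, sub_self]
    exact absurd (Finset.card_lt_card h2) (not_lt.2 h1)
  intro i
  have h3 := congrArg (fun z : ι →₀ Ω => z i) hw0
  simp only [hw, Finsupp.sub_apply, Finsupp.mapRange_apply, Finsupp.zero_apply] at h3
  exact sub_eq_zero.1 h3

section Psi

variable (B : BCSetup K F Ω FΩ)

variable (K F) in
/-- index type of the fixed `K`-basis of `F`. -/
abbrev fxIdx : Type uF := ↥(Module.Basis.ofVectorSpaceIndex K F)

variable (K F) in
/-- the fixed `K`-basis of `F`. -/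
def fxBas : Module.Basis (fxIdx K F) K F := Module.Basis.ofVectorSpace K F

/-- `Ψ α = Σ α_i φ(f_i)`. -/
def fxPsi : (fxIdx K F →₀ Ω) →ₗ[Ω] FΩ :=
  Finsupp.linearCombination Ω (fun i => B.φ (fxBas K F i))

theorem fxPsi_apply (α : fxIdx K F →₀ Ω) :
    fxPsi B α = α.sum fun i c => algebraMap Ω FΩ c * B.φ (fxBas K F i) := by
  unfold fxPsi
  rw [Finsupp.linearCombination_apply]
  refine Finsupp.sum_congr fun i _ => ?_
  rw [Algebra.smul_def]

theorem fxPsi_single (i : fxIdx K F) (c : Ω) :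
    fxPsi B (Finsupp.single i c) = algebraMap Ω FΩ c * B.φ (fxBas K F i) := by
  unfold fxPsi
  rw [Finsupp.linearCombination_single, Algebra.smul_def]

/-- the coordinates of `f ∈ F`, as a vector with entries in `Ω`. -/
def fxRho (f : F) : fxIdx K F →₀ Ω :=
  Finsupp.mapRange (algebraMap K Ω) (map_zero _) ((fxBas K F).repr f)

theorem fxPsi_rho (f : F) : fxPsi B (fxRho (Ω := Ω) f) = B.φ f := by
  rw [fxPsi_apply, fxRho, Finsupp.sum_mapRange_index (fun i => by rw [map_zero, zero_mul])]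
  have h1 : ∀ (i : fxIdx K F) (a : K),
      algebraMap Ω FΩ (algebraMap K Ω a) * B.φ (fxBas K F i) = B.φ (a • fxBas K F i) := by
    intro i a
    rw [B.isConstExt.map_smul]
  simp only [h1]
  rw [← map_finsuppSum]
  congr 1
  exact (fxBas K F).linearCombination_repr f

/-- semilinearity of `Ψ`. -/
theorem act_smul_fxPsi (σ : Ω ≃ₐ[K] Ω) (α : fxIdx K F →₀ Ω) :
    B.act σ • fxPsi B α = fxPsi B (Finsupp.mapRange (σ : Ω → Ω) (map_zero σ) α) := by
  induction α using Finsupp.induction_linear with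
  | zero => simp
  | add α β hα hβ =>
    rw [map_add, smul_add, hα, hβ, Finsupp.mapRange_add (map_add σ), map_add]
  | single i c =>
    rw [Finsupp.mapRange_single, fxPsi_single, fxPsi_single, smul_mul',
      SemilinearAut.smul_algebraMap, B.baseAut_act, B.act_φ]

/-- `Ψ` is injective: a `K`-basis of `F` is linearly independent over `Ω` in `FΩ`. -/
theorem fxPsi_injective : Function.Injective (fxPsi B) := by
  rw [injective_iff_map_eq_zero]
  intro α hα
  -- the coordinates of `Ψ α` in the basis of `Ω`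
  set g : Idx K Ω →₀ F := α.sum fun i c => E c (fxBas K F i) with hg
  have hΦ : Phi K Ω B.φ g = 0 := by
    rw [hg, map_finsuppSum, ← hα, fxPsi_apply]
    refine Finsupp.sum_congr fun i _ => ?_
    rw [Phi_E B.isConstExt]
  have hg0 : g = 0 := Phi_injective B.isConstExt (by rw [hΦ, map_zero])
  ext i
  rw [Finsupp.zero_apply]
  apply (bas K Ω).repr.injective
  rw [map_zero]
  ext j
  rw [Finsupp.zero_apply]
  -- the `j`-th coordinate
  have hj : g j = 0 := by rw [hg0, Finsupp.zero_apply]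
  have hj2 : g j = Finsupp.linearCombination K (fxBas K F)
      (Finsupp.mapRange (fun c : Ω => (bas K Ω).repr c j) (by rw [map_zero, Finsupp.zero_apply])
        α) := by
    rw [hg, Finsupp.sum_apply, Finsupp.linearCombination_apply]
    rw [Finsupp.sum_mapRange_index (f := fun c : Ω => (bas K Ω).repr c j)
      (h := fun (i : fxIdx K F) (a : K) => a • (fxBas K F) i) (fun i => zero_smul K _)]
    refine Finsupp.sum_congr fun i _ => ?_
    rw [E_apply]
  rw [hj2] at hj
  have h3 := (linearIndependent_iff.1 (fxBas K F).linearIndependent) _ hj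
  have h4 := congrArg (fun z : fxIdx K F →₀ K => z i) h3
  simpa using h4

/-- every element of `Ω[φ F]` is in the image of `Ψ`. -/
theorem Phi_mem_range_fxPsi (g : Idx K Ω →₀ F) :
    Phi K Ω B.φ g ∈ LinearMap.range (fxPsi B) := by
  induction g using Finsupp.induction_linear with
  | zero =>
    rw [map_zero]
    exact Submodule.zero_mem _
  | add g h hg hh =>
    rw [map_add]
    exact Submodule.add_mem _ hg hh
  | single j f =>
    rw [Phi_single, ← fxPsi_rho B f, ← Algebra.smul_def]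
    exact Submodule.smul_mem _ _ (LinearMap.mem_range_self _ _)

/-- a vector with `K`-rational coordinates is mapped into `φ F`. -/
theorem fxPsi_mem_range_of_rational (β : fxIdx K F →₀ Ω)
    (hβ : ∀ i, β i ∈ Set.range (algebraMap K Ω)) : ∃ f : F, fxPsi B β = B.φ f := by
  choose a ha using hβ
  refine ⟨∑ i ∈ β.support, a i • fxBas K F i, ?_⟩
  rw [fxPsi_apply, Finsupp.sum, map_sum]
  refine Finset.sum_congr rfl fun i _ => ?_
  rw [B.isConstExt.map_smul, ha]

/-- **Main lemma.**  If `σ u` is a constant multiple of `u` for all `σ` in a set `H` of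
automorphisms whose fixed field is `K`, then `u` is a constant multiple of an element of `φ F`. -/
theorem fx_main (H : Set (Ω ≃ₐ[K] Ω))
    (hH : ∀ c : Ω, (∀ σ ∈ H, σ c = c) → c ∈ Set.range (algebraMap K Ω))
    (u : FΩ) (hu : ∀ σ ∈ H, ∃ c : Ω, B.act σ • u = algebraMap Ω FΩ c * u) :
    ∃ (c : Ω) (f : F), u = algebraMap Ω FΩ c * B.φ f := by
  classical
  by_cases hu0 : u = 0
  · exact ⟨0, 0, by rw [hu0, map_zero, map_zero, mul_zero]⟩
  -- the constants `c_σ` are non-zero
  have hc0 : ∀ σ ∈ H, ∀ c : Ω, B.act σ • u = algebraMap Ω FΩ c * u → c ≠ 0 := by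
    intro σ _ c hc h0
    rw [h0, map_zero, zero_mul] at hc
    exact hu0 ((smul_eq_zero_iff_eq (B.act σ)).1 hc)
  obtain ⟨g, h, hh, hgh⟩ := exists_frac B.isConstExt u
  -- the subspace `V`
  set V : Submodule Ω (fxIdx K F →₀ Ω) :=
    Submodule.comap ((LinearMap.mulLeft Ω u).comp (fxPsi B)) (LinearMap.range (fxPsi B)) with hVdef
  have hmemV : ∀ β, β ∈ V ↔ ∃ α, fxPsi B α = u * fxPsi B β := fun β => Iff.rfl
  have hV : V ≠ ⊥ := by
    obtain ⟨β₀, hβ₀⟩ := Phi_mem_range_fxPsi B h
    obtain ⟨α₀, hα₀⟩ := Phi_mem_range_fxPsi B g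
    have hβ₀V : β₀ ∈ V := (hmemV β₀).2 ⟨α₀, by rw [hα₀, hβ₀, hgh]⟩
    have hβ₀0 : β₀ ≠ 0 := by
      rintro rfl
      rw [map_zero] at hβ₀
      exact hh hβ₀.symm
    exact (Submodule.ne_bot_iff V).2 ⟨β₀, hβ₀V, hβ₀0⟩
  have hstab : ∀ σ ∈ H, ∀ v ∈ V, Finsupp.mapRange (σ : Ω → Ω) (map_zero σ) v ∈ V := by
    intro σ hσ β hβ
    obtain ⟨α, hα⟩ := (hmemV β).1 hβ
    obtain ⟨c, hc⟩ := hu σ hσ
    have hcne := hc0 σ hσ c hc
    refine (hmemV _).2 ⟨c⁻¹ • Finsupp.mapRange (σ : Ω → Ω) (map_zero σ) α, ?_⟩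
    have h1 := congrArg (fun z => B.act σ • z) hα
    simp only [smul_mul', act_smul_fxPsi, hc] at h1
    rw [map_smul, h1, Algebra.smul_def, ← mul_assoc, ← mul_assoc, ← map_mul,
      inv_mul_cancel₀ hcne, map_one, one_mul]
  obtain ⟨β, hβV, hβ0, hβfix⟩ := fx_exists_fixed V hV H hstab
  obtain ⟨fb, hfb⟩ := fxPsi_mem_range_of_rational B β
    (fun i => hH (β i) (fun σ hσ => hβfix σ hσ i))
  have hfb0 : B.φ fb ≠ 0 := by
    rw [← hfb]
    intro h0
    exact hβ0 (fxPsi_injective B (by rw [h0, map_zero]))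
  obtain ⟨α, hα⟩ := (hmemV β).1 hβV
  rw [hfb] at hα
  have hα0 : α ≠ 0 := by
    rintro rfl
    rw [map_zero] at hα
    exact mul_ne_zero hu0 hfb0 hα.symm
  obtain ⟨i₁, hi₁⟩ : ∃ i₁, α i₁ ≠ 0 := by
    by_contra hcon
    exact hα0 (Finsupp.ext fun i => by_contra fun h => hcon ⟨i, h⟩)
  -- `σ α = c_σ α`
  have hσα : ∀ σ ∈ H, ∀ c : Ω, B.act σ • u = algebraMap Ω FΩ c * u →
      Finsupp.mapRange (σ : Ω → Ω) (map_zero σ) α = c • α := by
    intro σ _ c hc
    apply fxPsi_injective B
    have h1 := congrArg (fun z => B.act σ • z) hα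
    simp only [smul_mul', act_smul_fxPsi, hc, B.act_φ] at h1
    rw [h1, map_smul, hα, Algebra.smul_def, mul_assoc]
  obtain ⟨fa, hfa⟩ := fxPsi_mem_range_of_rational B ((α i₁)⁻¹ • α) (fun i => by
    refine hH _ fun σ hσ => ?_
    obtain ⟨c, hc⟩ := hu σ hσ
    have hcne := hc0 σ hσ c hc
    have h2 := hσα σ hσ c hc
    have h3 : ∀ j, σ (α j) = c * α j := by
      intro j
      have := congrArg (fun z : fxIdx K F →₀ Ω => z j) h2
      simpa using this
    rw [Finsupp.smul_apply, smul_eq_mul, map_mul, map_inv₀, h3, h3]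
    field_simp)
  refine ⟨α i₁, fa / fb, ?_⟩
  rw [map_div₀, ← hfa, map_smul, Algebra.smul_def, map_inv₀, ← mul_div_assoc, ← mul_assoc,
    mul_inv_cancel₀ (by simpa using hi₁), one_mul, hα, mul_div_assoc, div_self hfb0, mul_one]

/-- **(FIX)** a function of `FΩ` with finite orbit under `Aut(Ω/K)` comes from `F`. -/
theorem fixedField [IsAlgClosed K] [IsAlgClosed Ω] : FixedField B := by
  classical
  intro u hfin
  set H : Set (Ω ≃ₐ[K] Ω) := {σ | B.act σ • u = u} with hH
  -- the fixed field of the stabiliser of `u` is `K`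
  have hHfix : ∀ c : Ω, (∀ σ ∈ H, σ c = c) → c ∈ Set.range (algebraMap K Ω) := by
    intro c hc
    refine fx_mem_range_of_finite_orbit c ?_
    let ψ : FΩ → Ω := fun y =>
      if h : ∃ σ : Ω ≃ₐ[K] Ω, B.act σ • u = y then (Classical.choose h) c else 0
    refine (hfin.image ψ).subset ?_
    rintro d ⟨σ, rfl⟩
    refine ⟨B.act σ • u, ⟨σ, rfl⟩, ?_⟩
    have hex : ∃ τ : Ω ≃ₐ[K] Ω, B.act τ • u = B.act σ • u := ⟨σ, rfl⟩
    show (if h : ∃ τ : Ω ≃ₐ[K] Ω, B.act τ • u = B.act σ • u then (Classical.choose h) c else 0)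
      = σ c
    rw [dif_pos hex]
    have hτ := Classical.choose_spec hex
    set τ := Classical.choose hex with hτdef
    have hmem : τ⁻¹ * σ ∈ H := by
      show B.act (τ⁻¹ * σ) • u = u
      rw [map_mul, mul_smul, ← hτ, map_inv, inv_smul_smul]
    have h1 := hc _ hmem
    have h2 : (τ⁻¹ * σ) c = τ⁻¹ (σ c) := rfl
    rw [h2] at h1
    have h3 := congrArg τ h1
    have h4 : τ (τ⁻¹ (σ c)) = σ c := τ.apply_symm_apply (σ c)
    rw [h4] at h3
    exact h3.symm
  obtain ⟨c, f, hcf⟩ := fx_main B H hHfix u (fun σ hσ => ⟨1, by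
    rw [map_one, one_mul]
    exact hσ⟩)
  by_cases hf : f = 0
  · exact ⟨0, by rw [hcf, hf, map_zero, mul_zero]⟩
  have hφf : B.φ f ≠ 0 := (map_ne_zero B.φ).2 hf
  obtain ⟨a, ha⟩ := hHfix c (fun σ hσ => by
    have h1 : B.act σ • u = u := hσ
    rw [hcf, smul_mul', SemilinearAut.smul_algebraMap, B.baseAut_act, B.act_φ] at h1
    exact (algebraMap Ω FΩ).injective (mul_right_cancel₀ hφf h1))
  refine ⟨a • f, ?_⟩
  rw [B.isConstExt.map_smul, ha, hcf]

/-- the extension of a place of `F` is fixed by `Aut(Ω/K)`. -/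
theorem fx_act_ext (σ : Ω ≃ₐ[K] Ω) (v : Place K F) : B.act σ • B.ext v = B.ext v := by
  have hord : ∀ f : F, (B.act σ • B.ext v).ord (B.φ f) = v.ord f := by
    intro f
    have h1 := SemilinearAut.ord_smul (B.act σ) (B.ext v) (B.φ f)
    rw [B.act_φ] at h1
    rw [h1]
    exact ord_extPlace B.isConstExt B.resConst v f
  rcases exists_extPlace_eq_or B.isConstExt B.resConst (B.act σ • B.ext v) with ⟨P, hP⟩ | h0
  · have hPv : P = v := by
      apply Place.ext
      ext f
      rw [Fermat.Agent.S24Res.mem_iff_ord_nonneg, Fermat.Agent.S24Res.mem_iff_ord_nonneg,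
        ← hord f, ← hP]
      rw [ord_extPlace B.isConstExt B.resConst P f]
    rw [← hP, hPv]
    rfl
  · exfalso
    obtain ⟨t, ht⟩ := Fermat.Agent.RR.exists_uniformizer v
    have ht0 : t ≠ 0 := by
      rintro rfl
      rw [Place.ord_zero] at ht
      exact zero_ne_one ht
    have h1 := hord t
    rw [h0 t ht0, ht] at h1
    exact zero_ne_one h1

/-- the base change of a divisor is fixed by `Aut(Ω/K)`. -/
theorem fx_act_bcDiv (σ : Ω ≃ₐ[K] Ω) (D : Divisor K F) : B.act σ • B.bcDiv D = B.bcDiv D := by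
  induction D using Finsupp.induction_linear with
  | zero => rw [map_zero, smul_zero]
  | add D E hD hE => rw [map_add, smul_add, hD, hE]
  | single v n =>
    show B.act σ • extDiv B.isConstExt B.resConst (Finsupp.single v n) =
      extDiv B.isConstExt B.resConst (Finsupp.single v n)
    rw [extDiv_single, SemilinearAut.smul_single]
    congr 1
    exact fx_act_ext B σ v

/-- **(BCINJ)** the base change of divisor classes is injective. -/
theorem bcInjective [IsAlgClosed K] [IsAlgClosed Ω] : BcInjective B := by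
  classical
  unfold BcInjective
  rw [injective_iff_map_eq_zero]
  intro x hx
  obtain ⟨D, rfl⟩ := Pic0.mk_surjective x
  have hx' : bc B.isConstExt B.resConst (Pic0.mk D) = 0 := hx
  rw [bc_mk_eq_zero_iff] at hx'
  obtain ⟨u, hu0, hu⟩ := hx'
  have huD : ∀ Q : Place Ω FΩ, B.bcDiv (D : Divisor K F) Q = Q.ord u := hu
  -- `σ u` is a constant multiple of `u`
  have hconst : ∀ σ : Ω ≃ₐ[K] Ω, ∃ c : Ω, B.act σ • u = algebraMap Ω FΩ c * u := by
    intro σ
    have hσu0 : B.act σ • u ≠ 0 := fun h => hu0 ((smul_eq_zero_iff_eq (B.act σ)).1 h)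
    have hord : ∀ Q : Place Ω FΩ, Q.ord (B.act σ • u) = Q.ord u := by
      intro Q
      have h1 := SemilinearAut.ord_smul (B.act σ) ((B.act σ)⁻¹ • Q) u
      rw [smul_inv_smul] at h1
      rw [h1, ← huD, ← huD]
      have h2 := SemilinearAut.divisor_smul_apply_smul (B.act σ) (B.bcDiv (D : Divisor K F))
        ((B.act σ)⁻¹ • Q)
      rw [smul_inv_smul, fx_act_bcDiv] at h2
      exact h2.symm
    have hmem : B.act σ • u * u⁻¹ ∈ riemannRochSpace (0 : Divisor Ω FΩ) := by
      rw [mem_riemannRochSpace_iff]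
      intro Q
      right
      rw [Q.ord_mul hσu0 (inv_ne_zero hu0), Q.ord_inv, hord Q]
      simp
    obtain ⟨c, hc⟩ := (mem_riemannRochSpace_zero_iff B.hΩ _).1 hmem
    refine ⟨c, ?_⟩
    rw [hc, mul_assoc, inv_mul_cancel₀ hu0, mul_one]
  obtain ⟨c, f, hcf⟩ := fx_main B Set.univ (fun c hc => by
    refine fx_mem_range_of_finite_orbit c ((Set.finite_singleton c).subset ?_)
    rintro d ⟨σ, rfl⟩
    exact hc σ (Set.mem_univ σ)) u (fun σ _ => hconst σ)
  have hc0 : c ≠ 0 := by
    rintro rfl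
    rw [map_zero, zero_mul] at hcf
    exact hu0 hcf
  have hf0 : f ≠ 0 := by
    rintro rfl
    rw [map_zero, mul_zero] at hcf
    exact hu0 hcf
  -- `D = div f`
  rw [pic0_mk_eq_zero_iff]
  refine ⟨f, hf0, fun P => ?_⟩
  have h1 := huD (B.ext P)
  have h2 : B.bcDiv (D : Divisor K F) (B.ext P) = (D : Divisor K F) P :=
    extDiv_apply_extPlace B.isConstExt B.resConst _ P
  rw [h2, hcf, (B.ext P).ord_mul (by simpa using hc0) ((map_ne_zero B.φ).2 hf0),
    Fermat.Agent.S24Res.ord_algebraMap, zero_add] at h1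
  rw [h1]
  exact ord_extPlace B.isConstExt B.resConst P f

end Psi

end Fermat.Agent.S27
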