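import Fermat.Agent.S27.Lift.Interface
import Fermat.Agent.S27.Lift.Basic
import Fermat.Agent.S27.Lift.Transfer

set_option autoImplicit false
set_option linter.unusedSectionVars false

/-!
# S27, seat E, leaf GENEX (helper99): existence of the two generic tuples of the chain

`genEx B x hNS hTR : GenEx B x`.

Proof (helper38's blueprint).  Let `t0` be a transcendence basis of `Ω / K` (of length `g`, the
genus).  `φ x` is not constant, so over every `t0 i` lies a place `Qf i` (`BCSetup.exists_over`);
the tuple `Qf` is generic, so `ℓ (sumPl Qf) = 1` (NS).  The class `n • pcls (sumPl Qf)` is the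
class of an effective divisor `E` of degree `g` (Riemann's inequality,
`Div.tr_exists_effective_cls`).  Transfer (TR) with `P := Qf`: if the orbit of `pcls E = n • c`
under a subgroup is finite then so is the orbit of `c = pcls (sumPl Qf)`, because multiplication
by `n` has finite fibres on `Pic0` (cosets of the finite group `Pic0[n]`).  Hence `E = sumPl Q`
with `Q` over an algebraically independent tuple `t` of length `g`, which is a transcendence
basis because the transcendence degree is `g`.
-/

noncomputable section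

namespace Fermat.Agent.S27

open AlgebraicCurve Fermat.Agent.RR

universe uK uF uΩ uFΩ

variable {K : Type uK} {F : Type uF} {Ω : Type uΩ} {FΩ : Type uFΩ}
  [Field K] [Field F] [Field Ω] [Field FΩ] [Algebra K F] [Algebra K Ω] [Algebra Ω FΩ]

/-- the `n`-torsion as a set, finite if `Pic0.torsion` is a finite type. -/
theorem gx_finite_torsion_set (n : ℕ) (htors : Finite (Pic0.torsion Ω FΩ n)) :
    {z : Pic0 Ω FΩ | n • z = 0}.Finite := by
  have hset : {z : Pic0 Ω FΩ | n • z = 0} = (Pic0.torsion Ω FΩ n : Set (Pic0 Ω FΩ)) := by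
    ext z
    show n • z = 0 ↔ z ∈ Pic0.torsion Ω FΩ n
    rw [Pic0.mem_torsion, natCast_zsmul]
  rw [hset]
  exact Set.toFinite _

/-- if the orbit of `n • c` is finite and the `n`-torsion is finite, the orbit of `c` is
finite. -/
theorem gx_finite_orbit_of_nsmul (B : BCSetup K F Ω FΩ) (n : ℕ)
    (htors : Finite (Pic0.torsion Ω FΩ n)) (H : Subgroup (Ω ≃ₐ[K] Ω)) (c : Pic0 Ω FΩ)
    (h : (orbitOfK B H (n • c)).Finite) : (orbitOfK B H c).Finite := by
  classical
  have htors' := gx_finite_torsion_set (Ω := Ω) (FΩ := FΩ) n htors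
  -- the orbit of `c` maps to the orbit of `n • c` with finite fibres
  refine Set.Finite.of_finite_fibers (fun y => n • y) (h.subset ?_) ?_
  · rintro _ ⟨y, ⟨σ, hσ, rfl⟩, rfl⟩
    exact ⟨σ, hσ, (smul_comm n (B.act σ) c).symm⟩
  · intro z _
    by_cases hne : ((orbitOfK B H c) ∩ (fun y => n • y) ⁻¹' {z}).Nonempty
    · obtain ⟨y₀, -, hy₀⟩ := hne
      have hy₀' : n • y₀ = z := hy₀
      refine (htors'.image fun d => d + y₀).subset ?_
      rintro y ⟨-, hy⟩
      have hy' : n • y = z := hy
      refine ⟨y - y₀, ?_, by simp⟩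
      show n • (y - y₀) = 0
      rw [nsmul_sub, hy', hy₀', sub_self]
    · rw [Set.not_nonempty_iff_eq_empty] at hne
      rw [hne]
      exact Set.finite_empty

/-- `g` algebraically independent elements of a field of transcendence degree `g` form a
transcendence basis. -/
theorem gx_isTranscendenceBasis {g : ℕ} {t0 t : Fin g → Ω} (ht0 : IsTranscendenceBasis K t0)
    (ht : AlgebraicIndependent K t) : IsTranscendenceBasis K t :=
  ht.isTranscendenceBasis_of_lift_trdeg_le_of_finite ht0.lift_cardinalMk_eq_trdeg.symm.le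

/-- **(GENEX)** existence of the two generic tuples of the chain. -/
theorem genEx [IsAlgClosed K] [IsAlgClosed Ω] (B : BCSetup K F Ω FΩ) (x : F)
    (hNS : NonSpecial B x) (hTR : Transfer B x) : GenEx B x := by
  intro hx P₀ hP₀ g hg ht0 n _ htors
  obtain ⟨t0, ht0⟩ := ht0
  -- a tuple over the transcendence basis
  choose Qf hQf using fun i => B.exists_over hx (t0 i)
  have hQfgen : IsGenTuple B x Qf := ⟨t0, ht0.1, hQf⟩
  have hell : ell (sumPl Qf) = 1 := hNS g hg.le Qf hQfgen
  -- an effective representative of `n • pcls (sumPl Qf)`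
  obtain ⟨E, hE, hEdeg, hEz⟩ :=
    Fermat.Agent.Div.tr_exists_effective_cls B.hΩ P₀ (n • pcls B.hΩ P₀ (sumPl Qf))
  have hEz' : pcls B.hΩ P₀ E = n • pcls B.hΩ P₀ (sumPl Qf) := hEz.symm
  have hEdeg' : Divisor.degree E = (g : ℤ) := by rw [hEdeg, hg]
  obtain ⟨Q, hEQ, t, ht, hQt⟩ := hTR P₀ hP₀ g Qf hQfgen hell E hE hEdeg' (fun S hS => by
    rw [hEz'] at hS
    exact gx_finite_orbit_of_nsmul B n htors _ _ hS)
  refine ⟨Qf, Q, t, hQfgen, hQt, gx_isTranscendenceBasis ht0 ht, ?_⟩
  rw [← hEQ]
  exact hEz'

end Fermat.Agent.S27
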