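/-
S27, seat E (lifting of torsion), leaf E1 (helper5): generic places over an abstract constant
field extension `B : BCSetup K F Ω FΩ`, ANY characteristic.

* `genericOfOver : GenericOfOver B x` : a place of `FΩ` over a value of `x` that is transcendental
  over `K` is trivial on `φ F` (dichotomy `ConstExt.exists_extPlace_eq_or`);
* `valuesDetermine : ValuesDetermine B x` (`F / K(x)` finite separable): such a place is determined
  by its value map on `φ F` (the Hensel / Taylor core `Lib/Div/Gen/{Abstract,Core}.lean`, with the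
  separability hypothesis in place of characteristic `0`).
-/
import Mathlib
import Fermat.Agent.S27.Lift.GenProps
import Fermat.Agent.Lib.Div.Gen.Core
import Fermat.Agent.Lib.ConstExt.Restrict

set_option autoImplicit false
set_option linter.style.haveILetI false

noncomputable section

namespace Fermat.Agent.S27

open AlgebraicCurve Fermat.Agent.RR Fermat.Agent.S17 Fermat.Agent.ConstExt
open Fermat.Agent.Div.GenCore Fermat.Agent.Div.GenAbs
open scoped IntermediateField

universe uK uF uΩ uFΩ

section Core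

variable {K : Type uK} {C : Type uΩ} {FK : Type uF} {FC : Type uFΩ}
  [Field K] [Field C] [Field FK] [Field FC] [Algebra K C] [Algebra K FK] [Algebra C FC]
  {φ : FK →+* FC}

/-- **every function is congruent to its value modulo `u`** (`FK` finite SEPARABLE over
`K(x)`; any characteristic). -/
theorem gv_mem_nearF (hC : IsRRField C FC) (w : Place C FC) (hw : Triv φ w)
    (hcomm : ∀ a : K, φ (algebraMap K FK a) = algebraMap C FC (algebraMap K C a)) {x : FK}
    [FiniteDimensional K⟮x⟯ FK] [Algebra.IsSeparable K⟮x⟯ FK] (f : FK) :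
    f ∈ nearF hC w hw x := by
  have hsep : (minpoly K⟮x⟯ f).Separable := Algebra.IsSeparable.isSeparable K⟮x⟯ f
  refine mem_nearField_of_root ((minpoly K⟮x⟯ f).map (algebraMap K⟮x⟯ FK)) ?_ ?_ ?_
  · intro i
    rw [Polynomial.coeff_map]
    exact adjoin_le_nearF hC w hw hcomm x _ ((minpoly K⟮x⟯ f).coeff i).2
  · rw [Polynomial.eval_map_algebraMap]
    exact minpoly.aeval _ _
  · rw [Polynomial.derivative_map, Polynomial.eval_map_algebraMap]
    exact hsep.aeval_derivative_ne_zero (minpoly.aeval _ _)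

/-- one inclusion of the valuation rings (any characteristic; the congruence property of `P` is
a hypothesis). -/
theorem gv_ord_nonneg_of_ev_eq (hφ : IsConstExt (K := K) (C := C) φ)
    (hC : IsRRField C FC) {P Q : Place C FC} (hP : Triv φ P) (hQ : Triv φ Q)
    (h : ∀ f : FK, Pts.ev P (φ f) = Pts.ev Q (φ f)) {x : FK}
    (hxc : ∀ c : C, φ x ≠ algebraMap C FC c) (hallP : ∀ f : FK, f ∈ nearF hC P hP x)
    {z : FC} (hz : 0 ≤ P.ord z) : 0 ≤ Q.ord z := by
  rcases eq_or_ne z 0 with rfl | hz0
  · rw [Place.ord_zero]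
  obtain ⟨g, g', hg', hgg'⟩ := exists_frac hφ z
  set a : thetaRing (C := C) φ := ⟨Phi K C φ g, Phi_mem_thetaRing g⟩ with ha
  set b : thetaRing (C := C) φ := ⟨Phi K C φ g', Phi_mem_thetaRing g'⟩ with hb
  have hb0 : b ≠ 0 := fun h0 => hg' (congrArg (fun z : thetaRing (C := C) φ => (z : FC)) h0)
  have ha0' : (a : FC) ≠ 0 := by
    show Phi K C φ g ≠ 0
    rw [← hgg']
    exact mul_ne_zero hz0 hg'
  have ha0 : a ≠ 0 := fun h0 => ha0' (by rw [h0]; rfl)
  have huPQ : uPar hC P hP x = uPar hC Q hQ x := by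
    unfold uPar
    rw [evR_eq_of_ev_eq hC hP hQ h]
  have hu0 : uPar hC P hP x ≠ 0 := uPar_ne_zero hC P hP hxc
  obtain ⟨ma, sa, ta, hsa, hta, hfa⟩ :=
    exists_factor hC hP hxc hallP (P.ord (a : FC)).toNat a ha0 (Int.self_le_toNat _)
  obtain ⟨mb, sb, tb, hsb, htb, hfb⟩ :=
    exists_factor hC hP hxc hallP (P.ord (b : FC)).toNat b hb0 (Int.self_le_toNat _)
  have hPa := ord_eq_of_factor hC hP hu0 hsa hta hfa
  have hPb := ord_eq_of_factor hC hP hu0 hsb htb hfb
  have hQa : Q.ord (a : FC) = ma * Q.ord ((uPar hC P hP x : thetaRing (C := C) φ) : FC) :=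
    ord_eq_of_factor hC hQ hu0 (by rwa [← evR_eq_of_ev_eq hC hP hQ h])
      (by rwa [← evR_eq_of_ev_eq hC hP hQ h]) hfa
  have hQb : Q.ord (b : FC) = mb * Q.ord ((uPar hC P hP x : thetaRing (C := C) φ) : FC) :=
    ord_eq_of_factor hC hQ hu0 (by rwa [← evR_eq_of_ev_eq hC hP hQ h])
      (by rwa [← evR_eq_of_ev_eq hC hP hQ h]) hfb
  have hePpos : 0 < P.ord ((uPar hC P hP x : thetaRing (C := C) φ) : FC) :=
    ord_pos_of_evR_eq_zero hC hP hu0 (evR_uPar hC P hP x)
  have heQpos : 0 < Q.ord ((uPar hC P hP x : thetaRing (C := C) φ) : FC) := by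
    rw [huPQ]
    exact ord_pos_of_evR_eq_zero hC hQ (huPQ ▸ hu0) (evR_uPar hC Q hQ x)
  have hb0' : (b : FC) ≠ 0 := hg'
  have hzab : z * (b : FC) = (a : FC) := hgg'
  have hPz : P.ord z + P.ord (b : FC) = P.ord (a : FC) := by
    rw [← P.ord_mul hz0 hb0', hzab]
  have hQz : Q.ord z + Q.ord (b : FC) = Q.ord (a : FC) := by
    rw [← Q.ord_mul hz0 hb0', hzab]
  rw [hPa, hPb] at hPz
  rw [hQa, hQb] at hQz
  have hm : (mb : ℤ) ≤ ma := by
    by_contra hcon
    rw [not_le] at hcon
    have : (ma : ℤ) * P.ord ((uPar hC P hP x : thetaRing (C := C) φ) : FC)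
        < mb * P.ord ((uPar hC P hP x : thetaRing (C := C) φ) : FC) :=
      mul_lt_mul_of_pos_right hcon hePpos
    omega
  have : (mb : ℤ) * Q.ord ((uPar hC P hP x : thetaRing (C := C) φ) : FC)
      ≤ ma * Q.ord ((uPar hC P hP x : thetaRing (C := C) φ) : FC) :=
    mul_le_mul_of_nonneg_right hm heQpos.le
  omega

/-- **(E1), generic form, any characteristic**: a place which is trivial on `φ FK` is determined
by its value map, if `FK / K(x)` is finite separable. -/
theorem gv_place_eq_of_ev_eq (hφ : IsConstExt (K := K) (C := C) φ)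
    (hC : IsRRField C FC) {P Q : Place C FC} (hP : Triv φ P) (hQ : Triv φ Q)
    (h : ∀ f : FK, Pts.ev P (φ f) = Pts.ev Q (φ f)) {x : FK}
    (hxc : ∀ c : C, φ x ≠ algebraMap C FC c)
    [FiniteDimensional K⟮x⟯ FK] [Algebra.IsSeparable K⟮x⟯ FK] : P = Q := by
  apply Place.ext
  ext z
  rw [Fermat.Agent.S24Res.mem_iff_ord_nonneg, Fermat.Agent.S24Res.mem_iff_ord_nonneg]
  exact ⟨gv_ord_nonneg_of_ev_eq hφ hC hP hQ h hxc (gv_mem_nearF hC P hP hφ.comm),
    gv_ord_nonneg_of_ev_eq hφ hC hQ hP (fun f => (h f).symm) hxc (gv_mem_nearF hC Q hQ hφ.comm)⟩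

end Core

variable {K : Type uK} {F : Type uF} {Ω : Type uΩ} {FΩ : Type uFΩ}
  [Field K] [Field F] [Field Ω] [Field FΩ] [Algebra K F] [Algebra K Ω] [Algebra Ω FΩ]

/-- a function with a zero of `u - c` somewhere is not the constant `c'`. -/
theorem gv_ne_const_of_over {u : FΩ} {P : Place Ω FΩ} {c : Ω} (h : Over u P c) (c' : Ω) :
    u ≠ algebraMap Ω FΩ c' := by
  intro hu
  unfold Over at h
  rw [hu, ← map_sub] at h
  rw [Fermat.Agent.S24Res.ord_algebraMap] at h
  exact lt_irrefl _ h

/-- **(E0)** a place of `FΩ` over a value of `x` that is transcendental over `K` is generic. -/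
theorem genericOfOver (B : BCSetup K F Ω FΩ) (x : F) : GenericOfOver B x := by
  intro P c hc hP f
  rcases exists_extPlace_eq_or B.isConstExt B.resConst P with ⟨v, rfl⟩ | h
  · exfalso
    unfold Over at hP
    have hne : B.φ x - algebraMap Ω FΩ c ≠ 0 := by
      intro h0
      rw [h0, Place.ord_zero] at hP
      exact lt_irrefl _ hP
    -- `x` is regular at `v`
    have hx0 : 0 ≤ v.ord x := by
      rw [← ord_extPlace B.isConstExt B.resConst v x]
      have h1 : B.φ x = (B.φ x - algebraMap Ω FΩ c) + algebraMap Ω FΩ c := by ring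
      rw [h1]
      exact Fermat.Agent.S24Res.ord_nonneg_of_mem _
        (add_mem (Fermat.Agent.S24Res.mem_of_ord_nonneg _ hP.le)
          ((extPlace B.isConstExt B.resConst v).algebraMap_mem' c))
    obtain ⟨a, ha⟩ := exists_const_sub B.hF v hx0
    -- `φ x - a` has positive order or is zero
    have h2 : B.φ x - algebraMap Ω FΩ (algebraMap K Ω a) = 0 ∨
        0 < (extPlace B.isConstExt B.resConst v).ord
          (B.φ x - algebraMap Ω FΩ (algebraMap K Ω a)) := by
      rcases ha with ha | ha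
      · left
        rw [ha, B.isConstExt.comm, sub_self]
      · right
        rw [← B.isConstExt.comm, ← map_sub, ord_extPlace]
        exact ha
    -- hence `a - c` has value `0`, so `c = a`
    have e1 : Pts.ev (extPlace B.isConstExt B.resConst v) (B.φ x - algebraMap Ω FΩ c) = 0 :=
      (Pts.ev_eq_zero_iff B.hΩ _ hne hP.le).mpr hP
    have h2' : 0 ≤ (extPlace B.isConstExt B.resConst v).ord
        (B.φ x - algebraMap Ω FΩ (algebraMap K Ω a)) := by
      rcases h2 with h2 | h2
      · rw [h2, Place.ord_zero]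
      · exact h2.le
    have e2 : Pts.ev (extPlace B.isConstExt B.resConst v)
        (B.φ x - algebraMap Ω FΩ (algebraMap K Ω a)) = 0 := by
      rcases h2 with h2 | h2
      · rw [h2, Pts.ev_zero]
      · exact (Pts.ev_eq_zero_iff B.hΩ _ (fun h0 => by
          rw [h0, Place.ord_zero] at h2; exact lt_irrefl _ h2) h2.le).mpr h2
    have h4 : algebraMap Ω FΩ (algebraMap K Ω a - c)
        = (B.φ x - algebraMap Ω FΩ c) - (B.φ x - algebraMap Ω FΩ (algebraMap K Ω a)) := by
      rw [map_sub]; ring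
    have h5 : algebraMap K Ω a - c = 0 := by
      have h6 := Pts.ev_sub B.hΩ (extPlace B.isConstExt B.resConst v) hP.le h2'
      rw [← h4, Pts.ev_algebraMap, e1, e2, sub_zero] at h6
      exact h6
    apply hc
    rw [← sub_eq_zero.mp h5]
    exact isAlgebraic_algebraMap a
  · rcases eq_or_ne f 0 with rfl | hf
    · rw [map_zero, Place.ord_zero]
    · exact h f hf

/-- **(E1)** a place of `FΩ` over a value of `x` that is transcendental over `K` is determined by
its value map on `φ F`. -/
theorem valuesDetermine (B : BCSetup K F Ω FΩ) (x : F)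
    [Algebra.IsSeparable ↥K⟮x⟯ F] [FiniteDimensional ↥K⟮x⟯ F] : ValuesDetermine B x := by
  intro P Q c d hc hd hP hQ h
  have hgP : Triv B.φ P := genericOfOver B x P c hc hP
  have hgQ : Triv B.φ Q := genericOfOver B x Q d hd hQ
  exact gv_place_eq_of_ev_eq B.isConstExt B.hΩ hgP hgQ h (gv_ne_const_of_over hP)

end Fermat.Agent.S27
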