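/-
S27, seat E, leaf REDV (helper29): values reduce to values at the places to which no pole reduces.

`redValue (hr : IsReduction S r) : RedValue S r`.
Proof: `c` is the value of `u` at `P`; `Lib/FF/RedValue` (`IsReduction.valueAt_mem`,
`IsReduction.red_spec`: push only) gives `c ∈ A` and either `red u = res c` (excluded, `red u` is
not constant) or `r P` is a zero of `red u - res c`.
-/
import Fermat.Agent.S27.Lift.ChainProps
import Fermat.Agent.Lib.FF.RedValue

set_option autoImplicit false

noncomputable section

namespace Fermat.Agent.S27

open AlgebraicCurve Fermat.Agent.RR Fermat.Agent.Deuring Fermat.Agent.FF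

variable {K F k Fk : Type*} [Field K] [Field F] [Algebra K F] [Field k] [Field Fk] [Algebra k Fk]

/-- **(REDV)** values reduce to values at the places to which no pole reduces. -/
theorem redValue {S : ValSetup K F k Fk} {r : Place K F → Place k Fk}
    (hr : IsReduction S r) : RedValue S r := by
  intro u hu hnc P hreg c hP
  have hval : valueAt S.hF P u = c := valueAt_eq_of_ord_pos S.hF P hP
  have hmem : valueAt S.hF P u ∈ S.A := hr.valueAt_mem hu P hreg
  have hspec := hr.red_spec hu P hreg hmem
  have hc : c ∈ S.A := hval ▸ hmem
  refine ⟨hc, ?_⟩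
  have hres : S.res ⟨valueAt S.hF P u, hmem⟩ = S.res ⟨c, hc⟩ := by
    congr 1
    exact Subtype.ext hval
  rw [hres] at hspec
  rcases hspec with h1 | h1
  · exact absurd ⟨_, h1.symm⟩ hnc
  · exact h1

end Fermat.Agent.S27
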