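import Mathlib

set_option autoImplicit false

/-!
# S27, block E (lifting): abstract valuation lemmas  (helper40)

* `linearIndependent_of_residue` : elements of a valuation ring whose residues are linearly
  independent over the residue field of the subfield `M` are linearly independent over `M`
  (the fundamental inequality `f ≤ n` in its sharpest form; no finiteness, no surjectivity).
* `exists_normalized` : Gauss normalisation of a polynomial over a valued field.
* `adjoin_residue_eq_top` : uniqueness of the Gauss valuation: a valuation ring of `M = K(s)` in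
  which the residues of the `s i` are algebraically independent has residue field `k(s̄)`.
-/

namespace Fermat.Agent.S27

open scoped BigOperators

section LI

variable {M Ω m om : Type*} [Field M] [Field Ω] [Algebra M Ω] [Field m] [Field om] [Algebra m om]

/-- In a valuation ring, a finite family which is not identically zero has a nonzero member
dividing all the others. -/
theorem exists_pivot (O : ValuationSubring M) {ι : Type*} (s : Finset ι) (a : ι → M)
    (h : ∃ i ∈ s, a i ≠ 0) : ∃ i₀ ∈ s, a i₀ ≠ 0 ∧ ∀ i ∈ s, a i / a i₀ ∈ O := by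
  classical
  induction s using Finset.induction_on with
  | empty => obtain ⟨i, hi, _⟩ := h; simp at hi
  | insert j s hj ih =>
    by_cases hs : ∃ i ∈ s, a i ≠ 0
    · obtain ⟨i₀, hi₀, hne, hdiv⟩ := ih hs
      by_cases hj0 : a j = 0
      · refine ⟨i₀, Finset.mem_insert_of_mem hi₀, hne, fun i hi => ?_⟩
        rcases Finset.mem_insert.mp hi with rfl | hi
        · rw [hj0, zero_div]; exact O.zero_mem
        · exact hdiv i hi
      · rcases O.mem_or_inv_mem (a j / a i₀) with hmem | hmem
        · refine ⟨i₀, Finset.mem_insert_of_mem hi₀, hne, fun i hi => ?_⟩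
          rcases Finset.mem_insert.mp hi with rfl | hi
          · exact hmem
          · exact hdiv i hi
        · refine ⟨j, Finset.mem_insert_self _ _, hj0, fun i hi => ?_⟩
          rcases Finset.mem_insert.mp hi with rfl | hi
          · rw [div_self hj0]; exact O.one_mem
          · have h1 : a i / a j = (a i / a i₀) * (a j / a i₀)⁻¹ := by
              field_simp
            rw [h1]
            exact O.mul_mem _ _ (hdiv i hi) hmem
    · push Not at hs
      obtain ⟨i, hi, hne⟩ := h
      rcases Finset.mem_insert.mp hi with rfl | hi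
      · refine ⟨i, Finset.mem_insert_self _ _, hne, fun i' hi' => ?_⟩
        rcases Finset.mem_insert.mp hi' with rfl | hi'
        · rw [div_self hne]; exact O.one_mem
        · rw [hs i' hi', zero_div]; exact O.zero_mem
      · exact absurd (hs i hi) hne

/-- **Fundamental inequality, sharp form.**  `O` a valuation ring of `Ω`, `ρ : O → om` and
`ρM : O ∩ M → m` compatible ring homomorphisms into fields.  A family of elements of `O` whose
images under `ρ` are linearly independent over `m` is linearly independent over `M`. -/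
theorem linearIndependent_of_residue (O : ValuationSubring Ω) (ρ : O →+* om)
    (ρM : (O.comap (algebraMap M Ω)) →+* m)
    (hcomp : ∀ a : O.comap (algebraMap M Ω),
      ρ ⟨algebraMap M Ω (a : M), a.2⟩ = algebraMap m om (ρM a))
    {ι : Type*} (y : ι → Ω) (hy : ∀ i, y i ∈ O)
    (h : LinearIndependent m (fun i => ρ ⟨y i, hy i⟩)) : LinearIndependent M y := by
  classical
  rw [linearIndependent_iff']
  intro s a hsum
  by_contra hcon
  push Not at hcon
  obtain ⟨i₁, hi₁, hne₁⟩ := hcon
  obtain ⟨i₀, hi₀, hne, hdiv⟩ := exists_pivot (O.comap (algebraMap M Ω)) s a ⟨i₁, hi₁, hne₁⟩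
  -- the scaled coefficients
  have hb : ∀ i ∈ s, a i / a i₀ ∈ O.comap (algebraMap M Ω) := hdiv
  let b : ι → (O.comap (algebraMap M Ω)) := fun i =>
    if hi : i ∈ s then ⟨a i / a i₀, hb i hi⟩ else 0
  have hb0 : b i₀ = 1 := by
    simp only [b, dif_pos hi₀]
    apply Subtype.ext
    show a i₀ / a i₀ = 1
    exact div_self hne
  have hsum' : ∑ i ∈ s, (⟨algebraMap M Ω ((b i : M)), (b i).2⟩ : O) * ⟨y i, hy i⟩ = 0 := by
    apply Subtype.ext
    rw [AddSubmonoidClass.coe_finsetSum]
    show ∑ i ∈ s, algebraMap M Ω (b i : M) * y i = ((0 : O) : Ω)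
    have h1 : ∀ i ∈ s, algebraMap M Ω (b i : M) * y i = (algebraMap M Ω (a i₀))⁻¹ * (a i • y i) := by
      intro i hi
      simp only [b, dif_pos hi]
      rw [Algebra.smul_def, map_div₀]
      field_simp
    rw [Finset.sum_congr rfl h1, ← Finset.mul_sum, hsum, mul_zero]
    rfl
  have h2 := congrArg ρ hsum'
  rw [map_sum, map_zero] at h2
  have h3 : ∑ i ∈ s, (ρM (b i)) • ρ ⟨y i, hy i⟩ = 0 := by
    rw [← h2]
    refine Finset.sum_congr rfl fun i _ => ?_
    rw [map_mul, hcomp, Algebra.smul_def]
  have h4 := (linearIndependent_iff'.mp h) s (fun i => ρM (b i)) h3 i₀ hi₀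
  rw [hb0, map_one] at h4
  exact one_ne_zero h4

end LI

section Gauss

variable {K M k m : Type*} [Field K] [Field M] [Algebra K M] [Field k] [Field m] [Algebra k m]
variable (O : ValuationSubring M)

/-- the inclusion `O ∩ K → O` -/
def inclO : (O.comap (algebraMap K M)) →+* O where
  toFun a := ⟨algebraMap K M (a : K), a.2⟩
  map_one' := Subtype.ext (map_one _)
  map_mul' _ _ := Subtype.ext (map_mul _ _ _)
  map_zero' := Subtype.ext (map_zero _)
  map_add' _ _ := Subtype.ext (map_add _ _ _)

@[simp] theorem coe_inclO (a : O.comap (algebraMap K M)) :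
    ((inclO (K := K) O a : O) : M) = algebraMap K M (a : K) := rfl

variable {ι : Type*}

/-- **Gauss normalisation**: a nonzero polynomial is a nonzero constant times a polynomial with
coefficients in the valuation ring, one of which is `1`. -/
theorem exists_normalized (A : ValuationSubring K) (P : MvPolynomial ι K) (hP : P ≠ 0) :
    ∃ (c : K) (P' : MvPolynomial ι A), c ≠ 0 ∧
      MvPolynomial.map A.subtype P' = c⁻¹ • P ∧ ∃ d, MvPolynomial.coeff d P' = 1 := by
  classical
  have hsupp : ∃ d ∈ P.support, MvPolynomial.coeff d P ≠ 0 := by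
    obtain ⟨d, hd⟩ := MvPolynomial.ne_zero_iff.mp hP
    exact ⟨d, MvPolynomial.mem_support_iff.mpr hd, hd⟩
  obtain ⟨d₀, hd₀, hne, hdiv⟩ := exists_pivot A P.support (fun d => MvPolynomial.coeff d P) hsupp
  let P' : MvPolynomial ι A := ∑ d ∈ P.support.attach,
    MvPolynomial.monomial d.1 ⟨MvPolynomial.coeff d.1 P / MvPolynomial.coeff d₀ P, hdiv d.1 d.2⟩
  have hcoeff : ∀ d, ((MvPolynomial.coeff d P' : A) : K)
      = MvPolynomial.coeff d P / MvPolynomial.coeff d₀ P := by
    intro d
    simp only [P', MvPolynomial.coeff_sum, MvPolynomial.coeff_monomial]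
    by_cases hd : d ∈ P.support
    · rw [Finset.sum_eq_single (⟨d, hd⟩ : P.support)]
      · simp
      · intro b _ hb
        have : (b : ι →₀ ℕ) ≠ d := fun h => hb (Subtype.ext h)
        simp [this]
      · intro h
        exact absurd (Finset.mem_attach _ _) h
    · rw [Finset.sum_eq_zero]
      · have : MvPolynomial.coeff d P = 0 := by
          simpa [MvPolynomial.mem_support_iff] using hd
        simp [this]
      · intro b _
        have : (b : ι →₀ ℕ) ≠ d := fun h => hd (h ▸ b.2)
        simp [this]
  refine ⟨MvPolynomial.coeff d₀ P, P', hne, ?_, d₀, ?_⟩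
  · ext d
    rw [MvPolynomial.coeff_map, MvPolynomial.coeff_smul]
    show ((MvPolynomial.coeff d P' : A) : K) = _
    rw [hcoeff, smul_eq_mul, div_eq_inv_mul]
  · apply Subtype.ext
    rw [hcoeff, div_self hne]
    rfl

variable {O}

/-- evaluation of a polynomial with integral coefficients at integral points, in `O` -/
def evalO (s : ι → M) (hs : ∀ i, s i ∈ O) (P' : MvPolynomial ι (O.comap (algebraMap K M))) : O :=
  MvPolynomial.eval₂ (inclO (K := K) O) (fun i => ⟨s i, hs i⟩) P'

theorem coe_evalO (s : ι → M) (hs : ∀ i, s i ∈ O)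
    (P' : MvPolynomial ι (O.comap (algebraMap K M))) :
    ((evalO s hs P' : O) : M)
      = MvPolynomial.aeval s (MvPolynomial.map (O.comap (algebraMap K M)).subtype P') := by
  have h1 := MvPolynomial.eval₂_comp_left O.subtype (inclO (K := K) O) (fun i => ⟨s i, hs i⟩) P'
  rw [MvPolynomial.aeval_def, MvPolynomial.eval₂_map]
  exact h1

theorem rho_evalO (ρ : O →+* m) (res : (O.comap (algebraMap K M)) →+* k)
    (hcomp : ∀ a : O.comap (algebraMap K M), ρ (inclO O a) = algebraMap k m (res a))
    (s : ι → M) (hs : ∀ i, s i ∈ O) (P' : MvPolynomial ι (O.comap (algebraMap K M))) :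
    ρ (evalO s hs P')
      = MvPolynomial.aeval (fun i => ρ ⟨s i, hs i⟩) (MvPolynomial.map res P') := by
  have h1 := MvPolynomial.eval₂_comp_left ρ (inclO (K := K) O) (fun i => ⟨s i, hs i⟩) P'
  rw [MvPolynomial.aeval_def, MvPolynomial.eval₂_map]
  have h2 : ρ.comp (inclO (K := K) O) = (algebraMap k m).comp res := RingHom.ext hcomp
  rw [← h2]
  exact h1

/-- a normalised polynomial takes a unit value at a point with algebraically independent
residues -/
theorem rho_evalO_ne_zero (ρ : O →+* m) (res : (O.comap (algebraMap K M)) →+* k)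
    (hcomp : ∀ a : O.comap (algebraMap K M), ρ (inclO O a) = algebraMap k m (res a))
    (s : ι → M) (hs : ∀ i, s i ∈ O)
    (hind : AlgebraicIndependent k (fun i => ρ ⟨s i, hs i⟩))
    (P' : MvPolynomial ι (O.comap (algebraMap K M))) (hP' : ∃ d, MvPolynomial.coeff d P' = 1) :
    ρ (evalO s hs P') ≠ 0 := by
  rw [rho_evalO ρ res hcomp]
  intro h0
  have h1 : MvPolynomial.map res P' = 0 := by
    have := hind
    rw [algebraicIndependent_iff] at this
    exact this _ h0
  obtain ⟨d, hd⟩ := hP'
  have h2 := congrArg (MvPolynomial.coeff d) h1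
  rw [MvPolynomial.coeff_map, hd, map_one, MvPolynomial.coeff_zero] at h2
  exact one_ne_zero h2

/-- **Uniqueness of the Gauss valuation.**  `M = K(s)`, `O` a valuation ring of `M` containing the
`s i`, with residue map `ρ : O → m` (surjective, killing exactly the non-units), compatible with
`res : O ∩ K → k`.  If the residues of the `s i` are algebraically independent over `k`, then the
residue field is `k(s̄)`. -/
theorem adjoin_residue_eq_top (ρ : O →+* m) (hρ : Function.Surjective ρ)
    (hker : ∀ x : O, ρ x ≠ 0 → IsUnit x) (res : (O.comap (algebraMap K M)) →+* k)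
    (hcomp : ∀ a : O.comap (algebraMap K M), ρ (inclO O a) = algebraMap k m (res a))
    (s : ι → M) (hs : ∀ i, s i ∈ O)
    (hgen : IntermediateField.adjoin K (Set.range s) = ⊤)
    (hind : AlgebraicIndependent k (fun i => ρ ⟨s i, hs i⟩)) :
    IntermediateField.adjoin k (Set.range fun i => ρ ⟨s i, hs i⟩) = ⊤ := by
  classical
  rw [eq_top_iff]
  intro x _
  obtain ⟨f, rfl⟩ := hρ x
  have hf : (f : M) ∈ IntermediateField.adjoin K (Set.range s) := by
    rw [hgen]; exact IntermediateField.mem_top
  obtain ⟨P, Q, hPQ⟩ := (IntermediateField.mem_adjoin_range_iff K s (f : M)).mp hf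
  by_cases hf0 : f = 0
  · rw [hf0, map_zero]; exact zero_mem _
  have hfM : (f : M) ≠ 0 := fun h => hf0 (Subtype.ext h)
  have hP0 : P ≠ 0 := by
    rintro rfl
    rw [map_zero, zero_div] at hPQ
    exact hfM hPQ
  have hQ0 : Q ≠ 0 := by
    rintro rfl
    rw [map_zero, div_zero] at hPQ
    exact hfM hPQ
  obtain ⟨cP, P', hcP, hP', hP1⟩ := exists_normalized (O.comap (algebraMap K M)) P hP0
  obtain ⟨cQ, Q', hcQ, hQ', hQ1⟩ := exists_normalized (O.comap (algebraMap K M)) Q hQ0
  have huP := rho_evalO_ne_zero ρ res hcomp s hs hind P' hP1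
  have huQ := rho_evalO_ne_zero ρ res hcomp s hs hind Q' hQ1
  have hPv : MvPolynomial.aeval s P = algebraMap K M cP * (evalO s hs P' : O) := by
    rw [coe_evalO, hP', map_smul, Algebra.smul_def, ← mul_assoc, ← map_mul,
      mul_inv_cancel₀ hcP, map_one, one_mul]
  have hQv : MvPolynomial.aeval s Q = algebraMap K M cQ * (evalO s hs Q' : O) := by
    rw [coe_evalO, hQ', map_smul, Algebra.smul_def, ← mul_assoc, ← map_mul,
      mul_inv_cancel₀ hcQ, map_one, one_mul]
  have huQM : ((evalO s hs Q' : O) : M) ≠ 0 := by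
    intro h
    apply huQ
    have : evalO s hs Q' = 0 := Subtype.ext h
    rw [this, map_zero]
  have hcQM : algebraMap K M cQ ≠ 0 := by
    rw [Ne, map_eq_zero]; exact hcQ
  -- `c = cP / cQ` is integral
  obtain ⟨vP, hvP⟩ := hker _ huP
  have hrel : (f : M) * (evalO s hs Q' : O) = algebraMap K M (cP / cQ) * (evalO s hs P' : O) := by
    rw [hPQ, hPv, hQv, map_div₀]
    field_simp
  have hcmem : cP / cQ ∈ O.comap (algebraMap K M) := by
    show algebraMap K M (cP / cQ) ∈ O
    have h1 : algebraMap K M (cP / cQ)
        = ((f * evalO s hs Q' * (vP⁻¹ : Oˣ) : O) : M) := by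
      have h2 : ((evalO s hs P' : O) : M) * (((vP⁻¹ : Oˣ) : O) : M) = 1 := by
        have := congrArg (Subtype.val) (vP.mul_inv)
        rw [hvP] at this
        exact this
      show _ = (f : M) * (evalO s hs Q' : O) * (((vP⁻¹ : Oˣ) : O) : M)
      rw [hrel, mul_assoc, h2, mul_one]
    rw [h1]
    exact (f * evalO s hs Q' * (vP⁻¹ : Oˣ) : O).2
  have hrelO : f * evalO s hs Q' = inclO O ⟨cP / cQ, hcmem⟩ * evalO s hs P' :=
    Subtype.ext hrel
  have h3 := congrArg ρ hrelO
  rw [map_mul, map_mul, hcomp, rho_evalO ρ res hcomp, rho_evalO ρ res hcomp] at h3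
  have huQ' : MvPolynomial.aeval (fun i => ρ ⟨s i, hs i⟩) (MvPolynomial.map res Q') ≠ 0 := by
    rw [← rho_evalO ρ res hcomp]; exact huQ
  rw [IntermediateField.mem_adjoin_range_iff]
  refine ⟨MvPolynomial.C (res ⟨cP / cQ, hcmem⟩) * MvPolynomial.map res P',
    MvPolynomial.map res Q', ?_⟩
  rw [eq_div_iff huQ', h3, map_mul, MvPolynomial.aeval_C]

end Gauss

end Fermat.Agent.S27
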