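import Mathlib
import Fermat.Agent.S27.Lift.BridgeDefs
import Fermat.Agent.S27.Lift.ValAbs

set_option autoImplicit false

/-!
# S27, seat E, leaf BR-VAL (helper40): the fundamental inequality over a Gauss base

`bridgeVal (V : ValRes K Ω k ω) : BridgeVal V`.
-/

noncomputable section

namespace Fermat.Agent.S27

open IntermediateField

section GaussMem

variable {K M k m : Type*} [Field K] [Field M] [Algebra K M] [Field k] [Field m] [Algebra k m]
variable {O : ValuationSubring M} {ι : Type*}

/-- **Gauss**: the residue of an integral element of `K(s)` lies in `k(s̄)`. -/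
theorem rho_mem_adjoin (ρ : O →+* m) (hker : ∀ x : O, ρ x ≠ 0 → IsUnit x)
    (res : (O.comap (algebraMap K M)) →+* k)
    (hcomp : ∀ a : O.comap (algebraMap K M), ρ (inclO O a) = algebraMap k m (res a))
    (s : ι → M) (hs : ∀ i, s i ∈ O)
    (hind : AlgebraicIndependent k (fun i => ρ ⟨s i, hs i⟩))
    (f : O) (hf : (f : M) ∈ IntermediateField.adjoin K (Set.range s)) :
    ρ f ∈ IntermediateField.adjoin k (Set.range fun i => ρ ⟨s i, hs i⟩) := by
  classical
  obtain ⟨P, Q, hPQ⟩ := (IntermediateField.mem_adjoin_range_iff K s (f : M)).mp hf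
  by_cases hf0 : f = 0
  · rw [hf0, map_zero]; exact zero_mem _
  have hfM : (f : M) ≠ 0 := fun h => hf0 (Subtype.ext h)
  have hP0 : P ≠ 0 := by
    rintro rfl
    rw [map_zero, zero_div] at hPQ
    exact hfM hPQ
  have hQ0 : Q ≠ 0 := by
    rintro rfl
    rw [map_zero, div_zero] at hPQ
    exact hfM hPQ
  obtain ⟨cP, P', hcP, hP', hP1⟩ := exists_normalized (O.comap (algebraMap K M)) P hP0
  obtain ⟨cQ, Q', hcQ, hQ', hQ1⟩ := exists_normalized (O.comap (algebraMap K M)) Q hQ0
  have huP := rho_evalO_ne_zero ρ res hcomp s hs hind P' hP1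
  have huQ := rho_evalO_ne_zero ρ res hcomp s hs hind Q' hQ1
  have hPv : MvPolynomial.aeval s P = algebraMap K M cP * (evalO s hs P' : O) := by
    rw [coe_evalO, hP', map_smul, Algebra.smul_def, ← mul_assoc, ← map_mul,
      mul_inv_cancel₀ hcP, map_one, one_mul]
  have hQv : MvPolynomial.aeval s Q = algebraMap K M cQ * (evalO s hs Q' : O) := by
    rw [coe_evalO, hQ', map_smul, Algebra.smul_def, ← mul_assoc, ← map_mul,
      mul_inv_cancel₀ hcQ, map_one, one_mul]
  have huQM : ((evalO s hs Q' : O) : M) ≠ 0 := by
    intro h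
    apply huQ
    have : evalO s hs Q' = 0 := Subtype.ext h
    rw [this, map_zero]
  have hcQM : algebraMap K M cQ ≠ 0 := by
    rw [Ne, map_eq_zero]; exact hcQ
  obtain ⟨vP, hvP⟩ := hker _ huP
  have hrel : (f : M) * (evalO s hs Q' : O) = algebraMap K M (cP / cQ) * (evalO s hs P' : O) := by
    rw [hPQ, hPv, hQv, map_div₀]
    field_simp
  have hcmem : cP / cQ ∈ O.comap (algebraMap K M) := by
    show algebraMap K M (cP / cQ) ∈ O
    have h1 : algebraMap K M (cP / cQ)
        = ((f * evalO s hs Q' * (vP⁻¹ : Oˣ) : O) : M) := by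
      have h2 : ((evalO s hs P' : O) : M) * (((vP⁻¹ : Oˣ) : O) : M) = 1 := by
        have := congrArg (Subtype.val) (vP.mul_inv)
        rw [hvP] at this
        exact this
      show _ = (f : M) * (evalO s hs Q' : O) * (((vP⁻¹ : Oˣ) : O) : M)
      rw [hrel, mul_assoc, h2, mul_one]
    rw [h1]
    exact (f * evalO s hs Q' * (vP⁻¹ : Oˣ) : O).2
  have hrelO : f * evalO s hs Q' = inclO O ⟨cP / cQ, hcmem⟩ * evalO s hs P' :=
    Subtype.ext hrel
  have h3 := congrArg ρ hrelO
  rw [map_mul, map_mul, hcomp, rho_evalO ρ res hcomp, rho_evalO ρ res hcomp] at h3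
  have huQ' : MvPolynomial.aeval (fun i => ρ ⟨s i, hs i⟩) (MvPolynomial.map res Q') ≠ 0 := by
    rw [← rho_evalO ρ res hcomp]; exact huQ
  rw [IntermediateField.mem_adjoin_range_iff]
  refine ⟨MvPolynomial.C (res ⟨cP / cQ, hcmem⟩) * MvPolynomial.map res P',
    MvPolynomial.map res Q', ?_⟩
  rw [eq_div_iff huQ', h3, map_mul, MvPolynomial.aeval_C]

end GaussMem

section VR

variable {K Ω k ω : Type*} [Field K] [Field Ω] [Field k] [Field ω] [Algebra K Ω] [Algebra k ω]

/-- the kernel of the residue map is the set of non-units. -/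
theorem ValRes.isUnit_of_res_ne_zero (V : ValRes K Ω k ω) (x : V.A) (hx : V.res x ≠ 0) :
    IsUnit x := by
  by_contra hnu
  have hmax : (RingHom.ker V.res).IsMaximal := RingHom.ker_isMaximal_of_surjective V.res V.res_surj
  have h1 : RingHom.ker V.res = IsLocalRing.maximalIdeal V.A := IsLocalRing.eq_maximalIdeal hmax
  have h2 : x ∈ IsLocalRing.maximalIdeal V.A := (IsLocalRing.mem_maximalIdeal x).mpr hnu
  rw [← h1] at h2
  exact hx h2

/-- the residue map on the constants, as a function with values in `k`. -/
def ValRes.resKfun (V : ValRes K Ω k ω) (a : V.A.comap (algebraMap K Ω)) : k :=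
  (V.res_K (a : K) a.2).choose

theorem ValRes.algebraMap_resKfun (V : ValRes K Ω k ω) (a : V.A.comap (algebraMap K Ω)) :
    algebraMap k ω (V.resKfun a) = (V.res.comp (inclO V.A)) a :=
  (V.res_K (a : K) a.2).choose_spec

/-- the residue map on the constants, with values in `k`. -/
def ValRes.resK (V : ValRes K Ω k ω) : (V.A.comap (algebraMap K Ω)) →+* k where
  toFun := V.resKfun
  map_one' := by
    apply (algebraMap k ω).injective
    rw [V.algebraMap_resKfun, map_one, map_one]
  map_mul' a b := by
    apply (algebraMap k ω).injective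
    rw [V.algebraMap_resKfun, map_mul, map_mul, V.algebraMap_resKfun, V.algebraMap_resKfun]
  map_zero' := by
    apply (algebraMap k ω).injective
    rw [V.algebraMap_resKfun, map_zero, map_zero]
  map_add' a b := by
    apply (algebraMap k ω).injective
    rw [V.algebraMap_resKfun, map_add, map_add, V.algebraMap_resKfun, V.algebraMap_resKfun]

theorem ValRes.algebraMap_resK (V : ValRes K Ω k ω) (a : V.A.comap (algebraMap K Ω)) :
    V.res (inclO V.A a) = algebraMap k ω (V.resK a) :=
  (V.algebraMap_resKfun a).symm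

/-- a finite-dimensionality criterion: a spanning set all of whose linearly independent
subfamilies have at most `d` elements spans a space of dimension `≤ d`. -/
theorem finrank_span_le_of_forall_li {F V : Type*} [Field F] [AddCommGroup V] [Module F V]
    (R : Set V) (d : ℕ)
    (h : ∀ T : Set V, T ⊆ R → LinearIndependent F ((↑) : T → V) → T.Finite ∧ T.ncard ≤ d) :
    FiniteDimensional F (Submodule.span F R) ∧ Module.finrank F (Submodule.span F R) ≤ d := by
  classical
  obtain ⟨T, hTR, hTspan, hTli⟩ := exists_linearIndependent F R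
  obtain ⟨hfin, hcard⟩ := h T hTR hTli
  haveI : Fintype T := hfin.fintype
  have h1 : Module.finrank F (Submodule.span F T) = T.toFinset.card :=
    finrank_span_set_eq_card hTli
  have h2 : FiniteDimensional F (Submodule.span F T) :=
    FiniteDimensional.span_of_finite F hfin
  rw [← hTspan]
  refine ⟨h2, ?_⟩
  rw [h1, ← Set.ncard_eq_toFinset_card']
  exact hcard

/-- **BR-VAL.** -/
theorem bridgeVal (V : ValRes K Ω k ω) : BridgeVal V := by
  classical
  intro g m s hs u hu hind halg
  -- Gauss: residues of integral elements of `K(s)` lie in `k(s̄)`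
  have hGauss : ∀ f : V.A, (f : Ω) ∈ adjoin K (Set.range s) →
      V.res f ∈ adjoin k (Set.range (V.resFam s hs)) := fun f hf =>
    rho_mem_adjoin V.res V.isUnit_of_res_ne_zero V.resK V.algebraMap_resK s hs hind f hf
  -- the residue map of the base
  let ρM : (V.A.comap (algebraMap ↥(adjoin K (Set.range s)) Ω)) →+*
      ↥(adjoin k (Set.range (V.resFam s hs))) :=
    { toFun := fun a => ⟨V.res ⟨algebraMap ↥(adjoin K (Set.range s)) Ω a, a.2⟩,
        hGauss _ (a : ↥(adjoin K (Set.range s))).2⟩
      map_one' := Subtype.ext (by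
        show V.res ⟨algebraMap ↥(adjoin K (Set.range s)) Ω 1, _⟩ = 1
        rw [← map_one V.res]
        congr 1)
      map_mul' := fun a b => Subtype.ext (by
        show V.res ⟨algebraMap ↥(adjoin K (Set.range s)) Ω (a * b : ↥(adjoin K (Set.range s))), _⟩
          = V.res _ * V.res _
        rw [← map_mul V.res]
        congr 1)
      map_zero' := Subtype.ext (by
        show V.res ⟨algebraMap ↥(adjoin K (Set.range s)) Ω 0, _⟩ = 0
        rw [← map_zero V.res]
        congr 1)
      map_add' := fun a b => Subtype.ext (by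
        show V.res ⟨algebraMap ↥(adjoin K (Set.range s)) Ω (a + b : ↥(adjoin K (Set.range s))), _⟩
          = V.res _ + V.res _
        rw [← map_add V.res]
        congr 1) }
  have hcomp₂ : ∀ a : V.A.comap (algebraMap ↥(adjoin K (Set.range s)) Ω),
      V.res ⟨algebraMap ↥(adjoin K (Set.range s)) Ω (a : ↥(adjoin K (Set.range s))), a.2⟩
        = algebraMap ↥(adjoin k (Set.range (V.resFam s hs))) ω (ρM a) := fun a => rfl
  -- lifting of linear independence
  have hLI : ∀ {ι : Type _} (y : ι → Ω) (hy : ∀ i, y i ∈ V.A),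
      LinearIndependent ↥(adjoin k (Set.range (V.resFam s hs))) (fun i => V.res ⟨y i, hy i⟩) →
      LinearIndependent ↥(adjoin K (Set.range s)) y := fun y hy h =>
    linearIndependent_of_residue V.A V.res ρM hcomp₂ y hy h
  -- finiteness upstairs
  haveI hfinL : FiniteDimensional ↥(adjoin K (Set.range s))
      ↥(adjoin ↥(adjoin K (Set.range s)) (Set.range u)) := by
    haveI : Finite (Set.range u) := Set.finite_range u
    refine IntermediateField.finiteDimensional_adjoin ?_
    rintro x ⟨j, rfl⟩
    exact (halg j).isIntegral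
  set d := Module.finrank ↥(adjoin K (Set.range s))
      ↥(adjoin ↥(adjoin K (Set.range s)) (Set.range u)) with hd
  -- the set of residues of the integral elements of `L`
  set R : Set ω := {r | ∃ y : V.A, (y : Ω) ∈ adjoin ↥(adjoin K (Set.range s)) (Set.range u) ∧
    V.res y = r} with hR
  have hW := finrank_span_le_of_forall_li (F := ↥(adjoin k (Set.range (V.resFam s hs)))) R d (by
    intro T hTR hTli
    choose Y hYL hYr using fun r : T => hTR r.2
    have h1 : LinearIndependent ↥(adjoin k (Set.range (V.resFam s hs)))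
        (fun r : T => V.res ⟨(Y r : Ω), (Y r).2⟩) := by
      have : (fun r : T => V.res ⟨(Y r : Ω), (Y r).2⟩) = ((↑) : T → ω) := by
        funext r
        exact hYr r
      rw [this]
      exact hTli
    have h2 := hLI (fun r : T => (Y r : Ω)) (fun r => (Y r).2) h1
    let Y' : T → ↥(adjoin ↥(adjoin K (Set.range s)) (Set.range u)) := fun r => ⟨(Y r : Ω), hYL r⟩
    have h3 : LinearIndependent ↥(adjoin K (Set.range s)) Y' := by
      refine LinearIndependent.of_comp
        ((adjoin ↥(adjoin K (Set.range s)) (Set.range u)).val.toLinearMap) ?_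
      exact h2
    haveI : Finite T := h3.finite
    refine ⟨Set.toFinite T, ?_⟩
    haveI : Fintype T := Fintype.ofFinite T
    have h4 := h3.fintype_card_le_finrank
    rw [← Set.toFinset_card, ← Set.ncard_eq_toFinset_card'] at h4
    exact h4)
  obtain ⟨hWfin, hWle⟩ := hW
  -- the algebra generated by the residues of `u` lies in the span of `R`
  have hone : (1 : ω) ∈ R := ⟨1, one_mem _, map_one _⟩
  have hmul : ∀ a b : ω, a ∈ R → b ∈ R → a * b ∈ R := by
    rintro a b ⟨y, hy, rfl⟩ ⟨y', hy', rfl⟩
    exact ⟨y * y', mul_mem hy hy', map_mul _ _ _⟩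
  have hu' : ∀ j, V.resFam u hu j ∈ R := fun j =>
    ⟨⟨u j, hu j⟩, IntermediateField.subset_adjoin _ _ ⟨j, rfl⟩, rfl⟩
  have hclos : (Submonoid.closure (Set.range (V.resFam u hu)) : Set ω) ⊆ R := by
    let Rm : Submonoid ω :=
      { carrier := R
        mul_mem' := (fun {a b} ha hb => hmul a b ha hb)
        one_mem' := hone }
    have : Submonoid.closure (Set.range (V.resFam u hu)) ≤ Rm := by
      rw [Submonoid.closure_le]
      rintro _ ⟨j, rfl⟩
      exact hu' j
    exact this
  have hSle : (Algebra.adjoin ↥(adjoin k (Set.range (V.resFam s hs)))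
      (Set.range (V.resFam u hu))).toSubmodule ≤
      Submodule.span ↥(adjoin k (Set.range (V.resFam s hs))) R := by
    rw [Algebra.adjoin_eq_span]
    exact Submodule.span_mono hclos
  have := hWfin
  have hSfin : FiniteDimensional ↥(adjoin k (Set.range (V.resFam s hs)))
      (Algebra.adjoin ↥(adjoin k (Set.range (V.resFam s hs)))
        (Set.range (V.resFam u hu))).toSubmodule :=
    Submodule.finiteDimensional_of_le hSle
  have hSrank : Module.finrank ↥(adjoin k (Set.range (V.resFam s hs)))
      (Algebra.adjoin ↥(adjoin k (Set.range (V.resFam s hs)))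
        (Set.range (V.resFam u hu))).toSubmodule ≤ d :=
    (Submodule.finrank_mono hSle).trans hWle
  -- the residues of `u` are algebraic over `k(s̄)`
  have halgb : ∀ x ∈ Set.range (V.resFam u hu),
      IsAlgebraic ↥(adjoin k (Set.range (V.resFam s hs))) x := by
    intro x hx
    have hfg : (Algebra.adjoin ↥(adjoin k (Set.range (V.resFam s hs)))
        (Set.range (V.resFam u hu))).toSubmodule.FG :=
      (Submodule.fg_iff_finiteDimensional _).mpr hSfin
    exact (IsIntegral.of_mem_of_fg _ hfg x (Algebra.subset_adjoin hx)).isAlgebraic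
  have heq : (adjoin ↥(adjoin k (Set.range (V.resFam s hs)))
      (Set.range (V.resFam u hu))).toSubalgebra =
      Algebra.adjoin ↥(adjoin k (Set.range (V.resFam s hs))) (Set.range (V.resFam u hu)) :=
    IntermediateField.adjoin_toSubalgebra_of_isAlgebraic halgb
  have hfinl : FiniteDimensional ↥(adjoin k (Set.range (V.resFam s hs)))
      (adjoin ↥(adjoin k (Set.range (V.resFam s hs)))
        (Set.range (V.resFam u hu))).toSubalgebra.toSubmodule := by
    rw [heq]; exact hSfin
  have hrankl : Module.finrank ↥(adjoin k (Set.range (V.resFam s hs)))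
      (adjoin ↥(adjoin k (Set.range (V.resFam s hs)))
        (Set.range (V.resFam u hu))).toSubalgebra.toSubmodule ≤ d := by
    rw [heq]; exact hSrank
  exact ⟨hfinl, hrankl⟩

end VR

end Fermat.Agent.S27
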