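import Fermat.Agent.S27.Lift.Interface
import Fermat.Agent.S27.Lift.BridgeVal

set_option autoImplicit false

/-!
# S27, block E (lifting): RES-TB  (helper40)

The residues of a transcendence basis `t` of `Ω / K` to which the valuation ring is adapted form a
transcendence basis of the residue field `ω / k`:
* algebraic independence is `IsAdapted.algebraicIndependent_res` (`Lift/ValAdapt.lean`);
* `ω` is algebraic over `k(t̄)`: every element of `ω` is the residue of some `a ∈ A`, which is
  algebraic over `K(t)`, and `bridgeVal` (fundamental inequality over a Gauss base) shows that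
  `k(t̄)(ā) / k(t̄)` is finite.
-/

noncomputable section

namespace Fermat.Agent.S27

open IntermediateField
open scoped IntermediateField.algebraAdjoinAdjoin

universe uK uΩ uk uω

variable {K : Type uK} {Ω : Type uΩ} {k : Type uk} {ω : Type uω}
  [Field K] [Field Ω] [Field k] [Field ω] [Algebra K Ω] [Algebra k ω]

/-- the residue map on the constants is surjective, if every element of `k` is a residue. -/
theorem ValRes.resK_surjective (V : ValRes K Ω k ω) (h : V.ResKSurj) :
    Function.Surjective V.resK := by
  intro b
  obtain ⟨a, ha, hab⟩ := h b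
  refine ⟨⟨a, ha⟩, ?_⟩
  apply (algebraMap k ω).injective
  rw [← V.algebraMap_resK, ← hab]
  rfl

/-- the residue of an element of `A` algebraic over `K(s)` is algebraic over `k(s̄)`, if the
residues `s̄` are algebraically independent. -/
theorem ValRes.isAlgebraic_res (V : ValRes K Ω k ω) {g : ℕ} (s : Fin g → Ω)
    (hs : ∀ i, s i ∈ V.A) (hind : AlgebraicIndependent k (V.resFam s hs))
    (a : Ω) (ha : a ∈ V.A) (halg : IsAlgebraic ↥(adjoin K (Set.range s)) a) :
    IsAlgebraic ↥(adjoin k (Set.range (V.resFam s hs))) (V.res ⟨a, ha⟩) := by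
  obtain ⟨hfin, -⟩ := bridgeVal V g 1 s hs (fun _ => a) (fun _ => ha) hind (fun _ => halg)
  have hmem : V.res ⟨a, ha⟩ ∈ adjoin ↥(adjoin k (Set.range (V.resFam s hs)))
      (Set.range (V.resFam (fun _ : Fin 1 => a) (fun _ => ha))) :=
    subset_adjoin _ _ ⟨0, rfl⟩
  have h1 : IsAlgebraic ↥(adjoin k (Set.range (V.resFam s hs)))
      (⟨V.res ⟨a, ha⟩, hmem⟩ : ↥(adjoin ↥(adjoin k (Set.range (V.resFam s hs)))
        (Set.range (V.resFam (fun _ : Fin 1 => a) (fun _ => ha))))) :=
    Algebra.IsAlgebraic.isAlgebraic _
  exact (IntermediateField.isAlgebraic_iff).mp h1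

/-- **(RES-TB)** the residues of a transcendence basis to which the valuation ring is adapted
form a transcendence basis of the residue field. -/
theorem resTB (V : ValRes K Ω k ω) : ResTB V := by
  intro hsurj A hA g t hV ht
  subst hA
  have hind : AlgebraicIndependent k (V.resFam t hV.2.1) :=
    hV.algebraicIndependent_res V.res V.resK (V.resK_surjective hsurj)
      (fun a => V.algebraMap_resK a)
  rw [hind.isTranscendenceBasis_iff_isAlgebraic]
  have hK : Algebra.IsAlgebraic ↥(adjoin K (Set.range t)) Ω := ht.isAlgebraic_field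
  have hk : Algebra.IsAlgebraic ↥(adjoin k (Set.range (V.resFam t hV.2.1))) ω := by
    constructor
    intro b
    obtain ⟨a, rfl⟩ := V.res_surj b
    exact V.isAlgebraic_res t hV.2.1 hind a.1 a.2 (hK.isAlgebraic _)
  exact (IsFractionRing.comap_isAlgebraic_iff
    (A := ↥(Algebra.adjoin k (Set.range (V.resFam t hV.2.1))))
    (K := ↥(adjoin k (Set.range (V.resFam t hV.2.1)))) (C := ω)).mpr hk

end Fermat.Agent.S27
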