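import Fermat.Agent.S27.Top
import Fermat.Agent.S27.Lift.Interface
import Fermat.Agent.S27.Lift.Basic
import Fermat.Agent.S27.Lift.Fixed
import Fermat.Agent.S27.Lift.ValAdapt
import Fermat.Agent.S27.Lift.NonSpecial
import Fermat.Agent.S27.Lift.Transfer
import Fermat.Agent.S27.Lift.GenVal
import Fermat.Agent.S27.Lift.Conj
import Fermat.Agent.S27.Lift.DivGen
import Fermat.Agent.S27.Lift.GenEx
import Fermat.Agent.S27.Lift.ClaimU
import Fermat.Agent.S27.Lift.ClaimL
import Fermat.Agent.S27.Lift.Chain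
import Fermat.Agent.S27.Lift.BasePt
import Fermat.Agent.S27.Lift.ResTB
import Fermat.Agent.S27.Lift.RedValue
import Fermat.Agent.Lib.RR.Hurwitz.Val

set_option autoImplicit false

/-!
# S27, seat E (lifting of torsion), sub-architect helper38: the ASSEMBLY

* `chain_of_liftSetup`  : the chain for a lift setup, from the leaves of seat E;
* `torsionLower_of_construction` : `ConstructionStatement → TorsionLower`.
-/

noncomputable section

namespace Fermat.Agent.S27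

open AlgebraicCurve Fermat.Agent.RR Fermat.Agent.Deuring Fermat.Agent.FF IntermediateField

universe u v

section Chain

universe uK uF uΩ uFΩ uk uFk uω uFω

variable {K : Type uK} {F : Type uF} {Ω : Type uΩ} {FΩ : Type uFΩ}
  {k : Type uk} {Fk : Type uFk} {ω : Type uω} {Fω : Type uFω}
  [Field K] [Field F] [Field Ω] [Field FΩ] [Algebra K F] [Algebra K Ω] [Algebra Ω FΩ]
  [Field k] [Field Fk] [Field ω] [Field Fω] [Algebra k Fk] [Algebra k ω] [Algebra ω Fω]

/-- **(CHAIN)**, from the leaves. -/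
theorem chain_of_liftSetup [IsAlgClosed K] [CharZero K] [IsAlgClosed Ω] [IsAlgClosed k]
    [IsAlgClosed ω] (L : LiftSetup K F Ω FΩ k Fk ω Fω) : Chain L := by
  haveI := L.finb
  haveI := L.sepb
  have hNS := nonSpecial L.Bp L.xb
  have hTR := transfer L.Bp L.xb
  have hDG := divGen L.Bp L.xb hNS hTR
  have hE0 := genericOfOver L.Bp L.xb
  have hE1 := valuesDetermine L.Bp L.xb
  have hCONJ := conj L.Bp L.hxb hE1 hE0
  exact chain L (claimU L.B0 L.x L.y (nonSpecial L.B0 L.x))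
    (claimL L.Bp L.xb L.yb L.genb hNS hTR hDG hCONJ hE0 hE1 (bcInjective L.Bp)) hDG hE0 (redValue L.hr)

end Chain

/-- **the assembly of seat E**: the lower bound for the torsion, from the construction. -/
theorem torsionLower_of_construction (hC : ConstructionStatement.{u, v}) :
    TorsionLower.{u, v} := by
  intro K F _ _ _ _ _ hRR ℓ hℓ
  obtain ⟨Ω, _, _, _, FΩ, _, _, k, _, _, Fk, _, _, B0, x, y, A, hx, htr, hcount, hdesc,
    hlift⟩ := hC K F hRR ℓ hℓ
  obtain ⟨P0, hP0'⟩ := Fermat.Agent.RRHur.exists_pole hRR hx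
  have hP0 : P0.ord x < 0 := (Fermat.Agent.RRHur.one_lt_adicValuation_iff P0).mp hP0'
  obtain ⟨N, hN⟩ := fibreBound B0 x
  refine ⟨(N + 1) ^ genusFF Ω FΩ * (genusFF Ω FΩ).factorial,
    Nat.mul_pos (pow_pos (Nat.succ_pos N) _) (Nat.factorial_pos _), fun j => ?_⟩
  have hn : 0 < ℓ ^ j := pow_pos hℓ.pos j
  obtain ⟨hfin, hle⟩ := hdesc j
  obtain ⟨Qf, Q, t, hQf, hQ, ht, hcls⟩ := genEx B0 x (nonSpecial B0 x) (transfer B0 x) hx
    (B0.ext P0) (fun σ => fx_act_ext B0 σ P0) (genusFF Ω FΩ) rfl htr (ℓ ^ j) hn hfin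
  obtain ⟨AΩ, hcomap, had⟩ := exists_isAdapted A ht.1
  obtain ⟨ω, _, _, _, Fω, _, _, L₀, hB0, hA, hLx, hLy, hgen, hsurj⟩ := hlift AΩ hcomap
  subst hB0 hA hLx
  obtain ⟨P0b, hP0b⟩ := basePt L₀ P0 hP0
  let L : LiftSetup K F Ω FΩ k Fk ω Fω := { L₀ with P0 := P0, P0b := P0b, r_P0 := hP0b }
  have htb := resTB L.valRes hsurj A hcomap (genusFF Ω FΩ) t had ht
  have hN' : ∀ c : Ω, {P : Place Ω FΩ | Over (L.B0.φ L.x) P c}.Finite ∧
      {P : Place Ω FΩ | Over (L.B0.φ L.x) P c}.ncard ≤ N + 1 :=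
    fun c => ⟨(hN c).1, (hN c).2.trans (Nat.le_succ N)⟩
  have hch := chain_of_liftSetup L (N + 1) hN' (ℓ ^ j) hn hfin
    (genusFF Ω FΩ) rfl Qf Q t had.2.1 hQf hQ ht htb hcls
  calc ℓ ^ (2 * genusFF K F * j) = Nat.card (Pic0.torsion k Fk (ℓ ^ j)) := (hcount j).symm
    _ ≤ (N + 1) ^ genusFF Ω FΩ * (genusFF Ω FΩ).factorial *
        Nat.card (Pic0.torsion Ω FΩ (ℓ ^ j)) := hch
    _ ≤ (N + 1) ^ genusFF Ω FΩ * (genusFF Ω FΩ).factorial *
        Nat.card (Pic0.torsion K F (ℓ ^ j)) := Nat.mul_le_mul_left _ hle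

end Fermat.Agent.S27
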