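/-
S27, CONSTRUCTION leaf DESC3 (helper89): descent of torsion classes along a constant field
extension `B : BCSetup K F Ω FΩ` (`K ⊂ Ω` algebraically closed, any characteristic).

If the `n`-torsion of `Pic⁰(FΩ)` is finite, the base change `Pic⁰(F)[n] → Pic⁰(FΩ)[n]` is
bijective; in particular `#Pic⁰(FΩ)[n] ≤ #Pic⁰(F)[n]`.

Port of `F3/I2/Descent/Surj.lean` (`torsion_descends`).  The normalisation of Laurent series is
replaced by `fx_main` (`Lift/Fixed.lean`): a function whose conjugates under a subgroup of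
`Aut(Ω/K)` with fixed field `K` are constant multiples of it is a constant multiple of a function
of `F`.
-/
import Mathlib
import Fermat.Agent.S27.Lift.Fixed
import Fermat.Agent.F3.I2.Descent.Canon

set_option autoImplicit false
set_option linter.style.haveILetI false

noncomputable section

namespace Fermat.Agent.S27

open AlgebraicCurve Fermat.Agent.RR Fermat.Agent.ConstExt Fermat.Agent.F3I2

section General

variable {k E : Type*} [Field k] [Field E] [Algebra k E]

/-- a function without zeros and poles is constant. -/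
theorem d3_const_of_ord_eq_zero (h : IsRRField k E) (y : E)
    (hw : ∀ w : Place k E, w.ord y = 0) : ∃ a : k, y = algebraMap k E a := by
  have hy : y ∈ riemannRochSpace (0 : Divisor k E) := by
    rw [mem_riemannRochSpace_iff]
    intro v
    right
    simp [hw v]
  obtain ⟨a, ha⟩ := (mem_riemannRochSpace_zero_iff h y).mp hy
  exact ⟨a, ha.symm⟩

theorem d3_degree_eq_zero_of_principal (h : IsRRField k E) {D : Divisor k E}
    (hD : D ∈ Divisor.principal (K := k) (F := E)) : Divisor.degree D = 0 := by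
  obtain ⟨f, -, rfl⟩ := (canon_mem_principal_iff h D).mp hD
  exact degree_divOf h f

theorem d3_mk_eq_iff (D D₁ : Divisor.degZero (K := k) (F := E)) :
    Pic0.mk D = Pic0.mk D₁ ↔
      ((D : Divisor k E) - D₁) ∈ Divisor.principal (K := k) (F := E) := by
  rw [Pic0.mk, Pic0.mk, QuotientAddGroup.eq, AddSubgroup.mem_addSubgroupOf]
  constructor
  · intro h
    have := neg_mem h
    simpa [sub_eq_add_neg, add_comm] using this
  · intro h
    have := neg_mem h
    simpa [sub_eq_add_neg, add_comm] using this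

theorem d3_nsmul_mk_eq_zero_iff (n : ℕ) (D : Divisor.degZero (K := k) (F := E)) :
    n • Pic0.mk D = 0 ↔ (n • (D : Divisor k E)) ∈ Divisor.principal (K := k) (F := E) := by
  have h1 : n • Pic0.mk D = Pic0.mk (n • D) := rfl
  rw [h1, ← Pic0.mk_zero, d3_mk_eq_iff]
  simp

theorem d3_mem_torsion_iff {n : ℕ} {x : Pic0 k E} : x ∈ Pic0.torsion k E n ↔ n • x = 0 := by
  rw [Pic0.mem_torsion, natCast_zsmul]

end General

universe uK uF uΩ uFΩ

variable {K : Type uK} {F : Type uF} {Ω : Type uΩ} {FΩ : Type uFΩ}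
  [Field K] [Field F] [Field Ω] [Field FΩ] [Algebra K F] [Algebra K Ω] [Algebra Ω FΩ]

variable (B : BCSetup K F Ω FΩ)

/-- **Surjectivity of the base change on torsion classes** (divisor form). -/
theorem d3_torsion_descends [IsAlgClosed K] [IsAlgClosed Ω] (n : ℕ) (hn : 0 < n)
    (hfin : {c : Pic0 Ω FΩ | n • c = 0}.Finite)
    (D' : Divisor.degZero (K := Ω) (F := FΩ)) (hnD' : n • Pic0.mk D' = 0) :
    ∃ D : Divisor K F, Divisor.degree D = 0 ∧
      ((D' : Divisor Ω FΩ) - B.bcDiv D) ∈ Divisor.principal (K := Ω) (F := FΩ) := by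
  classical
  obtain ⟨v₀⟩ := nonempty_place B.hF
  set P₀ := B.ext v₀ with hP₀
  have hD'0 : Divisor.degree (D' : Divisor Ω FΩ) = 0 := D'.2
  obtain ⟨m, E, hE, hED, huniq⟩ := exists_canonical_effective B.hΩ P₀ (D' : Divisor Ω FΩ) hD'0
  set D'' : Divisor Ω FΩ := E - Finsupp.single P₀ (m : ℤ) with hD''
  -- `n D''` is principal
  have hnD'' : n • D'' ∈ Divisor.principal (K := Ω) (F := FΩ) := by
    have h1 := (d3_nsmul_mk_eq_zero_iff n D').mp hnD'
    have h2 := nsmul_mem hED n
    have h3 := add_mem h2 h1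
    have h4 : n • (E - (D' : Divisor Ω FΩ) - Finsupp.single P₀ (m : ℤ))
        + n • (D' : Divisor Ω FΩ) = n • D'' := by
      rw [hD'', ← nsmul_add]
      congr 1
      abel
    rwa [h4] at h3
  obtain ⟨x', hx'0, hx'⟩ := hnD''
  have hord : ∀ w : Place Ω FΩ, w.ord x' = (n : ℤ) * D'' w := by
    intro w
    rw [← hx' w]
    simp
  -- the stabiliser of the class
  set H : Set (Ω ≃ₐ[K] Ω) := {σ | B.act σ • Pic0.mk D' = Pic0.mk D'} with hH
  have hHmem : ∀ σ τ : Ω ≃ₐ[K] Ω, B.act σ • Pic0.mk D' = B.act τ • Pic0.mk D' → τ⁻¹ * σ ∈ H := by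
    intro σ τ h
    show B.act (τ⁻¹ * σ) • Pic0.mk D' = Pic0.mk D'
    rw [map_mul, mul_smul, h, map_inv, inv_smul_smul]
  -- the fixed field of the stabiliser is `K`
  have hHfix : ∀ c : Ω, (∀ σ ∈ H, σ c = c) → c ∈ Set.range (algebraMap K Ω) := by
    intro c hc
    refine fx_mem_range_of_finite_orbit c ?_
    let ψ : Pic0 Ω FΩ → Ω := fun y =>
      if h : ∃ σ : Ω ≃ₐ[K] Ω, B.act σ • Pic0.mk D' = y then (Classical.choose h) c else 0
    refine (hfin.image ψ).subset ?_
    rintro d ⟨σ, rfl⟩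
    refine ⟨B.act σ • Pic0.mk D', ?_, ?_⟩
    · show n • (B.act σ • Pic0.mk D') = 0
      rw [smul_comm, hnD']
      exact smul_zero (A := Pic0 Ω FΩ) (B.act σ)
    · have hex : ∃ τ : Ω ≃ₐ[K] Ω, B.act τ • Pic0.mk D' = B.act σ • Pic0.mk D' := ⟨σ, rfl⟩
      show (if h : ∃ τ : Ω ≃ₐ[K] Ω, B.act τ • Pic0.mk D' = B.act σ • Pic0.mk D' then
        (Classical.choose h) c else 0) = σ c
      rw [dif_pos hex]
      have hτ := Classical.choose_spec hex
      set τ := Classical.choose hex with hτdef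
      have h1 := hc _ (hHmem σ τ hτ.symm)
      have h2 : (τ⁻¹ * σ) c = τ⁻¹ (σ c) := rfl
      rw [h2] at h1
      have h3 := congrArg τ h1
      have h4 : τ (τ⁻¹ (σ c)) = σ c := τ.apply_symm_apply (σ c)
      rw [h4] at h3
      exact h3.symm
  -- the stabiliser multiplies `x'` by constants
  have hconst : ∀ σ ∈ H, ∃ c : Ω, B.act σ • x' = algebraMap Ω FΩ c * x' := by
    intro σ hσ
    set g := B.act σ with hg
    have hgD : (g • (D' : Divisor Ω FΩ) - D') ∈ Divisor.principal (K := Ω) (F := FΩ) := by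
      have hσ' : g • Pic0.mk D' = Pic0.mk D' := hσ
      rw [SemilinearAut.pic0_smul_mk, d3_mk_eq_iff] at hσ'
      exact hσ'
    have hgP₀ : g • P₀ = P₀ := fx_act_ext B σ v₀
    have hgE : g • E = E :=
      canonical_effective_fixed B.hΩ P₀ _ hD'0 m E hE hED huniq g hgP₀ hgD
    have hgD'' : g • D'' = D'' := by
      rw [hD'', smul_sub, hgE, SemilinearAut.smul_single, hgP₀]
    have hgx0 : g • x' ≠ 0 := fun h => hx'0 ((smul_eq_zero_iff_eq g).1 h)
    have hordg : ∀ Q : Place Ω FΩ, Q.ord (g • x') = Q.ord x' := by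
      intro Q
      have h1 := SemilinearAut.ord_smul g (g⁻¹ • Q) x'
      rw [smul_inv_smul] at h1
      rw [h1, hord, hord]
      congr 1
      have h2 := SemilinearAut.divisor_smul_apply_smul g D'' (g⁻¹ • Q)
      rw [smul_inv_smul, hgD''] at h2
      exact h2.symm
    obtain ⟨c, hc⟩ := d3_const_of_ord_eq_zero B.hΩ (g • x' * x'⁻¹) (fun Q => by
      rw [Q.ord_mul hgx0 (inv_ne_zero hx'0), Q.ord_inv, hordg Q]
      simp)
    refine ⟨c, ?_⟩
    rw [← hc, mul_assoc, inv_mul_cancel₀ hx'0, mul_one]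
  obtain ⟨c₀, h₀, hcf⟩ := fx_main B H hHfix x' hconst
  have hc0 : c₀ ≠ 0 := by
    rintro rfl
    rw [map_zero, zero_mul] at hcf
    exact hx'0 hcf
  have hh0 : h₀ ≠ 0 := by
    rintro rfl
    rw [map_zero, mul_zero] at hcf
    exact hx'0 hcf
  have hφh0 : B.φ h₀ ≠ 0 := (map_ne_zero B.φ).2 hh0
  have hordφ : ∀ w : Place Ω FΩ, w.ord (B.φ h₀) = (n : ℤ) * D'' w := by
    intro w
    rw [← hord w, hcf, w.ord_mul (by simpa using hc0) hφh0, Fermat.Agent.S24Res.ord_algebraMap,
      zero_add]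
  -- the divisor over `K`
  have hsupp : (D''.support : Set (Place Ω FΩ)) ⊆ Set.range B.ext := by
    intro w hw
    rw [Finset.mem_coe, Finsupp.mem_support_iff] at hw
    rcases exists_extPlace_eq_or B.isConstExt B.resConst w with ⟨v, rfl⟩ | h0
    · exact ⟨v, rfl⟩
    · exfalso
      have h1 := hordφ w
      rw [h0 h₀ hh0] at h1
      have hn0 : (n : ℤ) ≠ 0 := by exact_mod_cast hn.ne'
      exact hw ((mul_eq_zero.mp h1.symm).resolve_left hn0)
  have hinj : Function.Injective B.ext := extPlace_injective B.isConstExt B.resConst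
  let D : Divisor K F := Finsupp.comapDomain B.ext D'' hinj.injOn
  have hbc : B.bcDiv D = D'' := Finsupp.mapDomain_comapDomain B.ext hinj D'' hsupp
  have hnD : n • D ∈ Divisor.principal (K := K) (F := F) := by
    refine ⟨h₀, hh0, fun v => ?_⟩
    have h1 := hordφ (B.ext v)
    have h2 : (B.ext v).ord (B.φ h₀) = v.ord h₀ := ord_extPlace B.isConstExt B.resConst v h₀
    rw [h2] at h1
    rw [h1]
    simp [D, Finsupp.comapDomain_apply]
  refine ⟨D, ?_, ?_⟩
  · have h1 := d3_degree_eq_zero_of_principal B.hF hnD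
    rw [map_nsmul, nsmul_eq_mul] at h1
    have hn0 : (n : ℤ) ≠ 0 := by exact_mod_cast hn.ne'
    rcases mul_eq_zero.mp h1 with h | h
    · exact absurd h hn0
    · exact h
  · rw [hbc, hD'']
    have := neg_mem hED
    have h2 : -(E - (D' : Divisor Ω FΩ) - Finsupp.single P₀ (m : ℤ))
        = (D' : Divisor Ω FΩ) - (E - Finsupp.single P₀ (m : ℤ)) := by
      abel
    rwa [h2] at this

/-- the base change of an `n`-torsion class is an `n`-torsion class. -/
theorem d3_bc_mem_torsion (n : ℕ) {z : Pic0 K F} (hz : z ∈ Pic0.torsion K F n) :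
    B.bc z ∈ Pic0.torsion Ω FΩ n := by
  rw [d3_mem_torsion_iff] at hz ⊢
  rw [← map_nsmul, hz, map_zero]

/-- **Surjectivity of the base change on torsion classes.** -/
theorem d3_bc_surjective_torsion [IsAlgClosed K] [IsAlgClosed Ω] (n : ℕ) (hn : 0 < n)
    (hfin : Finite (Pic0.torsion Ω FΩ n)) (c : Pic0 Ω FΩ) (hc : c ∈ Pic0.torsion Ω FΩ n) :
    ∃ z ∈ Pic0.torsion K F n, B.bc z = c := by
  have hfin' : {c : Pic0 Ω FΩ | n • c = 0}.Finite := by
    have h1 : {c : Pic0 Ω FΩ | n • c = 0} = (Pic0.torsion Ω FΩ n : Set (Pic0 Ω FΩ)) := by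
      ext x
      exact d3_mem_torsion_iff.symm
    rw [h1]
    exact Set.toFinite _
  obtain ⟨D', rfl⟩ := Pic0.mk_surjective c
  have hnD' : n • Pic0.mk D' = 0 := d3_mem_torsion_iff.mp hc
  obtain ⟨D, hD0, hDD'⟩ := d3_torsion_descends B n hn hfin' D' hnD'
  have hbc : B.bc (Pic0.mk ⟨D, hD0⟩) = Pic0.mk D' := by
    show bc B.isConstExt B.resConst (Pic0.mk ⟨D, hD0⟩) = Pic0.mk D'
    rw [bc_mk, d3_mk_eq_iff]
    have := neg_mem hDD'
    rw [neg_sub] at this
    exact this
  refine ⟨Pic0.mk ⟨D, hD0⟩, ?_, hbc⟩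
  rw [d3_mem_torsion_iff]
  apply bcInjective B
  rw [map_nsmul, hbc, hnD', map_zero]

include B in
/-- **DESC3**: if the `n`-torsion of `Pic⁰(FΩ)` is finite, the base change is a bijection on
`n`-torsion. -/
theorem desc3_card_eq [IsAlgClosed K] [IsAlgClosed Ω] (n : ℕ) (hn : 0 < n)
    (hfin : Finite (Pic0.torsion Ω FΩ n)) :
    Nat.card (Pic0.torsion Ω FΩ n) = Nat.card (Pic0.torsion K F n) := by
  let f : Pic0.torsion K F n → Pic0.torsion Ω FΩ n :=
    fun z => ⟨B.bc z.1, d3_bc_mem_torsion B n z.2⟩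
  have hinj : Function.Injective f := by
    intro z z' h
    exact Subtype.ext (bcInjective B (congrArg Subtype.val h))
  have hsurj : Function.Surjective f := by
    rintro ⟨c, hc⟩
    obtain ⟨z, hz, hzc⟩ := d3_bc_surjective_torsion B n hn hfin c hc
    exact ⟨⟨z, hz⟩, Subtype.ext hzc⟩
  exact (Nat.card_congr (Equiv.ofBijective f ⟨hinj, hsurj⟩)).symm

include B in
/-- **DESC3**. -/
theorem desc3 [IsAlgClosed K] [IsAlgClosed Ω] (n : ℕ) (hn : 0 < n)
    (hfin : Finite (Pic0.torsion Ω FΩ n)) :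
    Nat.card (Pic0.torsion Ω FΩ n) ≤ Nat.card (Pic0.torsion K F n) :=
  (desc3_card_eq B n hn hfin).le

end Fermat.Agent.S27
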