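import Mathlib

set_option autoImplicit false

/-!
# S27, construction side, leaf TB (helper99): an algebraically closed field of transcendence
degree `g`

For a field `K : Type u` and `g : ℕ`, the algebraic closure `Ω` of `Frac K[T_1, .., T_g]` is an
algebraically closed extension of `K` (in the same universe) and the images of the `T_i` form a
transcendence basis of `Ω / K`.

* `tbOmega K g` : the field `Ω` (an `abbrev`, so all instances are Mathlib's);
* `tbBasis K g : Fin g → tbOmega K g` and `tbBasis_isTranscendenceBasis`;
* `transBasis K g` : the existential form asked for by helper75.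
-/

noncomputable section

namespace Fermat.Agent.S27

universe u

/-- the algebraic closure of `Frac K[T_1, .., T_g]`. -/
abbrev tbOmega (K : Type u) [Field K] (g : ℕ) : Type u :=
  AlgebraicClosure (FractionRing (MvPolynomial (Fin g) K))

/-- the images of the variables in `tbOmega K g`. -/
def tbBasis (K : Type u) [Field K] (g : ℕ) : Fin g → tbOmega K g :=
  algebraMap (MvPolynomial (Fin g) K) (tbOmega K g) ∘ MvPolynomial.X

theorem tbBasis_apply (K : Type u) [Field K] (g : ℕ) (i : Fin g) :
    tbBasis K g i = algebraMap (MvPolynomial (Fin g) K) (tbOmega K g) (MvPolynomial.X i) := rfl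

/-- `tbOmega K g` is algebraic over the polynomial ring. -/
theorem tbOmega_isAlgebraic (K : Type u) [Field K] (g : ℕ) :
    Algebra.IsAlgebraic (MvPolynomial (Fin g) K) (tbOmega K g) := by
  have : Algebra.IsAlgebraic (MvPolynomial (Fin g) K)
      (FractionRing (MvPolynomial (Fin g) K)) :=
    IsLocalization.isAlgebraic _ (nonZeroDivisors (MvPolynomial (Fin g) K))
  exact Algebra.IsAlgebraic.trans (MvPolynomial (Fin g) K)
    (FractionRing (MvPolynomial (Fin g) K)) (tbOmega K g)

/-- the polynomial ring embeds into `tbOmega K g`. -/
theorem tbOmega_algebraMap_injective (K : Type u) [Field K] (g : ℕ) :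
    Function.Injective (algebraMap (MvPolynomial (Fin g) K) (tbOmega K g)) := by
  rw [IsScalarTower.algebraMap_eq (MvPolynomial (Fin g) K)
    (FractionRing (MvPolynomial (Fin g) K)) (tbOmega K g)]
  exact (algebraMap (FractionRing (MvPolynomial (Fin g) K)) (tbOmega K g)).injective.comp
    (IsFractionRing.injective (MvPolynomial (Fin g) K) (FractionRing (MvPolynomial (Fin g) K)))

/-- **(TB)** the variables form a transcendence basis of `tbOmega K g` over `K`. -/
theorem tbBasis_isTranscendenceBasis (K : Type u) [Field K] (g : ℕ) :
    IsTranscendenceBasis K (tbBasis K g) := by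
  have := tbOmega_isAlgebraic K g
  have : FaithfulSMul (MvPolynomial (Fin g) K) (tbOmega K g) :=
    (faithfulSMul_iff_algebraMap_injective _ _).mpr (tbOmega_algebraMap_injective K g)
  exact (IsTranscendenceBasis.mvPolynomial (Fin g) K).algebraMap_comp

/-- `tbOmega K g` has characteristic zero if `K` has. -/
theorem tbOmega_charZero (K : Type u) [Field K] [CharZero K] (g : ℕ) : CharZero (tbOmega K g) :=
  charZero_of_injective_algebraMap (algebraMap K (tbOmega K g)).injective

/-- **(TB)**, existential form: an algebraically closed extension of `K`, in the same universe,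
with a transcendence basis of length `g`. -/
theorem transBasis (K : Type u) [Field K] (g : ℕ) :
    ∃ (Ω : Type u) (_ : Field Ω) (_ : Algebra K Ω) (_ : IsAlgClosed Ω) (t0 : Fin g → Ω),
      IsTranscendenceBasis K t0 :=
  ⟨tbOmega K g, inferInstance, inferInstance, inferInstance, tbBasis K g,
    tbBasis_isTranscendenceBasis K g⟩

end Fermat.Agent.S27
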