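import Mathlib
import Fermat.Agent.S27.Lift.BridgeDefs

set_option autoImplicit false

/-!
# S27, seat E, leaf BR-GALU: at most `[K(s)(u) : K(s)]` conjugates (helper65)

Every `σ ∈ Aut(Ω / K)` fixing the `s i` fixes `B = K(s)` pointwise, hence restricts to a
`B`-algebra homomorphism `L = B(u) → Ω`, and the value tuple `(σ (u j))_j` only depends on this
restriction.  There are at most `[L : B]` such homomorphisms (Dedekind).
-/

noncomputable section

namespace Fermat.Agent.S27

open IntermediateField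

variable {K Ω : Type*} [Field K] [Field Ω] [Algebra K Ω]

/-- the equalizer of two algebra homomorphisms of fields, as an intermediate field. -/
def GalU.eqField {E : Type*} [Field E] [Algebra K E] (σ τ : Ω →ₐ[K] E) : IntermediateField K Ω where
  toSubalgebra := AlgHom.equalizer σ τ
  inv_mem' := fun x hx => by
    have h : σ x = τ x := hx
    show σ x⁻¹ = τ x⁻¹
    rw [map_inv₀, map_inv₀, h]

theorem GalU.mem_eqField {E : Type*} [Field E] [Algebra K E] (σ τ : Ω →ₐ[K] E) (x : Ω) :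
    x ∈ GalU.eqField σ τ ↔ σ x = τ x := Iff.rfl

/-- two algebra homomorphisms which agree on `S` agree on `K(S)`. -/
theorem GalU.eq_on_adjoin {E : Type*} [Field E] [Algebra K E] (σ τ : Ω →ₐ[K] E) (S : Set Ω)
    (h : ∀ x ∈ S, σ x = τ x) (x : Ω) (hx : x ∈ adjoin K S) : σ x = τ x := by
  have hle : adjoin K S ≤ GalU.eqField σ τ := adjoin_le_iff.2 (fun y hy => h y hy)
  exact hle hx

/-- an automorphism over `K` fixing the `s i` fixes `K(s)` pointwise. -/
theorem GalU.fixes_adjoin {g : ℕ} (s : Fin g → Ω) (σ : Ω ≃ₐ[K] Ω) (hσ : ∀ i, σ (s i) = s i)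
    (x : Ω) (hx : x ∈ adjoin K (Set.range s)) : σ x = x := by
  have h := GalU.eq_on_adjoin (σ : Ω →ₐ[K] Ω) (AlgHom.id K Ω) (Set.range s)
    (by rintro _ ⟨i, rfl⟩; exact hσ i) x hx
  exact h

/-- an automorphism over `K` fixing the `s i`, as an automorphism over `K(s)`. -/
def GalU.overAdjoin {g : ℕ} (s : Fin g → Ω) (σ : Ω ≃ₐ[K] Ω) (hσ : ∀ i, σ (s i) = s i) :
    Ω ≃ₐ[↥(adjoin K (Set.range s))] Ω :=
  AlgEquiv.ofRingEquiv (f := σ.toRingEquiv) (fun b => GalU.fixes_adjoin s σ hσ b.1 b.2)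

theorem GalU.overAdjoin_apply {g : ℕ} (s : Fin g → Ω) (σ : Ω ≃ₐ[K] Ω)
    (hσ : ∀ i, σ (s i) = s i) (x : Ω) : GalU.overAdjoin s σ hσ x = σ x := rfl

/-- the value tuple of an embedding of `B(u)`. -/
def GalU.vals {B : Type*} [Field B] [Algebra B Ω] {m : ℕ} (u : Fin m → Ω)
    (φ : ↥(adjoin B (Set.range u)) →ₐ[B] Ω) : Fin m → Ω :=
  fun j => φ ⟨u j, subset_adjoin B (Set.range u) ⟨j, rfl⟩⟩

/-- the number of embeddings is at most the degree. -/
theorem GalU.card_algHom_le (B L : Type*) [Field B] [Field L] [Algebra B L] [Algebra B Ω]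
    [FiniteDimensional B L] : Nat.card (L →ₐ[B] Ω) ≤ Module.finrank B L := by
  have h1 := cardinalMk_algHom B L Ω
  rw [Module.finrank_linearMap_self] at h1
  have h2 := Cardinal.toNat_le_toNat h1 (Cardinal.natCast_lt_aleph0)
  rwa [Cardinal.toNat_natCast] at h2

theorem GalU.conjVals_subset {g m : ℕ} (s : Fin g → Ω) (u : Fin m → Ω) :
    conjVals K s u ⊆ Set.range (GalU.vals (B := ↥(adjoin K (Set.range s))) u) := by
  rintro v ⟨σ, hσ, hv⟩
  refine ⟨((GalU.overAdjoin s σ hσ : Ω ≃ₐ[↥(adjoin K (Set.range s))] Ω) :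
      Ω →ₐ[↥(adjoin K (Set.range s))] Ω).comp
    (adjoin ↥(adjoin K (Set.range s)) (Set.range u)).val, ?_⟩
  funext j
  rw [hv j]
  rfl

/-- **(GAL-U)** -/
theorem bridgeGalUpper : BridgeGalUpper K Ω := by
  intro g m s u hfd
  have hfin : (Set.range (GalU.vals (B := ↥(adjoin K (Set.range s))) u)).Finite :=
    Set.finite_range _
  refine ⟨hfin.subset (GalU.conjVals_subset s u), ?_⟩
  calc (conjVals K s u).ncard
      ≤ (Set.range (GalU.vals (B := ↥(adjoin K (Set.range s))) u)).ncard :=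
        Set.ncard_le_ncard (GalU.conjVals_subset s u) hfin
    _ = ((GalU.vals (B := ↥(adjoin K (Set.range s))) u) '' Set.univ).ncard := by
        rw [Set.image_univ]
    _ ≤ (Set.univ : Set (↥(adjoin ↥(adjoin K (Set.range s)) (Set.range u))
          →ₐ[↥(adjoin K (Set.range s))] Ω)).ncard := Set.ncard_image_le Set.finite_univ
    _ = Nat.card (↥(adjoin ↥(adjoin K (Set.range s)) (Set.range u))
          →ₐ[↥(adjoin K (Set.range s))] Ω) := Set.ncard_univ _
    _ ≤ Module.finrank ↥(adjoin K (Set.range s))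
          ↥(adjoin ↥(adjoin K (Set.range s)) (Set.range u)) := GalU.card_algHom_le _ _

end Fermat.Agent.S27
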