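import Mathlib
import Fermat.Agent.Lib.Div.AutExt
import Fermat.Agent.S27.Lift.BridgeDefs
import Fermat.Agent.S27.Lift.BridgeGalU

set_option autoImplicit false

/-!
# S27, seat E, leaf BR-GALL: exactly `[K(s)(u) : K(s)]` conjugates in characteristic zero (helper65)

`B = K(s)`, `L = B(u)` finite separable over `B`, `L = B(α)` (primitive element), `P` the minimal
polynomial of `α`: `P` has `deg P = [L : B]` distinct roots in the algebraically closed field `Ω`,
and for every root `r` there is `σ_r ∈ Aut(Ω / B)` with `σ_r α = r`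
(`Fermat.Agent.Div.exists_algEquiv_of_root_irreducible`).  The tuples `(σ_r (u j))_j` are pairwise
distinct because `u` generates `L ∋ α` over `B`.
-/

noncomputable section

namespace Fermat.Agent.S27

open IntermediateField Polynomial

variable {K Ω : Type*} [Field K] [Field Ω] [Algebra K Ω]

/-- abstract form over the base `B`: if `L = B(u)` is finite separable over `B`, there are at
least `[L : B]` value tuples `(σ (u j))_j`, `σ ∈ Aut(Ω / B)`. -/
theorem GalL.exists_injective {B : Type*} [Field B] [Algebra B Ω] [IsAlgClosed Ω] {m : ℕ}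
    (u : Fin m → Ω) [FiniteDimensional B ↥(adjoin B (Set.range u))]
    [Algebra.IsSeparable B ↥(adjoin B (Set.range u))] :
    ∃ (R : Set Ω) (_ : Fintype ↑R) (G : ↑R → (Ω ≃ₐ[B] Ω)),
      Fintype.card ↑R = Module.finrank B ↥(adjoin B (Set.range u)) ∧
      Function.Injective (fun (r : ↑R) (j : Fin m) => G r (u j)) := by
  classical
  obtain ⟨α, hα⟩ := Field.exists_primitive_element B ↥(adjoin B (Set.range u))
  have hdeg : (minpoly B α).natDegree = Module.finrank B ↥(adjoin B (Set.range u)) :=
    (Field.primitive_element_iff_minpoly_natDegree_eq B α).1 hα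
  have hint : IsIntegral B α := Algebra.IsIntegral.isIntegral α
  have hirr : Irreducible (minpoly B α) := minpoly.irreducible hint
  have hsep : (minpoly B α).Separable := Algebra.IsSeparable.isSeparable B α
  have hsplit : ((minpoly B α).map (algebraMap B Ω)).Splits := IsAlgClosed.splits _
  have hcard : Fintype.card ↑((minpoly B α).rootSet Ω) = (minpoly B α).natDegree :=
    card_rootSet_eq_natDegree hsep hsplit
  have hα0 : aeval (α : Ω) (minpoly B α) = 0 := by
    have h1 : aeval (algebraMap ↥(adjoin B (Set.range u)) Ω α) (minpoly B α) = 0 := by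
      rw [aeval_algebraMap_apply, minpoly.aeval, map_zero]
    exact h1
  have hex : ∀ r : ↑((minpoly B α).rootSet Ω), ∃ σ : Ω ≃ₐ[B] Ω, σ (α : Ω) = r := by
    intro r
    have hr : aeval (r : Ω) (minpoly B α) = 0 := ((mem_rootSet).1 r.2).2
    exact Fermat.Agent.Div.exists_algEquiv_of_root_irreducible hirr hα0 hr
  choose G hG using hex
  refine ⟨(minpoly B α).rootSet Ω, inferInstance, G, hcard.trans hdeg, ?_⟩
  intro r r' hrr'
  have h1 : ∀ j, G r (u j) = G r' (u j) := fun j => congrFun hrr' j
  have h2 := GalU.eq_on_adjoin (K := B) ((G r : Ω ≃ₐ[B] Ω) : Ω →ₐ[B] Ω)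
    ((G r' : Ω ≃ₐ[B] Ω) : Ω →ₐ[B] Ω) (Set.range u)
    (by rintro _ ⟨j, rfl⟩; exact h1 j) (α : Ω) α.2
  have h3 : (r : Ω) = r' := by
    rw [← hG r, ← hG r']
    exact h2
  exact Subtype.ext h3

/-- **(GAL-L)** -/
theorem bridgeGalLower [CharZero K] [IsAlgClosed Ω] : BridgeGalLower K Ω := by
  intro g m s u halg
  have hfinS : Finite ↑(Set.range u) := (Set.finite_range u).to_subtype
  have hfd : FiniteDimensional ↥(adjoin K (Set.range s))
      ↥(adjoin ↥(adjoin K (Set.range s)) (Set.range u)) :=
    finiteDimensional_adjoin (by rintro _ ⟨j, rfl⟩; exact (halg j).isIntegral)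
  have hchar : CharZero ↥(adjoin K (Set.range s)) :=
    charZero_of_injective_algebraMap (algebraMap K ↥(adjoin K (Set.range s))).injective
  obtain ⟨R, hR, G, hcard, hinj⟩ :=
    GalL.exists_injective (B := ↥(adjoin K (Set.range s))) (Ω := Ω) u
  obtain ⟨hfin, -⟩ := bridgeGalUpper (K := K) (Ω := Ω) g m s u hfd
  have hsub : Set.range (fun (r : ↑R) (j : Fin m) => G r (u j)) ⊆ conjVals K s u := by
    rintro _ ⟨r, rfl⟩
    refine ⟨(G r).restrictScalars K, fun i => ?_, fun j => rfl⟩
    have h1 : (G r) (algebraMap ↥(adjoin K (Set.range s)) Ω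
        ⟨s i, subset_adjoin K (Set.range s) ⟨i, rfl⟩⟩) = algebraMap ↥(adjoin K (Set.range s)) Ω
        ⟨s i, subset_adjoin K (Set.range s) ⟨i, rfl⟩⟩ := (G r).commutes _
    exact h1
  calc Module.finrank ↥(adjoin K (Set.range s))
        ↥(adjoin ↥(adjoin K (Set.range s)) (Set.range u))
      = Fintype.card ↑R := hcard.symm
    _ = Nat.card ↑R := (Nat.card_eq_fintype_card).symm
    _ = (Set.range (fun (r : ↑R) (j : Fin m) => G r (u j))).ncard :=
        (Set.ncard_range_of_injective hinj).symm
    _ ≤ (conjVals K s u).ncard := Set.ncard_le_ncard hsub hfin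

end Fermat.Agent.S27
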