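import Mathlib
import Fermat.Agent.S27.Lift.BridgeDefs
import Fermat.Agent.S27.Lift.BridgeGalU
import Fermat.Agent.S27.Lift.BridgeGalL

set_option autoImplicit false

/-!
# S27, seat E: BRIDGE from BR-VAL  (helper65)

`Bridge V` = GAL-U over `(k, ω)` ∘ VAL ∘ GAL-L over `(K, Ω)`, with the finiteness from GAL-U over
`(K, Ω)`.  Conditional on `BridgeVal V` (leaf BR-VAL), so that `Bridge.lean` is a one-liner.
-/

noncomputable section

namespace Fermat.Agent.S27

open IntermediateField

variable {K Ω k ω : Type*} [Field K] [Field Ω] [Field k] [Field ω] [Algebra K Ω] [Algebra k ω]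

/-- **(BRIDGE)** from **(VAL)**. -/
theorem bridge_of_bridgeVal [CharZero K] [IsAlgClosed Ω] (V : ValRes K Ω k ω)
    (hV : BridgeVal V) : Bridge V := by
  intro g m s hs u hu hind halg
  obtain ⟨hfdk, hle⟩ := hV g m s hs u hu hind halg
  have hfinS : Finite ↑(Set.range u) := (Set.finite_range u).to_subtype
  have hfd : FiniteDimensional ↥(adjoin K (Set.range s))
      ↥(adjoin ↥(adjoin K (Set.range s)) (Set.range u)) :=
    finiteDimensional_adjoin (by rintro _ ⟨j, rfl⟩; exact (halg j).isIntegral)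
  obtain ⟨hfin, -⟩ := bridgeGalUpper (K := K) (Ω := Ω) g m s u hfd
  obtain ⟨-, hup⟩ := bridgeGalUpper (K := k) (Ω := ω) g m (V.resFam s hs) (V.resFam u hu) hfdk
  exact ⟨hfin, hup.trans (hle.trans (bridgeGalLower (K := K) (Ω := Ω) g m s u halg))⟩

end Fermat.Agent.S27
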