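import Mathlib
import Fermat.Agent.S27.Lift.BridgeDefs
import Fermat.Agent.S27.Lift.BridgeVal
import Fermat.Agent.S27.Lift.BridgeOfVal

set_option autoImplicit false

/-!
# S27, seat E: the valuation BRIDGE  (assembly of BR-VAL, BR-GALU, BR-GALL)

`#conjVals k sb ub ≤ #conjVals K s u` for a valued field `(Ω, A)` over `K` of characteristic zero,
`Ω` algebraically closed, `sb` algebraically independent over `k`, `u` algebraic over `K(s)`.
-/

noncomputable section

namespace Fermat.Agent.S27

variable {K Ω k ω : Type*} [Field K] [Field Ω] [Field k] [Field ω] [Algebra K Ω] [Algebra k ω]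

/-- **(BRIDGE)** -/
theorem bridge [CharZero K] [IsAlgClosed Ω] (V : ValRes K Ω k ω) : Bridge V :=
  bridge_of_bridgeVal V (bridgeVal V)

end Fermat.Agent.S27
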