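import Fermat.Agent.S27.Lift.ChainProps
import Fermat.Agent.S27.Lift.Interface
import Fermat.Agent.S27.Lift.Basic
import Fermat.Agent.S27.Lift.Bridge
import Fermat.Agent.S27.Lift.RedZero
import Fermat.Agent.S27.Lift.Comb

set_option autoImplicit false
set_option linter.unusedSectionVars false

/-!
# S27, seat E, leaf CHAIN (helper65): the chain of inequalities

`#Pic⁰(F_k)[n]  ≤  #conjVals k sb ub  ≤  #conjVals K s u  ≤  N^g · g! · #Pic⁰(FΩ)[n]`
     (CLAIM-L)            (BRIDGE)             (CLAIM-U)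

for a lift setup `L`: `chain L hCU hCL hDG hE0 hRV : Chain L` (plan: helper38).
The leaves CLAIM-U, CLAIM-L, DIVGEN, E0, REDV are hypotheses; BRIDGE, REDZ, BASIC, COMB are imported; the
small facts of REDC / COMB that are needed in a special form are proved here under the prefix
`ch_`.  `chain_of_comb` is the same statement with the two facts of COMB as hypotheses.
-/

noncomputable section

namespace Fermat.Agent.S27

open AlgebraicCurve Fermat.Agent.RR Fermat.Agent.Deuring Fermat.Agent.FF IntermediateField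

universe uK uF uΩ uFΩ uk uFk uω uFω

section Aux

variable {Ω : Type uΩ} {ω : Type uω} [Field Ω] [Field ω]

/-- the symmetric functions are values of the elementary symmetric polynomials. -/
theorem ch_symFam_eq_aeval {g : ℕ} (t : Fin g → Ω) (j : Fin g) :
    symFam t j = MvPolynomial.aeval t (MvPolynomial.esymm (Fin g) ℤ ((j : ℕ) + 1)) := by
  rw [MvPolynomial.aeval_esymm_eq_multiset_esymm]
  rfl

/-- the symmetric functions of elements of a valuation ring lie in it, and their residues are the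
symmetric functions of the residues. -/
theorem ch_symFam_res (O : ValuationSubring Ω) (ρ : ↥O →+* ω) {g : ℕ} (t : Fin g → Ω)
    (ht : ∀ i, t i ∈ O) (j : Fin g) :
    ∃ hs : symFam t j ∈ O, ρ ⟨symFam t j, hs⟩ = symFam (fun i => ρ ⟨t i, ht i⟩) j := by
  have h1 : ((MvPolynomial.aeval (fun i => (⟨t i, ht i⟩ : ↥O))
      (MvPolynomial.esymm (Fin g) ℤ ((j : ℕ) + 1)) : ↥O) : Ω) = symFam t j := by
    rw [ch_symFam_eq_aeval]
    exact MvPolynomial.comp_aeval_apply (fun i => (⟨t i, ht i⟩ : ↥O)) (O.subtype.toIntAlgHom)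
      (MvPolynomial.esymm (Fin g) ℤ ((j : ℕ) + 1))
  have hs : symFam t j ∈ O := by
    rw [← h1]
    exact Subtype.property _
  refine ⟨hs, ?_⟩
  have h2 : (⟨symFam t j, hs⟩ : ↥O) = MvPolynomial.aeval (fun i => (⟨t i, ht i⟩ : ↥O))
      (MvPolynomial.esymm (Fin g) ℤ ((j : ℕ) + 1)) := Subtype.ext h1.symm
  rw [h2, ch_symFam_eq_aeval]
  exact MvPolynomial.comp_aeval_apply (fun i => (⟨t i, ht i⟩ : ↥O)) (ρ.toIntAlgHom)
    (MvPolynomial.esymm (Fin g) ℤ ((j : ℕ) + 1))

/-- an element of a valuation ring with nonzero residue is a unit. -/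
theorem ch_inv_mem_of_res_ne_zero (O : ValuationSubring Ω) (ρ : ↥O →+* ω)
    (hsurj : Function.Surjective ρ) (a : Ω) (ha : a ∈ O) (h : ρ ⟨a, ha⟩ ≠ 0) : a⁻¹ ∈ O := by
  have hmax : (RingHom.ker ρ).IsMaximal := RingHom.ker_isMaximal_of_surjective ρ hsurj
  have hker : RingHom.ker ρ = IsLocalRing.maximalIdeal ↥O := IsLocalRing.eq_maximalIdeal hmax
  have hnot : (⟨a, ha⟩ : ↥O) ∉ IsLocalRing.maximalIdeal ↥O := by
    rw [← hker, RingHom.mem_ker]
    exact h
  obtain ⟨w, hw⟩ := IsLocalRing.notMem_maximalIdeal.1 hnot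
  have h1 : a * ((w⁻¹ : (↥O)ˣ) : ↥O) = 1 := by
    have h2 : ((w : ↥O) : Ω) = a := congrArg Subtype.val hw
    have h3 : ((w : ↥O) * ((w⁻¹ : (↥O)ˣ) : ↥O) : ↥O) = 1 := w.mul_inv
    have h4 := congrArg (Subtype.val : ↥O → Ω) h3
    rw [← h2]
    exact h4
  have h5 : a⁻¹ = (((w⁻¹ : (↥O)ˣ) : ↥O) : Ω) := inv_eq_of_mul_eq_one_right h1
  rw [h5]
  exact Subtype.property _

end Aux

section Red

variable {K : Type uK} {F : Type uF} {k : Type uk} {Fk : Type uFk}
  [Field K] [Field F] [Algebra K F] [Field k] [Field Fk] [Algebra k Fk]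

/-- (REDC) the reduction of `sumPl`. -/
theorem ch_redDiv_sumPl (r : Place K F → Place k Fk) {n : ℕ} (Q : Fin n → Place K F) :
    redDiv r (sumPl Q) = sumPl (fun i => r (Q i)) := by
  unfold sumPl
  rw [map_sum]
  exact Finset.sum_congr rfl (fun i _ => redDiv_single r (Q i) 1)

/-- (REDC) the reduction of classes `pcls`. -/
theorem ch_redPic0_pcls {S : ValSetup K F k Fk} {r : Place K F → Place k Fk}
    (hr : IsReduction S r) (P₀ : Place K F) (D : Divisor K F) :
    hr.redPic0 (pcls S.hF P₀ D) = pcls S.hFk (r P₀) (redDiv r D) := by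
  unfold pcls
  rw [IsReduction.redPic0_mk]
  congr 1
  apply Subtype.ext
  rw [IsReduction.coe_redDegZero]
  show redDiv r (D - Finsupp.single P₀ (Divisor.degree D)) =
    redDiv r D - Finsupp.single (r P₀) (Divisor.degree (redDiv r D))
  rw [map_sub, redDiv_single, hr.degree_redDiv]

/-- **Step 4 of the chain.**  If `P` is a zero of `u - c` and `r P` is not a pole of `red u`,
then `c ∈ A` and `r P` is a zero of `red u - res c`. -/
theorem ch_mem_of_over {S : ValSetup K F k Fk} {r : Place K F → Place k Fk} {u : F}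
    (hRZ : RedZero S r u) (hRZinv : RedZero S r u⁻¹) (hu : u ∈ S.Ov)
    (hnc : S.red u ∉ Set.range (algebraMap k Fk)) (P : Place K F) (c : K)
    (hPc : 0 < P.ord (u - algebraMap K F c)) (hnp : 0 ≤ (r P).ord (S.red u)) :
    ∃ hc : c ∈ S.A, 0 < (r P).ord (S.red u - algebraMap k Fk (S.res ⟨c, hc⟩)) := by
  by_cases hc : c ∈ S.A
  · exact ⟨hc, hRZ P c hc hPc⟩
  exfalso
  have hc0 : c ≠ 0 := by
    rintro rfl
    exact hc (zero_mem _)
  have hcinv : c⁻¹ ∈ S.A := (S.A.mem_or_inv_mem c).resolve_left hc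
  have hres : S.res ⟨c⁻¹, hcinv⟩ = 0 := by
    by_contra hne
    have := ch_inv_mem_of_res_ne_zero S.A S.res S.res_surj c⁻¹ hcinv hne
    rw [inv_inv] at this
    exact hc this
  have hred0 : S.red u ≠ 0 := by
    intro h0
    exact hnc ⟨0, by rw [map_zero, h0]⟩
  have hu0 : u ≠ 0 := S.ne_zero_of_red_ne_zero hred0
  have hinv : u⁻¹ ∈ S.Ov := S.inv_mem_of_red_ne_zero hred0
  have hcong : Fermat.Agent.S17.Pts.CongAt P u c := Or.inr hPc
  have hev : Fermat.Agent.S17.Pts.ev P u = c := Fermat.Agent.S17.Pts.ev_eq_of_congAt hcong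
  have hord0 : 0 ≤ P.ord u := hcong.ord_nonneg
  have hord : P.ord u = 0 := by
    have h1 : ¬ 0 < P.ord u := by
      intro hpos
      have := (Fermat.Agent.S17.Pts.ev_eq_zero_iff S.hF P hu0 hord0).2 hpos
      rw [hev] at this
      exact hc0 this
    omega
  have hevinv : Fermat.Agent.S17.Pts.ev P u⁻¹ = c⁻¹ := by
    rw [Fermat.Agent.S17.Pts.ev_inv S.hF P hord, hev]
  have hordinv : 0 ≤ P.ord u⁻¹ := by
    rw [P.ord_inv, hord]
    simp
  rcases (Fermat.Agent.S17.Pts.ev_eq_iff S.hF P hordinv c⁻¹).1 hevinv with h1 | h1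
  · have h2 : u = algebraMap K F c := by
      have := congrArg (fun z => z⁻¹) h1
      simp only [inv_inv] at this
      rw [this, map_inv₀, inv_inv]
    rw [h2, sub_self] at hPc
    have h3 : P.ord (0 : F) = 0 := by
      have := Fermat.Agent.S24Res.ord_algebraMap P (0 : K)
      rwa [map_zero] at this
    rw [h3] at hPc
    exact lt_irrefl _ hPc
  · have h2 := hRZinv P c⁻¹ hcinv h1
    rw [hres, map_zero, sub_zero, S.red_inv hu hinv hu0, (r P).ord_inv] at h2
    omega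

end Red

section Main

variable {K : Type uK} {F : Type uF} {Ω : Type uΩ} {FΩ : Type uFΩ}
  {k : Type uk} {Fk : Type uFk} {ω : Type uω} {Fω : Type uFω}
  [Field K] [Field F] [Field Ω] [Field FΩ] [Algebra K F] [Algebra K Ω] [Algebra Ω FΩ]
  [Field k] [Field Fk] [Field ω] [Field Fω] [Algebra k Fk] [Algebra k ω] [Algebra ω Fω]

/-- congruence for the residue map. -/
theorem ch_res_congr (L : LiftSetup K F Ω FΩ k Fk ω Fω) {a b : Ω} (ha : a ∈ L.S.A)
    (hb : b ∈ L.S.A) (hab : a = b) : L.S.res ⟨a, ha⟩ = L.S.res ⟨b, hb⟩ := by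
  subst hab
  rfl

/-- **(CHAIN)** the chain of inequalities.  `hAI`, `hALG` are the two facts of leaf COMB on the
elementary symmetric functions. -/
theorem chain_of_comb [IsAlgClosed K] [CharZero K] [IsAlgClosed Ω] [IsAlgClosed k] [IsAlgClosed ω]
    (L : LiftSetup K F Ω FΩ k Fk ω Fω)
    (hCU : ClaimU L.B0 L.x L.y) (hCL : ClaimL L.Bp L.xb L.yb) (hDG : DivGen L.Bp L.xb)
    (hE0 : GenericOfOver L.Bp L.xb) (hRV : RedValue L.S L.r)
    (hAI : ∀ (g : ℕ) (t : Fin g → ω), AlgebraicIndependent k t →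
      AlgebraicIndependent k (symFam t))
    (hALG : ∀ (g : ℕ) (t : Fin g → Ω), IsTranscendenceBasis K t → ∀ a : Ω,
      IsAlgebraic ↥(IntermediateField.adjoin K (Set.range (symFam t))) a) :
    Chain L := by
  intro N hN n hn hfin g hg Qf Q t ht hQf hQ htK htk hcls
  -- Step 0: zeros reduce to zeros for `x`, `y` and their inverses
  have hxnc : L.S.red (L.B0.φ L.x) ∉ Set.range (algebraMap ω Fω) := by
    rw [L.red_x]
    rintro ⟨c, hc⟩
    exact L.Bp.φ_ne_const L.hxb c hc.symm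
  have hync : L.S.red (L.B0.φ L.y) ∉ Set.range (algebraMap ω Fω) := by
    rw [L.red_y]
    exact L.yb_nonconst
  have hdx : Divisor.degree (poleDiv L.S.hF (L.B0.φ L.x)) ≤
      Divisor.degree (poleDiv L.S.hFk (L.S.red (L.B0.φ L.x))) := by
    rw [L.red_x]
    exact L.deg_x
  obtain ⟨hZx, hZxinv, hPx⟩ := redZeroOfDeg L.hr (L.B0.φ L.x) L.x_mem hxnc hdx
  -- Step 1: `Qb = r ∘ Q` is over `tb`
  have hQb : ∀ i, Over (L.Bp.φ L.xb) (L.r (Q i)) (L.S.res ⟨t i, ht i⟩) := by
    intro i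
    have h1 := hZx (Q i) (t i) (ht i) (hQ i)
    rw [L.red_x] at h1
    exact h1
  -- Step 2: the class relation in characteristic `p`
  have hclsb : pcls L.Bp.hΩ (L.Bp.ext L.P0b) (sumPl (fun i => L.r (Q i))) =
      n • pcls L.Bp.hΩ (L.Bp.ext L.P0b) (sumPl (fun i => L.r (Qf i))) := by
    have h1 := congrArg L.hr.redPic0 hcls
    rw [map_nsmul] at h1
    have h2 := ch_redPic0_pcls L.hr (L.B0.ext L.P0) (sumPl Q)
    have h3 := ch_redPic0_pcls L.hr (L.B0.ext L.P0) (sumPl Qf)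
    rw [ch_redDiv_sumPl, L.r_P0] at h2 h3
    exact (h2.symm.trans h1).trans (congrArg (fun z => n • z) h3)
  -- Step 3: `Qfb = r ∘ Qf` is generic
  have hfix : ∀ σ : ω ≃ₐ[k] ω, L.Bp.act σ • L.Bp.ext L.P0b = L.Bp.ext L.P0b :=
    fun σ => L.Bp.act_ext σ L.P0b
  have hgω : g = genusFF ω Fω := hg.trans L.genus_eq
  have hQbgen : IsGenTuple L.Bp L.xb (fun i => L.r (Q i)) :=
    ⟨fun i => L.S.res ⟨t i, ht i⟩, htk.1, hQb⟩
  have hQfb : IsGenTuple L.Bp L.xb (fun i => L.r (Qf i)) :=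
    hDG _ hfix n g hgω _ _ hQbgen hclsb
  obtain ⟨cb, hcb, hcbover⟩ := hQfb
  have hgen : ∀ i, IsGenPl L.Bp (L.r (Qf i)) :=
    fun i => hE0 _ (cb i) (hcb.transcendental i) (hcbover i)
  -- Step 4: the values are integral and reduce to the values at the reduced places
  obtain ⟨c, hc, hcover⟩ := hQf
  have hnpx : ∀ i, 0 ≤ (L.r (Qf i)).ord (L.S.red (L.B0.φ L.x)) := by
    intro i
    rw [L.red_x, hgen i L.xb]
  have hnopole : ∀ i, ∀ P' : Place Ω FΩ, L.r P' = L.r (Qf i) → 0 ≤ P'.ord (L.B0.φ L.y) := by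
    intro i P' hP'
    by_contra hneg
    have h1 := hPx P' (L.pole_y P' (not_le.mp hneg))
    rw [hP'] at h1
    have h0 := hnpx i
    omega
  have hxA : ∀ i, ∃ hc' : c i ∈ L.S.A, 0 < (L.r (Qf i)).ord
      (L.S.red (L.B0.φ L.x) - algebraMap ω Fω (L.S.res ⟨c i, hc'⟩)) :=
    fun i => ch_mem_of_over hZx hZxinv L.x_mem hxnc (Qf i) (c i) (hcover i) (hnpx i)
  have hynp : ∀ i, 0 ≤ (Qf i).ord (L.B0.φ L.y) := fun i => hnopole i (Qf i) rfl
  have hyover : ∀ i, 0 < (Qf i).ord (L.B0.φ L.y -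
      algebraMap Ω FΩ (Fermat.Agent.S17.Pts.ev (Qf i) (L.B0.φ L.y))) := by
    intro i
    rcases Fermat.Agent.S17.Pts.congAt_ev L.S.hF (Qf i) (hynp i) with h1 | h1
    · exfalso
      have hmem : algebraMap Ω FΩ (Fermat.Agent.S17.Pts.ev (Qf i) (L.B0.φ L.y)) ∈ L.S.Ov := by
        rw [← h1]
        exact L.y_mem
      have hb := (L.S.mem_Ov_iff _).1 hmem
      apply hync
      refine ⟨L.S.res ⟨_, hb⟩, ?_⟩
      rw [← L.S.red_algebraMap hb, ← h1]
    · exact h1
  have hyA : ∀ i, ∃ hc' : Fermat.Agent.S17.Pts.ev (Qf i) (L.B0.φ L.y) ∈ L.S.A,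
      0 < (L.r (Qf i)).ord (L.S.red (L.B0.φ L.y) - algebraMap ω Fω (L.S.res
        ⟨Fermat.Agent.S17.Pts.ev (Qf i) (L.B0.φ L.y), hc'⟩)) :=
    fun i => hRV (L.B0.φ L.y) L.y_mem hync (Qf i) (hnopole i) _ (hyover i)
  have hevx : ∀ i, Fermat.Agent.S17.Pts.ev (Qf i) (L.B0.φ L.x) = c i :=
    fun i => ev_of_over (hcover i)
  have hu : ∀ j, valFam Qf (L.B0.φ L.x) (L.B0.φ L.y) j ∈ L.valRes.A := by
    intro j
    refine Fin.addCases (fun i => ?_) (fun i => ?_) j
    · show Fin.append _ _ (Fin.castAdd g i) ∈ L.S.A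
      rw [Fin.append_left, hevx]
      exact (hxA i).1
    · show Fin.append _ _ (Fin.natAdd g i) ∈ L.S.A
      rw [Fin.append_right]
      exact (hyA i).1
  have hures : L.valRes.resFam (valFam Qf (L.B0.φ L.x) (L.B0.φ L.y)) hu =
      valFam (fun i => L.r (Qf i)) (L.Bp.φ L.xb) (L.Bp.φ L.yb) := by
    funext j
    refine Fin.addCases (fun i => ?_) (fun i => ?_) j
    · have h1 : valFam Qf (L.B0.φ L.x) (L.B0.φ L.y) (Fin.castAdd g i) = c i := by
        show Fin.append _ _ (Fin.castAdd g i) = c i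
        rw [Fin.append_left, hevx]
      have h2 : valFam (fun i => L.r (Qf i)) (L.Bp.φ L.xb) (L.Bp.φ L.yb) (Fin.castAdd g i) =
          L.S.res ⟨c i, (hxA i).1⟩ := by
        show Fin.append _ _ (Fin.castAdd g i) = _
        rw [Fin.append_left]
        have h3 := (hxA i).2
        rw [L.red_x] at h3
        exact ev_of_over h3
      rw [h2]
      exact ch_res_congr L _ _ h1
    · have h1 : valFam Qf (L.B0.φ L.x) (L.B0.φ L.y) (Fin.natAdd g i) =
          Fermat.Agent.S17.Pts.ev (Qf i) (L.B0.φ L.y) := by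
        show Fin.append _ _ (Fin.natAdd g i) = _
        rw [Fin.append_right]
      have h2 : valFam (fun i => L.r (Qf i)) (L.Bp.φ L.xb) (L.Bp.φ L.yb) (Fin.natAdd g i) =
          L.S.res ⟨Fermat.Agent.S17.Pts.ev (Qf i) (L.B0.φ L.y), (hyA i).1⟩ := by
        show Fin.append _ _ (Fin.natAdd g i) = _
        rw [Fin.append_right]
        have h3 := (hyA i).2
        rw [L.red_y] at h3
        exact ev_of_over h3
      rw [h2]
      exact ch_res_congr L _ _ h1
  -- the symmetric functions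
  have hs : ∀ j, symFam t j ∈ L.valRes.A := fun j => (ch_symFam_res L.S.A L.S.res t ht j).1
  have hsres : L.valRes.resFam (symFam t) hs = symFam (fun i => L.S.res ⟨t i, ht i⟩) := by
    funext j
    exact (ch_symFam_res L.S.A L.S.res t ht j).2
  -- Step 5: the bridge
  have hind : AlgebraicIndependent k (L.valRes.resFam (symFam t) hs) := by
    rw [hsres]
    exact hAI g _ htk.1
  have halg : ∀ j, IsAlgebraic ↥(adjoin K (Set.range (symFam t)))
      (valFam Qf (L.B0.φ L.x) (L.B0.φ L.y) j) := fun j => hALG g t htK _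
  obtain ⟨-, hle⟩ := bridge L.valRes g (g + g) (symFam t) hs _ hu hind halg
  obtain ⟨hfd, -⟩ := bridgeVal L.valRes g (g + g) (symFam t) hs _ hu hind halg
  obtain ⟨hfink, -⟩ := bridgeGalUpper (K := k) (Ω := ω) g (g + g)
    (L.valRes.resFam (symFam t) hs) (L.valRes.resFam _ hu) hfd
  rw [hsres, hures] at hle hfink
  -- Step 6: the two claims
  have h6 := hCL n hn L.P0b g hgω (fun i => L.r (Qf i)) (fun i => L.r (Q i))
    (fun i => L.S.res ⟨t i, ht i⟩) htk hQb hclsb hfink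
  have h7 := hCU N hN n hn hfin (L.B0.ext L.P0) (fun σ => L.B0.act_ext σ L.P0) g hg Qf Q t
    ⟨c, hc, hcover⟩ hQ hcls
  exact h6.trans (hle.trans h7)

/-- **(CHAIN)** the chain of inequalities. -/
theorem chain [IsAlgClosed K] [CharZero K] [IsAlgClosed Ω] [IsAlgClosed k] [IsAlgClosed ω]
    (L : LiftSetup K F Ω FΩ k Fk ω Fω)
    (hCU : ClaimU L.B0 L.x L.y) (hCL : ClaimL L.Bp L.xb L.yb) (hDG : DivGen L.Bp L.xb)
    (hE0 : GenericOfOver L.Bp L.xb) (hRV : RedValue L.S L.r) : Chain L :=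
  chain_of_comb L hCU hCL hDG hE0 hRV (fun _ _ h => algebraicIndependent_symFam h)
    (fun _ _ h a => isAlgebraic_adjoin_symFam h a)

end Main

end Fermat.Agent.S27
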