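import Fermat.Agent.S27.Lift.Interface
import Fermat.Agent.S27.Lift.Desc3
import Fermat.Agent.S27.Lift.TransBasis
import Fermat.Agent.S27.Red.Count
import Fermat.Agent.S27.Red.UpperFinal
import Fermat.Agent.S27.Red.InstBase
import Fermat.Agent.S27.Red.BranchBC

set_option autoImplicit false
set_option linter.style.haveILetI false

/-!
# S27, seat E / CONSTRUCTION: the OUTER glue  (helper38)

`InstStatement` (INST, seat C): for a plane model `M` of `F / K`, a good valuation ring `A` of `K`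
(as delivered by `exists_goodValuation`), a reduction datum `D : RedDatum M A`, an algebraically
closed field `Ω ⊇ K` and a valuation ring `AΩ` of `Ω` over `A`, there is a lift core
`L : LiftCore K F Ω FΩ k Fk ω Fω` with `FΩ = D.FΩ Ω`, `k` the residue field of `A`, `Fk = D.Fk`,
`L.B0 = D.bcSetup Ω hRR`, `L.S.A = AΩ`, `L.x = M.x`, `L.y = M.y`.

`construction_of_inst : InstStatement → ConstructionStatement`: the choice of `M`, `A`, `D`,
`Ω = tbOmega K g`, the count over `k` (COUNT), the transcendence basis (TB + genus under constant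
extension), finiteness (strong upper bound for `FΩ`) and descent (DESC3).
-/

noncomputable section

namespace Fermat.Agent.S27

open AlgebraicCurve Fermat.Agent.RR Fermat.Agent.Deuring Fermat.Agent.FF IntermediateField

universe u v

/-- **(INST)** the lift core of a reduction datum at a valuation ring `AΩ` over `A`. -/
def InstStatement : Prop :=
  ∀ (K : Type u) (F : Type v) [Field K] [Field F] [Algebra K F] [IsAlgClosed K] [CharZero K]
    (hRR : IsRRField K F) (M : PlaneModel K F) (S : Finset K) (A : ValuationSubring K)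
    [IsAlgClosed (IsLocalRing.ResidueField ↥A)],
    (∀ c : K, c ∉ S → Fermat.Agent.S27GR.fibreCard K M.x c = M.N) →
    (∀ t ∈ branchUnits S, t ∈ A ∧ t⁻¹ ∈ A) →
    M.IntegralAt A →
    ∀ (D : RedDatum M A), IsRRField (IsLocalRing.ResidueField ↥A) ↥D.Fk →
    ∀ (Ω : Type u) [Field Ω] [Algebra K Ω] [IsAlgClosed Ω] [CharZero Ω]
      (AΩ : ValuationSubring Ω), AΩ.comap (algebraMap K Ω) = A →
      ∃ (ω : Type u) (_ : Field ω) (_ : IsAlgClosed ω)
        (_ : Algebra (IsLocalRing.ResidueField ↥A) ω)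
        (Fω : Type u) (_ : Field Fω) (_ : Algebra ω Fω)
        (L : LiftCore K F Ω ↥(D.FΩ Ω) (IsLocalRing.ResidueField ↥A) ↥D.Fk ω Fω),
        L.B0 = D.bcSetup Ω hRR ∧ L.S.A = AΩ ∧ L.x = M.x ∧ L.y = M.y ∧ L.valRes.ResKSurj

/-- **the outer glue of the construction.** -/
theorem construction_of_inst (hInst : InstStatement.{u, v}) : ConstructionStatement.{u, v} := by
  intro K F _ _ _ _ _ hRR ℓ hℓ
  obtain ⟨M⟩ := nonempty_planeModel' K F hRR
  obtain ⟨S, A, hac, hS, hT, hI, -, hD⟩ := exists_goodValuation K F hRR M ℓ hℓ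
  haveI := hac
  obtain ⟨D⟩ := nonempty_redDatum M A hI
  obtain ⟨hRRk, -, hcount⟩ := hD D
  haveI : CharZero (tbOmega K (genusFF K F)) := tbOmega_charZero K (genusFF K F)
  have hgΩ : genusFF (tbOmega K (genusFF K F)) ↥(D.FΩ (tbOmega K (genusFF K F))) = genusFF K F :=
    BCSetup.genusFF_bc_eq (D.bcSetup (tbOmega K (genusFF K F)) hRR)
  refine ⟨tbOmega K (genusFF K F), inferInstance, inferInstance, inferInstance,
    ↥(D.FΩ (tbOmega K (genusFF K F))), inferInstance, inferInstance,
    IsLocalRing.ResidueField ↥A, inferInstance, hac, ↥D.Fk, inferInstance, inferInstance,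
    D.bcSetup (tbOmega K (genusFF K F)) hRR, M.x, M.y, A, M.x_trans, ?_, hcount, ?_, ?_⟩
  · rw [hgΩ]
    exact ⟨tbBasis K (genusFF K F), tbBasis_isTranscendenceBasis K (genusFF K F)⟩
  · intro j
    obtain ⟨hfin, -⟩ := torsion_finite_and_card_le (tbOmega K (genusFF K F))
      ↥(D.FΩ (tbOmega K (genusFF K F))) (D.bcSetup (tbOmega K (genusFF K F)) hRR).hΩ ℓ hℓ j
    exact ⟨hfin, desc3 (D.bcSetup (tbOmega K (genusFF K F)) hRR) (ℓ ^ j) (pow_pos hℓ.pos j) hfin⟩
  · intro AΩ hcomap
    obtain ⟨ω, i1, i2, i3, Fω, i4, i5, L, h1, h2, h3, h4, h5⟩ :=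
      hInst K F hRR M S A hS hT hI D hRRk (tbOmega K (genusFF K F)) AΩ hcomap
    exact ⟨ω, i1, i2, i3, Fω, i4, i5, L, h1, h2, h3, h4, M.gen, h5⟩

end Fermat.Agent.S27
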