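/-
S27, seat E, leaf REDC (helper18): Deuring's reduction of classes `pcls` and of divisors `sumPl`.

* `redDiv_sumPl r Q : redDiv r (sumPl Q) = sumPl (r ∘ Q)`;
* `redDiv_sub_single`, `redPic0_pcls hr P₀ D :
    hr.redPic0 (pcls S.hF P₀ D) = pcls S.hFk (r P₀) (redDiv r D)`;
* `redPic0_pcls_sumPl hr P₀ Q :
    hr.redPic0 (pcls S.hF P₀ (sumPl Q)) = pcls S.hFk (r P₀) (sumPl (r ∘ Q))`.
-/
import Fermat.Agent.S27.Lift.ChainProps
import Fermat.Agent.Lib.FF.RedCore

set_option autoImplicit false

noncomputable section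

namespace Fermat.Agent.S27

open AlgebraicCurve Fermat.Agent.RR Fermat.Agent.Deuring Fermat.Agent.FF

variable {K F k Fk : Type*} [Field K] [Field F] [Algebra K F] [Field k] [Field Fk] [Algebra k Fk]

/-- **(REDC)** the reduction of the divisor `Q_0 + .. + Q_{n-1}`. -/
theorem redDiv_sumPl (r : Place K F → Place k Fk) {n : ℕ} (Q : Fin n → Place K F) :
    redDiv r (sumPl Q) = sumPl (r ∘ Q) := by
  unfold sumPl
  rw [map_sum]
  refine Finset.sum_congr rfl fun i _ => ?_
  rw [redDiv_single]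
  rfl

/-- the reduction of `D - d P₀`. -/
theorem redDiv_sub_single (r : Place K F → Place k Fk) (D : Divisor K F) (P₀ : Place K F)
    (d : ℤ) :
    redDiv r (D - Finsupp.single P₀ d) = redDiv r D - Finsupp.single (r P₀) d := by
  rw [map_sub, redDiv_single]

/-- **(REDC)** the reduction of the class of `D - deg(D) P₀`. -/
theorem redPic0_pcls {S : ValSetup K F k Fk} {r : Place K F → Place k Fk}
    (hr : IsReduction S r) (P₀ : Place K F) (D : Divisor K F) :
    hr.redPic0 (pcls S.hF P₀ D) = pcls S.hFk (r P₀) (redDiv r D) := by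
  unfold pcls
  rw [IsReduction.redPic0_mk]
  congr 1
  apply Subtype.ext
  rw [IsReduction.coe_redDegZero]
  show redDiv r (D - Finsupp.single P₀ (Divisor.degree D)) =
    redDiv r D - Finsupp.single (r P₀) (Divisor.degree (redDiv r D))
  rw [hr.degree_redDiv, redDiv_sub_single]

/-- the reduction of the class of `Q_0 + .. + Q_{n-1} - n P₀`. -/
theorem redPic0_pcls_sumPl {S : ValSetup K F k Fk} {r : Place K F → Place k Fk}
    (hr : IsReduction S r) (P₀ : Place K F) {n : ℕ} (Q : Fin n → Place K F) :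
    hr.redPic0 (pcls S.hF P₀ (sumPl Q)) = pcls S.hFk (r P₀) (sumPl (r ∘ Q)) := by
  rw [redPic0_pcls hr P₀ (sumPl Q), redDiv_sumPl]

end Fermat.Agent.S27
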